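import Mathlib
import Fermat.Prelude.Def_GroupCohomology_ContinuousUnramified

/-!
# S55 / C0 (helper49): level-constant cochains, the cochain model of Program C

A *level datum* on a group `G` is a homomorphism `r : G →* Gal(ℚ̄/ℚ)` together with a family of
intermediate fields ("levels") containing `⊥` and closed under `⊔`.  A cochain
`f : (Fin n → G) → M` is *level-constant* if, for some level `F` whose fixing subgroup is normal,
it is invariant under right multiplication of every argument by elements of `r ⁻¹ (Gal(ℚ̄/F))`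
and takes its values in the vectors fixed by that subgroup.  (For a module on which some level
subgroup acts trivially these are exactly the Prelude's level-constant cochains, see `C0Spec`.)

The level-constant cochains form a subcomplex `lcComplex D M` of Mathlib's
`inhomogeneousCochains M`, for every representation `M`, in all degrees.
-/

set_option autoImplicit false

open CategoryTheory groupCohomology

noncomputable section

namespace Fermat.Agent.S55.H49

/-- The absolute Galois group of `ℚ`. -/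
abbrev GQ : Type := AlgebraicClosure ℚ ≃ₐ[ℚ] AlgebraicClosure ℚ

/-- A level datum on a group `G`. -/
structure LevelDatum (G : Type) [Group G] where
  /-- the structure map to the absolute Galois group of `ℚ` -/
  r : G →* GQ
  /-- the admissible levels -/
  Lev : IntermediateField ℚ (AlgebraicClosure ℚ) → Prop
  bot : Lev ⊥
  sup : ∀ {F F' : IntermediateField ℚ (AlgebraicClosure ℚ)}, Lev F → Lev F' → Lev (F ⊔ F')

variable {G : Type} [Group G]

namespace LevelDatum

/-- The subgroup of `G` attached to an intermediate field. -/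
def sub (D : LevelDatum G) (F : IntermediateField ℚ (AlgebraicClosure ℚ)) : Subgroup G :=
  (F.fixingSubgroup).comap D.r

theorem mem_sub {D : LevelDatum G} {F : IntermediateField ℚ (AlgebraicClosure ℚ)} {s : G} :
    s ∈ D.sub F ↔ D.r s ∈ F.fixingSubgroup := Iff.rfl

theorem sub_antitone (D : LevelDatum G) {F F' : IntermediateField ℚ (AlgebraicClosure ℚ)}
    (h : F ≤ F') : D.sub F' ≤ D.sub F :=
  fun _ hs => IntermediateField.fixingSubgroup_antitone h hs

theorem sub_normal (D : LevelDatum G) {F : IntermediateField ℚ (AlgebraicClosure ℚ)}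
    (hF : (F.fixingSubgroup).Normal) : (D.sub F).Normal :=
  hF.comap D.r

end LevelDatum

variable {k : Type} [CommRing k]

/-- `f` is constant modulo the subgroup `U` in every argument, with values fixed by `U`. -/
def IsLCAt (U : Subgroup G) (M : Rep.{0} k G) {n : ℕ} (f : (Fin n → G) → M) : Prop :=
  (∀ g s : Fin n → G, (∀ i, s i ∈ U) → f (g * s) = f g) ∧
    ∀ (g : Fin n → G) (s : G), s ∈ U → M.ρ s (f g) = f g

/-- Level-constant cochains. -/
def IsLC (D : LevelDatum G) (M : Rep.{0} k G) {n : ℕ} (f : (Fin n → G) → M) : Prop :=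
  ∃ F : IntermediateField ℚ (AlgebraicClosure ℚ), D.Lev F ∧ (F.fixingSubgroup).Normal ∧
    IsLCAt (D.sub F) M f

theorem IsLCAt.mono {U V : Subgroup G} (h : V ≤ U) {M : Rep.{0} k G} {n : ℕ}
    {f : (Fin n → G) → M} (hf : IsLCAt U M f) : IsLCAt V M f :=
  ⟨fun g s hs => hf.1 g s fun i => h (hs i), fun g s hs => hf.2 g s (h hs)⟩

theorem IsLCAt.add {U : Subgroup G} {M : Rep.{0} k G} {n : ℕ} {f f' : (Fin n → G) → M}
    (hf : IsLCAt U M f) (hf' : IsLCAt U M f') : IsLCAt U M (f + f') :=
  ⟨fun g s hs => by simp only [Pi.add_apply, hf.1 g s hs, hf'.1 g s hs],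
    fun g s hs => by simp only [Pi.add_apply, map_add, hf.2 g s hs, hf'.2 g s hs]⟩

theorem IsLCAt.zero (U : Subgroup G) (M : Rep.{0} k G) (n : ℕ) :
    IsLCAt U M (0 : (Fin n → G) → M) :=
  ⟨fun _ _ _ => rfl, fun _ _ _ => by simp⟩

theorem IsLCAt.smul {U : Subgroup G} {M : Rep.{0} k G} {n : ℕ} {f : (Fin n → G) → M}
    (hf : IsLCAt U M f) (c : k) : IsLCAt U M (c • f) :=
  ⟨fun g s hs => by simp only [Pi.smul_apply, hf.1 g s hs],
    fun g s hs => by simp only [Pi.smul_apply, map_smul, hf.2 g s hs]⟩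

/-- Equivalent form of the invariance: `f g = f g'` as soon as `g i` and `g' i` are congruent
modulo `U` for all `i`. -/
theorem IsLCAt.congr {U : Subgroup G} {M : Rep.{0} k G} {n : ℕ} {f : (Fin n → G) → M}
    (hf : IsLCAt U M f) {g g' : Fin n → G} (h : ∀ i, (g i)⁻¹ * g' i ∈ U) : f g = f g' := by
  have := hf.1 g (fun i => (g i)⁻¹ * g' i) h
  rw [← this]
  congr 1
  funext i
  simp

theorem normal_fixingSubgroup_sup {F F' : IntermediateField ℚ (AlgebraicClosure ℚ)}
    (hF : (F.fixingSubgroup).Normal) (hF' : (F'.fixingSubgroup).Normal) :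
    ((F ⊔ F').fixingSubgroup).Normal := by
  rw [IntermediateField.fixingSubgroup_sup]
  exact Subgroup.normal_inf_normal _ _

/-- The submodule of level-constant `n`-cochains. -/
def lcCochains (D : LevelDatum G) (M : Rep.{0} k G) (n : ℕ) : Submodule k ((Fin n → G) → M) where
  carrier := {f | IsLC D M f}
  add_mem' := by
    rintro f f' ⟨F, hF, hN, hf⟩ ⟨F', hF', hN', hf'⟩
    exact ⟨F ⊔ F', D.sup hF hF', normal_fixingSubgroup_sup hN hN',
      (hf.mono (D.sub_antitone le_sup_left)).add (hf'.mono (D.sub_antitone le_sup_right))⟩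
  zero_mem' := ⟨⊥, D.bot, by
    rw [show (⊥ : IntermediateField ℚ (AlgebraicClosure ℚ)).fixingSubgroup = ⊤ from
      IntermediateField.fixingSubgroup_bot]
    infer_instance, IsLCAt.zero _ _ _⟩
  smul_mem' := by
    rintro c f ⟨F, hF, hN, hf⟩
    exact ⟨F, hF, hN, hf.smul c⟩

theorem mem_lcCochains {D : LevelDatum G} {M : Rep.{0} k G} {n : ℕ} {f : (Fin n → G) → M} :
    f ∈ lcCochains D M n ↔ IsLC D M f := Iff.rfl


/-- Contraction of adjacent entries respects congruence modulo a normal subgroup. -/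
theorem contractNth_congr {U : Subgroup G} (hU : U.Normal) {n : ℕ} (j : Fin (n + 1))
    {g g' : Fin (n + 1) → G} (h : ∀ i, (g i)⁻¹ * g' i ∈ U) (i : Fin n) :
    (Fin.contractNth j (· * ·) g i)⁻¹ * Fin.contractNth j (· * ·) g' i ∈ U := by
  unfold Fin.contractNth
  split_ifs
  · exact h _
  · have h1 := h i.castSucc
    have h2 := h i.succ
    have e : (g i.castSucc * g i.succ)⁻¹ * (g' i.castSucc * g' i.succ) =
        ((g i.succ)⁻¹ * ((g i.castSucc)⁻¹ * g' i.castSucc) * g i.succ) *
          ((g i.succ)⁻¹ * g' i.succ) := by group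
    rw [e]
    exact U.mul_mem (hU.conj_mem' _ h1 _) h2
  · exact h _

/-- The inhomogeneous differential preserves `IsLCAt U` for a normal subgroup `U`. -/
theorem IsLCAt.d {U : Subgroup G} (hU : U.Normal) {M : Rep.{0} k G} {n : ℕ}
    {f : (Fin n → G) → M} (hf : IsLCAt U M f) :
    IsLCAt U M ((inhomogeneousCochains.d M n).hom f) := by
  refine ⟨fun g s hs => ?_, fun g s hs => ?_⟩
  · simp only [inhomogeneousCochains.d_hom_apply]
    congr 1
    · have h1 : (f fun i => (g * s) i.succ) = f fun i => g i.succ :=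
        hf.1 (fun i => g i.succ) (fun i => s i.succ) fun i => hs _
      rw [h1, Pi.mul_apply, map_mul]
      exact congrArg _ (hf.2 _ _ (hs 0))
    · refine Finset.sum_congr rfl fun j _ => ?_
      congr 1
      refine (hf.congr (contractNth_congr hU j fun i => ?_)).symm
      simp only [Pi.mul_apply, inv_mul_cancel_left]
      exact hs i
  · simp only [inhomogeneousCochains.d_hom_apply, map_add, map_sum, map_smul]
    congr 1
    · have e : s * g 0 = g 0 * ((g 0)⁻¹ * s * g 0) := by group
      rw [← Module.End.mul_apply, ← map_mul, e, map_mul, Module.End.mul_apply]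
      exact congrArg _ (hf.2 _ _ (hU.conj_mem' _ hs _))
    · refine Finset.sum_congr rfl fun j _ => ?_
      rw [hf.2 _ _ hs]

theorem IsLC.d {D : LevelDatum G} {M : Rep.{0} k G} {n : ℕ} {f : (Fin n → G) → M}
    (hf : IsLC D M f) : IsLC D M ((inhomogeneousCochains.d M n).hom f) := by
  obtain ⟨F, hF, hN, h⟩ := hf
  exact ⟨F, hF, hN, h.d (D.sub_normal hN)⟩

/-- The differential restricted to level-constant cochains. -/
def lcD (D : LevelDatum G) (M : Rep.{0} k G) (n : ℕ) :
    lcCochains D M n →ₗ[k] lcCochains D M (n + 1) :=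
  (inhomogeneousCochains.d M n).hom.restrict fun _ hf => IsLC.d hf

@[simp]
theorem lcD_coe (D : LevelDatum G) (M : Rep.{0} k G) (n : ℕ) (f : lcCochains D M n) :
    ((lcD D M n f : lcCochains D M (n + 1)) : (Fin (n + 1) → G) → M) =
      (inhomogeneousCochains.d M n).hom f := rfl

theorem lcD_comp_lcD (D : LevelDatum G) (M : Rep.{0} k G) (n : ℕ) :
    lcD D M (n + 1) ∘ₗ lcD D M n = 0 := by
  ext f : 1
  apply Subtype.ext
  have h := ModuleCat.hom_ext_iff.mp (inhomogeneousCochains.d_comp_d M (n := n))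
  exact LinearMap.congr_fun h (f : (Fin n → G) → M)

/-- The complex of level-constant cochains: a subcomplex of `inhomogeneousCochains M`. -/
def lcComplex (D : LevelDatum G) (M : Rep.{0} k G) : CochainComplex (ModuleCat k) ℕ :=
  CochainComplex.of (fun n => ModuleCat.of k (lcCochains D M n))
    (fun n => ModuleCat.ofHom (lcD D M n)) fun n => by
      rw [← ModuleCat.ofHom_comp, lcD_comp_lcD]
      rfl

/-- Level-constant cohomology. -/
def Hlc (D : LevelDatum G) (M : Rep.{0} k G) (n : ℕ) : ModuleCat k :=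
  (lcComplex D M).homology n


/-! ### Functoriality -/

variable {G' : Type} [Group G']

/-- A morphism of level data (in the direction of restriction: from `D'` on `G'` to `D` on `G`):
a group homomorphism over `Gal(ℚ̄/ℚ)` such that every level of `D` is a level of `D'`. -/
structure LevelDatum.Hom (D' : LevelDatum G') (D : LevelDatum G) where
  /-- the group homomorphism -/
  φ : G' →* G
  comm : ∀ g, D.r (φ g) = D'.r g
  lev : ∀ {F : IntermediateField ℚ (AlgebraicClosure ℚ)}, D.Lev F → D'.Lev F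

/-- The identity morphism of a level datum. -/
def LevelDatum.Hom.id (D : LevelDatum G) : D.Hom D where
  φ := MonoidHom.id G
  comm _ := rfl
  lev h := h

theorem IsLC.map {D' : LevelDatum G'} {D : LevelDatum G} (h : D'.Hom D) {A : Rep.{0} k G}
    {B : Rep.{0} k G'} (ψ : Rep.res h.φ A ⟶ B) {n : ℕ} {f : (Fin n → G) → A}
    (hf : IsLC D A f) : IsLC D' B (((cochainsMap h.φ ψ).f n).hom f) := by
  obtain ⟨F, hF, hN, h1, h2⟩ := hf
  refine ⟨F, h.lev hF, hN, fun g s hs => ?_, fun g s hs => ?_⟩
  · show ψ.hom (f (h.φ ∘ (g * s))) = ψ.hom (f (h.φ ∘ g))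
    have e : (h.φ ∘ (g * s)) = (h.φ ∘ g) * (h.φ ∘ s) := by
      funext i
      simp
    rw [e, h1 _ _ fun i => ?_]
    show D.r (h.φ (s i)) ∈ F.fixingSubgroup
    rw [h.comm]
    exact hs i
  · show B.ρ s (ψ.hom (f (h.φ ∘ g))) = ψ.hom (f (h.φ ∘ g))
    have e := Rep.hom_comm_apply ψ s (f (h.φ ∘ g))
    rw [← e]
    congr 1
    refine h2 _ _ ?_
    show D.r (h.φ s) ∈ F.fixingSubgroup
    rw [h.comm]
    exact hs

/-- The map induced on level-constant cochains by a morphism of level data `h : D' → D` and a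
morphism of representations `ψ : Res(h.φ)(A) ⟶ B`: it sends `x : Gⁿ → A` to
`g ↦ ψ (x (h.φ ∘ g))` (the restriction of Mathlib's `cochainsMap`). -/
def lcMap {D' : LevelDatum G'} {D : LevelDatum G} (h : D'.Hom D) {A : Rep.{0} k G}
    {B : Rep.{0} k G'} (ψ : Rep.res h.φ A ⟶ B) : lcComplex D A ⟶ lcComplex D' B where
  f n := ModuleCat.ofHom
    (((cochainsMap h.φ ψ).f n).hom.restrict fun _ hf => IsLC.map h ψ hf)
  comm' i j (hij : _ = _) := by
    subst hij
    refine ModuleCat.hom_ext (LinearMap.ext fun (f : lcCochains D A i) => Subtype.ext ?_)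
    have e := ModuleCat.hom_ext_iff.mp ((cochainsMap h.φ ψ).comm i (i + 1))
    have e' := LinearMap.congr_fun e (f : (Fin i → G) → A)
    simp only [CochainComplex.of_d] at e'
    simp only [lcComplex, CochainComplex.of_d]
    exact e'

/-- Functoriality in the coefficients. -/
abbrev lcMapCoeff (D : LevelDatum G) {A B : Rep.{0} k G} (ψ : A ⟶ B) :
    lcComplex D A ⟶ lcComplex D B :=
  lcMap (LevelDatum.Hom.id D) ψ

/-- Restriction along a morphism of level data. -/
abbrev lcRes {D' : LevelDatum G'} {D : LevelDatum G} (h : D'.Hom D) (A : Rep.{0} k G) :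
    lcComplex D A ⟶ lcComplex D' (Rep.res h.φ A) :=
  lcMap h (𝟙 _)

/-- The inclusion of the level-constant cochains into all inhomogeneous cochains. -/
def lcIncl (D : LevelDatum G) (M : Rep.{0} k G) : lcComplex D M ⟶ inhomogeneousCochains M where
  f n := ModuleCat.ofHom (lcCochains D M n).subtype
  comm' i j (hij : _ = _) := by
    subst hij
    refine ModuleCat.hom_ext (LinearMap.ext fun (f : lcCochains D M i) => ?_)
    simp only [lcComplex, CochainComplex.of_d]
    rfl


/-! ### Three constructions on cochain complexes of modules: product, shift by one, cocone -/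

section Complexes

variable {K L : CochainComplex (ModuleCat.{0} k) ℕ}

/-- The product of a family of cochain complexes of modules (degreewise `Π`-type). -/
def piComplex {ι : Type} (C : ι → CochainComplex (ModuleCat.{0} k) ℕ) :
    CochainComplex (ModuleCat.{0} k) ℕ :=
  CochainComplex.of (fun n => ModuleCat.of k (∀ v, (C v).X n))
    (fun n => ModuleCat.ofHom (LinearMap.pi fun v => ((C v).d n (n + 1)).hom ∘ₗ LinearMap.proj v))
    fun n => by
      refine ModuleCat.hom_ext (LinearMap.ext fun x => funext fun v => ?_)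
      have e := LinearMap.congr_fun (ModuleCat.hom_ext_iff.mp ((C v).d_comp_d n (n + 1) (n + 2)))
        (x v)
      exact e

/-- The morphism to a product of complexes given by a family of morphisms. -/
def piLift {ι : Type} {C : ι → CochainComplex (ModuleCat.{0} k) ℕ}
    (ρ : ∀ v, K ⟶ C v) : K ⟶ piComplex C where
  f n := ModuleCat.ofHom (LinearMap.pi fun v => ((ρ v).f n).hom)
  comm' i j (hij : _ = _) := by
    subst hij
    refine ModuleCat.hom_ext (LinearMap.ext fun x => funext fun v => ?_)
    have e := LinearMap.congr_fun (ModuleCat.hom_ext_iff.mp ((ρ v).comm i (i + 1))) x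
    simp only [piComplex, CochainComplex.of_d]
    exact e

/-- The objects of the cocone of `ρ : K ⟶ L`: `K⁰` in degree `0`, `Kⁿ⁺¹ × Lⁿ` in degree `n + 1`. -/
def coconeX (_ρ : K ⟶ L) : ℕ → ModuleCat.{0} k
  | 0 => K.X 0
  | n + 1 => ModuleCat.of k (K.X (n + 1) × L.X n)

/-- The differential of the cocone: `a ↦ (d a, ρ a)` in degree `0` and
`(a, b) ↦ (d a, ρ a - d b)` in positive degrees. -/
def coconeD (ρ : K ⟶ L) : ∀ n, coconeX ρ n ⟶ coconeX ρ (n + 1)
  | 0 => ModuleCat.ofHom (LinearMap.prod (K.d 0 1).hom (ρ.f 0).hom)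
  | n + 1 => ModuleCat.ofHom
      (LinearMap.prod ((K.d (n + 1) (n + 2)).hom ∘ₗ LinearMap.fst k _ _)
        ((ρ.f (n + 1)).hom ∘ₗ LinearMap.fst k _ _ - (L.d n (n + 1)).hom ∘ₗ LinearMap.snd k _ _))

theorem coconeD_comp (ρ : K ⟶ L) (n : ℕ) : coconeD ρ n ≫ coconeD ρ (n + 1) = 0 := by
  cases n with
  | zero =>
    refine ModuleCat.hom_ext (LinearMap.ext fun (x : K.X 0) => ?_)
    have e1 := LinearMap.congr_fun (ModuleCat.hom_ext_iff.mp (K.d_comp_d 0 1 2)) x
    have e2 := LinearMap.congr_fun (ModuleCat.hom_ext_iff.mp (ρ.comm 0 1)) x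
    refine Prod.ext e1 ?_
    show (ρ.f 1).hom ((K.d 0 1).hom x) - (L.d 0 1).hom ((ρ.f 0).hom x) = 0
    rw [sub_eq_zero]
    exact e2.symm
  | succ n =>
    refine ModuleCat.hom_ext (LinearMap.ext fun (x : K.X (n + 1) × L.X n) => ?_)
    have e1 := LinearMap.congr_fun (ModuleCat.hom_ext_iff.mp (K.d_comp_d (n + 1) (n + 2) (n + 3)))
      x.1
    have e2 := LinearMap.congr_fun (ModuleCat.hom_ext_iff.mp (ρ.comm (n + 1) (n + 2))) x.1
    have e3 := LinearMap.congr_fun (ModuleCat.hom_ext_iff.mp (L.d_comp_d n (n + 1) (n + 2))) x.2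
    refine Prod.ext e1 ?_
    show (ρ.f (n + 2)).hom ((K.d (n + 1) (n + 2)).hom x.1) -
      (L.d (n + 1) (n + 2)).hom ((ρ.f (n + 1)).hom x.1 - (L.d n (n + 1)).hom x.2) = 0
    rw [map_sub, sub_sub_eq_add_sub, sub_eq_zero]
    have e2' : (L.d (n + 1) (n + 2)).hom ((ρ.f (n + 1)).hom x.1) =
        (ρ.f (n + 2)).hom ((K.d (n + 1) (n + 2)).hom x.1) := e2
    have e3' : (L.d (n + 1) (n + 2)).hom ((L.d n (n + 1)).hom x.2) = 0 := e3
    rw [e3', add_zero, e2']

/-- The cocone of a morphism of complexes `ρ : K ⟶ L` (the mapping cone shifted by `-1`):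
`Cⁿ = Kⁿ × Lⁿ⁻¹`, `d (a, b) = (d a, ρ a - d b)`.  Its cohomology sits in a long exact sequence
`… → Hⁿ⁻¹(L) → Hⁿ(cocone) → Hⁿ(K) → Hⁿ(L) → …`. -/
def cocone (ρ : K ⟶ L) : CochainComplex (ModuleCat.{0} k) ℕ :=
  CochainComplex.of (coconeX ρ) (coconeD ρ) (coconeD_comp ρ)

end Complexes


section Complexes

variable {K L : CochainComplex (ModuleCat.{0} k) ℕ}

/-- The projection `cocone ρ ⟶ K`. -/
def coconeFst (ρ : K ⟶ L) : cocone ρ ⟶ K where
  f
    | 0 => 𝟙 (K.X 0)
    | n + 1 => ModuleCat.ofHom (LinearMap.fst k (K.X (n + 1)) (L.X n))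
  comm' i j (hij : _ = _) := by
    subst hij
    cases i with
    | zero =>
      refine ModuleCat.hom_ext (LinearMap.ext fun (x : K.X 0) => ?_)
      simp only [cocone, CochainComplex.of_d]
      rfl
    | succ n =>
      refine ModuleCat.hom_ext (LinearMap.ext fun (x : K.X (n + 1) × L.X n) => ?_)
      simp only [cocone, CochainComplex.of_d]
      rfl

/-- The objects of the complex `L` shifted by one to the right: `0` in degree `0`, `Lⁿ` in
degree `n + 1`. -/
def shiftOneX (L : CochainComplex (ModuleCat.{0} k) ℕ) : ℕ → ModuleCat.{0} k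
  | 0 => ModuleCat.of k PUnit
  | n + 1 => L.X n

/-- The differential of the shifted complex: `-d`. -/
def shiftOneD (L : CochainComplex (ModuleCat.{0} k) ℕ) : ∀ n, shiftOneX L n ⟶ shiftOneX L (n + 1)
  | 0 => 0
  | n + 1 => -L.d n (n + 1)

/-- The complex `L` shifted by one to the right, with differential `-d`. -/
def shiftOne (L : CochainComplex (ModuleCat.{0} k) ℕ) : CochainComplex (ModuleCat.{0} k) ℕ :=
  CochainComplex.of (shiftOneX L) (shiftOneD L) fun n => by
    cases n with
    | zero => exact Limits.zero_comp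
    | succ n =>
      show (-L.d n (n + 1)) ≫ (-L.d (n + 1) (n + 2)) = 0
      simp

/-- The inclusion `L[-1] ⟶ cocone ρ`, `b ↦ (0, b)`. -/
def coconeSnd (ρ : K ⟶ L) : shiftOne L ⟶ cocone ρ where
  f
    | 0 => 0
    | n + 1 => ModuleCat.ofHom (LinearMap.inr k (K.X (n + 1)) (L.X n))
  comm' i j (hij : _ = _) := by
    subst hij
    cases i with
    | zero =>
      simp only [cocone, shiftOne, CochainComplex.of_d]
      show (0 : ModuleCat.of k PUnit ⟶ coconeX ρ 0) ≫ coconeD ρ 0 =
        (0 : ModuleCat.of k PUnit ⟶ L.X 0) ≫ ModuleCat.ofHom (LinearMap.inr k (K.X 1) (L.X 0))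
      exact Limits.zero_comp.trans Limits.zero_comp.symm
    | succ n =>
      refine ModuleCat.hom_ext (LinearMap.ext fun (x : L.X n) => ?_)
      simp only [cocone, shiftOne, CochainComplex.of_d]
      show ((K.d (n + 1) (n + 2)).hom (0 : K.X (n + 1)),
          (ρ.f (n + 1)).hom (0 : K.X (n + 1)) - (L.d n (n + 1)).hom x) =
        ((0 : K.X (n + 2)), (-L.d n (n + 1)).hom x)
      rw [map_zero, map_zero, zero_sub]
      rfl

end Complexes

/-! ### The data of the Prelude -/

/-- The global level datum: `G = Gal(ℚ̄/ℚ)`, levels = finite extensions unramified outside `S`. -/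
def globalDatum (S : Finset Nat.Primes) : LevelDatum GQ where
  r := MonoidHom.id _
  Lev F := F.IsUnramifiedOutside S
  bot := IntermediateField.isUnramifiedOutside_bot S
  sup h h' := h.sup h'

/-- The local level datum of a group `H` over `Gal(ℚ̄/ℚ)`: levels = all finite extensions. -/
def localDatum {H : Type} [Group H] (f : H →* GQ) : LevelDatum H where
  r := f
  Lev F := FiniteDimensional ℚ F
  bot := inferInstance
  sup h h' := by
    have := h
    have := h'
    infer_instance

/-- Localisation, as a morphism of level data. -/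
def locHom (S : Finset Nat.Primes) {H : Type} [Group H] (f : H →* GQ) :
    (localDatum f).Hom (globalDatum S) where
  φ := f
  comm _ := rfl
  lev h := h.1

/-! ### Local systems and compactly supported cochains -/

section Local

variable {ι : Type} {Gv : ι → Type} [∀ v, Group (Gv v)]

/-- The product over `v` of the complexes of level-constant cochains of the local groups. -/
def locComplex (Dv : ∀ v, LevelDatum (Gv v)) (D : LevelDatum G) (h : ∀ v, (Dv v).Hom D)
    (M : Rep.{0} k G) : CochainComplex (ModuleCat.{0} k) ℕ :=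
  piComplex fun v => lcComplex (Dv v) (Rep.res (h v).φ M)

/-- The total localisation map on level-constant cochains. -/
def locMap (Dv : ∀ v, LevelDatum (Gv v)) (D : LevelDatum G) (h : ∀ v, (Dv v).Hom D)
    (M : Rep.{0} k G) : lcComplex D M ⟶ locComplex Dv D h M :=
  piLift fun v => lcRes (h v) M

/-- The complex of compactly supported level-constant cochains: the cocone of localisation,
`Ccⁿ = Cⁿ(G, M) × Π_v Cⁿ⁻¹(G_v, M)`, `d (a, b) = (d a, res a - d b)`. -/
def ccComplex (Dv : ∀ v, LevelDatum (Gv v)) (D : LevelDatum G) (h : ∀ v, (Dv v).Hom D)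
    (M : Rep.{0} k G) : CochainComplex (ModuleCat.{0} k) ℕ :=
  cocone (locMap Dv D h M)

/-- Compactly supported level-constant cohomology. -/
def Hc (Dv : ∀ v, LevelDatum (Gv v)) (D : LevelDatum G) (h : ∀ v, (Dv v).Hom D)
    (M : Rep.{0} k G) (n : ℕ) : ModuleCat.{0} k :=
  (ccComplex Dv D h M).homology n

/-- Local level-constant cohomology (the product over the places). -/
def Hloc (Dv : ∀ v, LevelDatum (Gv v)) (D : LevelDatum G) (h : ∀ v, (Dv v).Hom D)
    (M : Rep.{0} k G) (n : ℕ) : ModuleCat.{0} k :=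
  (locComplex Dv D h M).homology n

end Local


/-! ### The instances used for S55 -/

/-- The local level datum at a prime of `S`. -/
def primeDatum (S : Finset Nat.Primes) (q : ↥S) :
    LevelDatum (ExtCitation.primeLocalGaloisGroup q.1) :=
  localDatum (ExtCitation.primeLocalToGlobal q.1)

/-- Localisation at a prime of `S`. -/
def primeHom (S : Finset Nat.Primes) (q : ↥S) : (primeDatum S q).Hom (globalDatum S) :=
  locHom S (ExtCitation.primeLocalToGlobal q.1)

/-- `Hⁿ(G_S, M)`: cohomology of cochains of `Gal(ℚ̄/ℚ)` that are constant modulo a finite level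
unramified outside `S`. -/
abbrev HS (S : Finset Nat.Primes) (M : Rep.{0} k GQ) (n : ℕ) : ModuleCat.{0} k :=
  Hlc (globalDatum S) M n

/-- `Hⁿ(ℚ_q, M)` for a prime `q ∈ S`. -/
abbrev Hq (S : Finset Nat.Primes) (q : ↥S) (M : Rep.{0} k GQ) (n : ℕ) : ModuleCat.{0} k :=
  Hlc (primeDatum S q) (Rep.res (primeHom S q).φ M) n

/-- `Hⁿ_c(G_S, M)`: compactly supported cohomology with respect to the finite primes of `S`. -/
abbrev HcS (S : Finset Nat.Primes) (M : Rep.{0} k GQ) (n : ℕ) : ModuleCat.{0} k :=
  Hc (primeDatum S) (globalDatum S) (primeHom S) M n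


/-! ### Functors and the comparison maps -/

section Functors

/-- A module is `D`-smooth if the subgroup of some level with normal fixing subgroup acts
trivially on it. -/
def LevelDatum.Smooth (D : LevelDatum G) (M : Rep.{0} k G) : Prop :=
  ∃ F : IntermediateField ℚ (AlgebraicClosure ℚ), D.Lev F ∧ (F.fixingSubgroup).Normal ∧
    ∀ s : G, D.r s ∈ F.fixingSubgroup → ∀ m : M, M.ρ s m = m

/-- Every level of `D` is contained in a level whose fixing subgroup is normal. -/
def LevelDatum.HasNormalLevels (D : LevelDatum G) : Prop :=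
  ∀ F : IntermediateField ℚ (AlgebraicClosure ℚ), D.Lev F →
    ∃ F' : IntermediateField ℚ (AlgebraicClosure ℚ), D.Lev F' ∧ F ≤ F' ∧
      (F'.fixingSubgroup).Normal

/-- The functor `M ↦ lcComplex D M`. -/
def lcFunctor (k : Type) [CommRing k] (D : LevelDatum G) :
    Rep.{0} k G ⥤ CochainComplex (ModuleCat.{0} k) ℕ where
  obj M := lcComplex D M
  map ψ := lcMapCoeff D ψ
  map_id _ := rfl
  map_comp _ _ := rfl

instance (D : LevelDatum G) : (lcFunctor k D).PreservesZeroMorphisms where
  map_zero _ _ := rfl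

variable {K L K' L' : CochainComplex (ModuleCat.{0} k) ℕ}

/-- Functoriality of the product of complexes. -/
def piMap {ι : Type} {C C' : ι → CochainComplex (ModuleCat.{0} k) ℕ} (α : ∀ v, C v ⟶ C' v) :
    piComplex C ⟶ piComplex C' where
  f n := ModuleCat.ofHom (LinearMap.pi fun v => ((α v).f n).hom ∘ₗ LinearMap.proj v)
  comm' i j (hij : _ = _) := by
    subst hij
    refine ModuleCat.hom_ext (LinearMap.ext fun x => funext fun v => ?_)
    have e := LinearMap.congr_fun (ModuleCat.hom_ext_iff.mp ((α v).comm i (i + 1))) (x v)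
    simp only [piComplex, CochainComplex.of_d]
    exact e

/-- Functoriality of the cocone: a commutative square `ρ ≫ β = α ≫ ρ'` induces
`cocone ρ ⟶ cocone ρ'`, `(a, b) ↦ (α a, β b)`. -/
def coconeMap {ρ : K ⟶ L} {ρ' : K' ⟶ L'} (α : K ⟶ K') (β : L ⟶ L') (h : ρ ≫ β = α ≫ ρ') :
    cocone ρ ⟶ cocone ρ' where
  f
    | 0 => α.f 0
    | n + 1 => ModuleCat.ofHom (LinearMap.prodMap (α.f (n + 1)).hom (β.f n).hom)
  comm' i j (hij : _ = _) := by
    subst hij
    cases i with
    | zero =>
      refine ModuleCat.hom_ext (LinearMap.ext fun (x : K.X 0) => ?_)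
      have e1 := LinearMap.congr_fun (ModuleCat.hom_ext_iff.mp (α.comm 0 1)) x
      have e2 := LinearMap.congr_fun (ModuleCat.hom_ext_iff.mp
        (congrArg (fun t => HomologicalComplex.Hom.f t 0) h)) x
      simp only [cocone, CochainComplex.of_d]
      exact Prod.ext e1 e2.symm
    | succ n =>
      refine ModuleCat.hom_ext (LinearMap.ext fun (x : K.X (n + 1) × L.X n) => ?_)
      have e1 := LinearMap.congr_fun (ModuleCat.hom_ext_iff.mp (α.comm (n + 1) (n + 2))) x.1
      have e2 := LinearMap.congr_fun (ModuleCat.hom_ext_iff.mp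
        (congrArg (fun t => HomologicalComplex.Hom.f t (n + 1)) h)) x.1
      have e3 := LinearMap.congr_fun (ModuleCat.hom_ext_iff.mp (β.comm n (n + 1))) x.2
      simp only [cocone, CochainComplex.of_d]
      refine Prod.ext e1 ?_
      show (ρ'.f (n + 1)).hom ((α.f (n + 1)).hom x.1) - (L'.d n (n + 1)).hom ((β.f n).hom x.2) =
        (β.f (n + 1)).hom ((ρ.f (n + 1)).hom x.1 - (L.d n (n + 1)).hom x.2)
      rw [map_sub]
      have e2' : (β.f (n + 1)).hom ((ρ.f (n + 1)).hom x.1) =
          (ρ'.f (n + 1)).hom ((α.f (n + 1)).hom x.1) := e2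
      have e3' : (L'.d n (n + 1)).hom ((β.f n).hom x.2) =
          (β.f (n + 1)).hom ((L.d n (n + 1)).hom x.2) := e3
      rw [e2', e3']

end Functors

section LocalFunctors

variable {ι : Type} {Gv : ι → Type} [∀ v, Group (Gv v)]

/-- Functoriality of the local complex in the coefficients. -/
def locComplexMap (Dv : ∀ v, LevelDatum (Gv v)) (D : LevelDatum G) (h : ∀ v, (Dv v).Hom D)
    {A B : Rep.{0} k G} (ψ : A ⟶ B) : locComplex Dv D h A ⟶ locComplex Dv D h B :=
  piMap fun v => lcMapCoeff (Dv v) ((Rep.resFunctor (h v).φ).map ψ)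

/-- Functoriality of the compactly supported cochains in the coefficients. -/
def ccComplexMap (Dv : ∀ v, LevelDatum (Gv v)) (D : LevelDatum G) (h : ∀ v, (Dv v).Hom D)
    {A B : Rep.{0} k G} (ψ : A ⟶ B) : ccComplex Dv D h A ⟶ ccComplex Dv D h B :=
  coconeMap (lcMapCoeff D ψ) (locComplexMap Dv D h ψ) rfl

/-- The functor `M ↦ locComplex Dv D h M`. -/
def locFunctor (k : Type) [CommRing k] (Dv : ∀ v, LevelDatum (Gv v)) (D : LevelDatum G)
    (h : ∀ v, (Dv v).Hom D) : Rep.{0} k G ⥤ CochainComplex (ModuleCat.{0} k) ℕ where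
  obj M := locComplex Dv D h M
  map ψ := locComplexMap Dv D h ψ
  map_id _ := rfl
  map_comp _ _ := rfl

/-- The functor `M ↦ ccComplex Dv D h M`. -/
def ccFunctor (k : Type) [CommRing k] (Dv : ∀ v, LevelDatum (Gv v)) (D : LevelDatum G)
    (h : ∀ v, (Dv v).Hom D) : Rep.{0} k G ⥤ CochainComplex (ModuleCat.{0} k) ℕ where
  obj M := ccComplex Dv D h M
  map ψ := ccComplexMap Dv D h ψ
  map_id M := by
    ext n : 1
    cases n with
    | zero => rfl
    | succ n => rfl
  map_comp φ ψ := by
    ext n : 1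
    cases n with
    | zero => rfl
    | succ n => rfl

instance (Dv : ∀ v, LevelDatum (Gv v)) (D : LevelDatum G) (h : ∀ v, (Dv v).Hom D) :
    (locFunctor k Dv D h).PreservesZeroMorphisms where
  map_zero _ _ := rfl

instance (Dv : ∀ v, LevelDatum (Gv v)) (D : LevelDatum G) (h : ∀ v, (Dv v).Hom D) :
    (ccFunctor k Dv D h).PreservesZeroMorphisms where
  map_zero _ _ := by
    ext n : 1
    cases n with
    | zero => rfl
    | succ n => rfl

/-- The "forget supports" map `Cc ⟶ C`. -/
def ccToLc (Dv : ∀ v, LevelDatum (Gv v)) (D : LevelDatum G) (h : ∀ v, (Dv v).Hom D)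
    (M : Rep.{0} k G) : ccComplex Dv D h M ⟶ lcComplex D M :=
  coconeFst (locMap Dv D h M)

end LocalFunctors

/-- `j : Hⁿ_c(G_S, M) ⟶ Hⁿ(G_S, M)`. -/
def jS (S : Finset Nat.Primes) (M : Rep.{0} k GQ) (n : ℕ) : HcS S M n ⟶ HS S M n :=
  HomologicalComplex.homologyMap (ccToLc (primeDatum S) (globalDatum S) (primeHom S) M) n

/-- Localisation `Hⁿ(G_S, M) ⟶ Hⁿ(ℚ_q, M)` at a prime `q ∈ S`. -/
def resq (S : Finset Nat.Primes) (q : ↥S) (M : Rep.{0} k GQ) (n : ℕ) : HS S M n ⟶ Hq S q M n :=
  HomologicalComplex.homologyMap (lcRes (primeHom S q) M) n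

end Fermat.Agent.S55.H49

end
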