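import Fermat.Agent.S55.H49.ConeApi

/-!
# S55 / C0 (helper49): statements of the bridge between the Prelude objects and the cochain model

Leaves (Prop-valued, to be proved in separate files) and the assembly compiled from them:

* `sha₂_equiv_of` : `sha₂ S M ≃ range (H²_c(G_S, M) → H²(G_S, M))`;
* `sha₁_equiv_of` : `sha₁ S A ≃ range (H¹_c(G_S, A) → H¹(G_S, A))`.
-/

set_option autoImplicit false

open CategoryTheory groupCohomology ExtCitation

noncomputable section

namespace Fermat.Agent.S55.H49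

variable {k : Type} [CommRing k]

/-! ### Leaves: degree 2 -/

/-- GLOBAL BRIDGE, degree 2: the Prelude's `continuousH2S S M` is `H²` of the level-constant
complex, the class of a Prelude cocycle `c : G × G → M` corresponding to the class of the cocycle
`g ↦ c (g 0, g 1)`. (True for `(globalDatum S).Smooth M`.) -/
def BridgeGlobal2Statement (S : Finset Nat.Primes) (M : Rep.{0} k GQ) : Prop :=
  ∃ e : continuousH2S S M ≃ₗ[k] HS S M 2,
    (∀ c : levelCocyclesS₂ S M, ∃ z : cyc (lcComplex (globalDatum S) M) 2,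
      ∀ g : Fin 2 → GQ, lcVal z g = c.1 (g 0, g 1)) ∧
    ∀ (c : levelCocyclesS₂ S M) (z : cyc (lcComplex (globalDatum S) M) 2),
      (∀ g : Fin 2 → GQ, lcVal z g = c.1 (g 0, g 1)) →
        e (continuousH2Sπ S M c) = (cls (lcComplex (globalDatum S) M) 2).hom z

/-- LOCAL BRIDGE, degree 2: the Prelude's `continuousH2 f N` is `H²` of the level-constant
complex of the local datum. (True for `(localDatum f).Smooth N`.) -/
def BridgeLocal2Statement {H : Type} [Group H] (f : H →* GQ) (N : Rep.{0} k H) : Prop :=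
  ∃ e : continuousH2 f N ≃ₗ[k] Hlc (localDatum f) N 2,
    (∀ c : levelCocycles₂ f N, ∃ z : cyc (lcComplex (localDatum f) N) 2,
      ∀ g : Fin 2 → H, lcVal z g = c.1 (g 0, g 1)) ∧
    ∀ (c : levelCocycles₂ f N) (z : cyc (lcComplex (localDatum f) N) 2),
      (∀ g : Fin 2 → H, lcVal z g = c.1 (g 0, g 1)) →
        e (continuousH2π f N c) = (cls (lcComplex (localDatum f) N) 2).hom z

/-- ARCHIMEDEAN VANISHING, degree 2 (true when `2` is invertible in `k`). -/
def ArchH2Statement (M : Rep.{0} k GQ) : Prop :=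
  Subsingleton (continuousH2 archimedeanLoc (Rep.res archimedeanLoc M))

/-! ### Assembly: degree 2 -/

theorem locRes₂S_π (S : Finset Nat.Primes) (M : Rep.{0} k GQ) {H : Type} [Group H]
    (f : H →* GQ) (c : levelCocyclesS₂ S M) :
    ∃ c' : levelCocycles₂ f (Rep.res f M),
      locRes₂S S M f (continuousH2Sπ S M c) = continuousH2π f (Rep.res f M) c' ∧
        ∀ a b : H, c'.1 (a, b) = c.1 (f a, f b) :=
  ⟨_, rfl, fun _ _ => rfl⟩

/-- The two bridges are compatible with localisation. -/
theorem bridge2_compat (S : Finset Nat.Primes) (M : Rep.{0} k GQ) (q : ↥S)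
    (e : continuousH2S S M ≃ₗ[k] HS S M 2)
    (he1 : ∀ c : levelCocyclesS₂ S M, ∃ z : cyc (lcComplex (globalDatum S) M) 2,
      ∀ g : Fin 2 → GQ, lcVal z g = c.1 (g 0, g 1))
    (he2 : ∀ (c : levelCocyclesS₂ S M) (z : cyc (lcComplex (globalDatum S) M) 2),
      (∀ g : Fin 2 → GQ, lcVal z g = c.1 (g 0, g 1)) →
        e (continuousH2Sπ S M c) = (cls (lcComplex (globalDatum S) M) 2).hom z)
    (eq : continuousH2 (primeLocalToGlobal q.1) (Rep.res (primeLocalToGlobal q.1) M) ≃ₗ[k]
      Hq S q M 2)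
    (heq : ∀ (c : levelCocycles₂ (primeLocalToGlobal q.1) (Rep.res (primeLocalToGlobal q.1) M))
      (z : cyc (lcComplex (primeDatum S q) (Rep.res (primeLocalToGlobal q.1) M)) 2),
      (∀ g : Fin 2 → primeLocalGaloisGroup q.1, lcVal z g = c.1 (g 0, g 1)) →
        eq (continuousH2π _ _ c) = (cls _ 2).hom z)
    (x : continuousH2S S M) :
    eq (locRes₂S S M (primeLocalToGlobal q.1) x) = (resq S q M 2).hom (e x) := by
  obtain ⟨c, rfl⟩ := Submodule.mkQ_surjective _ x
  obtain ⟨z, hz⟩ := he1 c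
  obtain ⟨c', hc', hc'v⟩ := locRes₂S_π S M (primeLocalToGlobal q.1) c
  have h1 : e (continuousH2Sπ S M c) = (cls (lcComplex (globalDatum S) M) 2).hom z := he2 c z hz
  have h1' : e ((Submodule.mkQ _) c) = (cls (lcComplex (globalDatum S) M) 2).hom z := h1
  rw [h1']
  have h2 : (resq S q M 2).hom ((cls (lcComplex (globalDatum S) M) 2).hom z) =
      (cls _ 2).hom (cycMap (lcRes (primeHom S q) M) 2 z) := homologyMap_cls _ 2 z
  rw [h2]
  have hc'' : locRes₂S S M (primeLocalToGlobal q.1) ((Submodule.mkQ _) c) =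
      continuousH2π _ _ c' := hc'
  rw [hc'']
  refine heq c' _ fun g => ?_
  rw [hc'v]
  exact hz _

/-- `sha₂ S M` is the image of `H²_c(G_S, M) → H²(G_S, M)`. -/
theorem sha₂_equiv_of (S : Finset Nat.Primes) (M : Rep.{0} k GQ)
    (hG : BridgeGlobal2Statement S M)
    (hQ : ∀ q : ↥S, BridgeLocal2Statement (primeLocalToGlobal q.1)
      (Rep.res (primeLocalToGlobal q.1) M))
    (hA : ArchH2Statement M) :
    Nonempty (sha₂ S M ≃ₗ[k] LinearMap.range (jS S M 2).hom) := by
  obtain ⟨e, he1, he2⟩ := hG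
  choose eq heq1 heq2 using hQ
  have key : (sha₂ S M).map (e : continuousH2S S M →ₗ[k] HS S M 2) =
      LinearMap.range (jS S M 2).hom := by
    ext y
    rw [mem_range_jS_iff S M 1 y]
    constructor
    · rintro ⟨x, hx, rfl⟩ q
      have hx' : locTotal₂S S M x = 0 := hx
      have h1 : locRes₂S S M (primeLocalToGlobal q.1) x = 0 := congrFun hx' (Sum.inr q)
      have h2 := bridge2_compat S M q e he1 he2 (eq q) (heq2 q) x
      exact h2.symm.trans ((congrArg (eq q) h1).trans (map_zero _))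
    · intro hy
      refine ⟨e.symm y, ?_, by simp⟩
      show locTotal₂S S M (e.symm y) = 0
      funext v
      rcases v with u | q
      · exact @Subsingleton.elim _ hA _ _
      · have h2 := bridge2_compat S M q e he1 he2 (eq q) (heq2 q) (e.symm y)
        have h3 : (resq S q M 2).hom (e (e.symm y)) = 0 := by
          rw [LinearEquiv.apply_symm_apply]
          exact hy q
        exact (eq q).map_eq_zero_iff.mp (h2.trans h3)
  exact ⟨(e.submoduleMap (sha₂ S M)).trans (LinearEquiv.ofEq _ _ key)⟩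


/-! ### Leaves: degree 1 -/

section Deg1

variable {K : Type} [Field K]

/-- GLOBAL BRIDGE, degree 1: the Prelude's `continuousH1S S A` is `H¹` of the level-constant
complex. (True for `(globalDatum S).Smooth A`.) -/
def BridgeGlobal1Statement (S : Finset Nat.Primes) (A : Rep.{0} K GQ) : Prop :=
  ∃ e : continuousH1S S A ≃ₗ[K] HS S A 1,
    (∀ c : cocycles₁ A, IsLevelConstantS₁ S (c : GQ → A) →
      ∃ z : cyc (lcComplex (globalDatum S) A) 1, ∀ g : Fin 1 → GQ, lcVal z g = c.1 (g 0)) ∧
    ∀ (c : cocycles₁ A) (hc : IsLevelConstantS₁ S (c : GQ → A))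
      (z : cyc (lcComplex (globalDatum S) A) 1), (∀ g : Fin 1 → GQ, lcVal z g = c.1 (g 0)) →
        e ⟨(H1π A).hom c, (mem_continuousH1S_iff S A _).2 ⟨c, hc, rfl⟩⟩ =
          (cls (lcComplex (globalDatum S) A) 1).hom z

/-- LOCAL COMPARISON, degree 1: a level-constant global 1-cocycle is locally trivial at `q` in
the abstract `H¹` of the local group iff it is so in level-constant cohomology.
(True for `(globalDatum S).Smooth A`: the coboundaries are the same.) -/
def BridgeLocal1Statement (S : Finset Nat.Primes) (A : Rep.{0} K GQ) : Prop :=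
  ∀ (q : ↥S) (c : cocycles₁ A) (z : cyc (lcComplex (globalDatum S) A) 1),
    (∀ g : Fin 1 → GQ, lcVal z g = c.1 (g 0)) →
      ((locRes (extArithLoc S) A (Sum.inr q)).hom ((H1π A).hom c) = 0 ↔
        (resq S q A 1).hom ((cls (lcComplex (globalDatum S) A) 1).hom z) = 0)

/-- ARCHIMEDEAN VANISHING, degree 1 (true when `2` is invertible in `K`). -/
def ArchH1Statement (A : Rep.{0} K GQ) : Prop :=
  Subsingleton (H1 (Rep.res archimedeanLoc A))

/-! ### Assembly: degree 1 -/

/-- `sha₁ S A` is the image of `H¹_c(G_S, A) → H¹(G_S, A)`. -/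
theorem sha₁_equiv_of (S : Finset Nat.Primes) (A : Rep.{0} K GQ)
    (hG : BridgeGlobal1Statement S A) (hQ : BridgeLocal1Statement S A) (hA : ArchH1Statement A) :
    Nonempty (sha₁ S A ≃ₗ[K] LinearMap.range (jS S A 1).hom) := by
  obtain ⟨e, he1, he2⟩ := hG
  have hle : sha₁ S A ≤ continuousH1S S A := inf_le_left
  have key : ((sha₁ S A).comap (continuousH1S S A).subtype).map
      (e : continuousH1S S A →ₗ[K] HS S A 1) = LinearMap.range (jS S A 1).hom := by
    ext y
    rw [mem_range_jS_iff S A 0 y]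
    constructor
    · rintro ⟨x', hx', rfl⟩ q
      obtain ⟨c, hc, hcx⟩ := (mem_continuousH1S_iff S A x'.1).1 x'.2
      obtain ⟨z, hz⟩ := he1 c hc
      have hx'e : x' = ⟨(H1π A).hom c, (mem_continuousH1S_iff S A _).2 ⟨c, hc, rfl⟩⟩ :=
        Subtype.ext hcx.symm
      have h1 : e x' = (cls (lcComplex (globalDatum S) A) 1).hom z := by
        rw [hx'e]
        exact he2 c hc z hz
      have h2 : x'.1 ∈ LinearMap.ker (locTotal (extArithLoc S) A) := hx'.2
      have h3 : (locRes (extArithLoc S) A (Sum.inr q)).hom x'.1 = 0 :=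
        congrFun (LinearMap.mem_ker.mp h2) (Sum.inr q)
      rw [← hcx] at h3
      have h4 := (hQ q c z hz).mp h3
      show (resq S q A (0 + 1)).hom (e x') = 0
      rw [h1]
      exact h4
    · intro hy
      refine ⟨e.symm y, ?_, by simp⟩
      obtain ⟨c, hc, hcx⟩ := (mem_continuousH1S_iff S A (e.symm y).1).1 (e.symm y).2
      obtain ⟨z, hz⟩ := he1 c hc
      have hx'e : e.symm y = ⟨(H1π A).hom c, (mem_continuousH1S_iff S A _).2 ⟨c, hc, rfl⟩⟩ :=
        Subtype.ext hcx.symm
      have h1 : y = (cls (lcComplex (globalDatum S) A) 1).hom z := by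
        have := he2 c hc z hz
        rw [← hx'e, LinearEquiv.apply_symm_apply] at this
        exact this
      refine ⟨(e.symm y).2, ?_⟩
      rw [SetLike.mem_coe, LinearMap.mem_ker]
      funext v
      rcases v with u | q
      · exact @Subsingleton.elim _ hA _ _
      · show (locRes (extArithLoc S) A (Sum.inr q)).hom (e.symm y).1 = 0
        rw [← hcx]
        refine (hQ q c z hz).mpr ?_
        rw [← h1]
        exact hy q
  exact ⟨(Submodule.comapSubtypeEquivOfLe hle).symm.trans
    ((e.submoduleMap _).trans (LinearEquiv.ofEq _ _ key))⟩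

end Deg1


/-! ### Leaves in uniform form, and the conclusion of C0 -/

/-- SMOOTHNESS of the module of S55: the kernel field of `M` is a finite Galois extension
unramified outside `S`. -/
def SmoothOfHypStatement : Prop :=
  ∀ (p : ℕ) [Fact p.Prime] (S : Finset Nat.Primes) (M : Rep.{0} (ZMod p) GQ)
    [FiniteDimensional (ZMod p) M],
    (∀ m : M, ∃ F : IntermediateField ℚ (AlgebraicClosure ℚ), FiniteDimensional ℚ F ∧
      ∀ s ∈ F.fixingSubgroup, M.ρ s m = m) →
    (∀ q : Nat.Primes, q ∉ S → ∀ A : ValuationSubring (AlgebraicClosure ℚ),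
      A.LiesOverPrime (q : ℕ) → ∀ g ∈ A.inertiaSubgroupIn ℚ, M.ρ g = 1) →
    (globalDatum S).Smooth M

/-- SMOOTHNESS of the Tate dual: `ℚ(μ_p)` is unramified outside `p ∈ S`. -/
def SmoothDualStatement : Prop :=
  ∀ (p : ℕ) [Fact p.Prime] (S : Finset Nat.Primes), pPrime p ∈ S →
    ∀ M : Rep.{0} (ZMod p) GQ, (globalDatum S).Smooth M →
      (globalDatum S).Smooth (M.dualTwist (cycloChar p))

/-- `BridgeGlobal2Statement` for all smooth modules. -/
def BridgeGlobal2All : Prop :=
  ∀ (k : Type) [CommRing k] (S : Finset Nat.Primes) (M : Rep.{0} k GQ),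
    (globalDatum S).Smooth M → BridgeGlobal2Statement S M

/-- `BridgeLocal2Statement` for all smooth modules. -/
def BridgeLocal2All : Prop :=
  ∀ (k : Type) [CommRing k] (H : Type) [Group H] (f : H →* GQ) (N : Rep.{0} k H),
    (localDatum f).Smooth N → BridgeLocal2Statement f N

/-- `ArchH2Statement` when `2` is invertible. -/
def ArchH2All : Prop :=
  ∀ (k : Type) [CommRing k] (M : Rep.{0} k GQ), IsUnit (2 : k) → ArchH2Statement M

/-- `BridgeGlobal1Statement` for all smooth modules. -/
def BridgeGlobal1All : Prop :=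
  ∀ (K : Type) [Field K] (S : Finset Nat.Primes) (A : Rep.{0} K GQ),
    (globalDatum S).Smooth A → BridgeGlobal1Statement S A

/-- `BridgeLocal1Statement` for all smooth modules. -/
def BridgeLocal1All : Prop :=
  ∀ (K : Type) [Field K] (S : Finset Nat.Primes) (A : Rep.{0} K GQ),
    (globalDatum S).Smooth A → BridgeLocal1Statement S A

/-- `ArchH1Statement` when `2 ≠ 0`. -/
def ArchH1All : Prop :=
  ∀ (K : Type) [Field K] (A : Rep.{0} K GQ), (2 : K) ≠ 0 → ArchH1Statement A

/-- LONG EXACT SEQUENCE in the coefficients, global or local: a short exact sequence of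
representations with smooth middle term gives a short exact sequence of complexes of
level-constant cochains. -/
def LcShortExactStatement : Prop :=
  ∀ (k : Type) [CommRing k] (G : Type) [Group G] (D : LevelDatum G)
    (X : ShortComplex (Rep.{0} k G)), X.ShortExact → D.Smooth X.X₂ →
      (X.map (lcFunctor k D)).ShortExact

/-- LONG EXACT SEQUENCE in the coefficients for compactly supported cochains. -/
def CcShortExactStatement : Prop :=
  ∀ (k : Type) [CommRing k] (G : Type) [Group G] (D : LevelDatum G) (ι : Type)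
    (Gv : ι → Type) [∀ v, Group (Gv v)] (Dv : ∀ v, LevelDatum (Gv v)) (h : ∀ v, (Dv v).Hom D)
    (X : ShortComplex (Rep.{0} k G)), X.ShortExact → D.Smooth X.X₂ →
      (X.map (ccFunctor k Dv D h)).ShortExact

theorem smooth_res {k : Type} [CommRing k] {G G' : Type} [Group G] [Group G']
    {D' : LevelDatum G'} {D : LevelDatum G} (h : D'.Hom D) {M : Rep.{0} k G} (hM : D.Smooth M) :
    D'.Smooth (Rep.res h.φ M) := by
  obtain ⟨F, hF, hN, hFM⟩ := hM
  refine ⟨F, h.lev hF, hN, fun s hs m => ?_⟩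
  have : D.r (h.φ s) ∈ F.fixingSubgroup := by
    rw [h.comm]
    exact hs
  exact hFM (h.φ s) this m

/-- THE CONCLUSION OF C0: under the hypotheses of S55, `sha₂ S M` and `sha₁ S M'` are the images
of `H²_c(G_S, M) → H²(G_S, M)` and of `H¹_c(G_S, M') → H¹(G_S, M')`, and `M`, `M'` are smooth. -/
theorem c0_main (h1 : SmoothOfHypStatement) (h2 : SmoothDualStatement) (h3 : BridgeGlobal2All)
    (h4 : BridgeLocal2All) (h5 : ArchH2All) (h6 : BridgeGlobal1All) (h7 : BridgeLocal1All)
    (h8 : ArchH1All)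
    {p : ℕ} [Fact p.Prime] (hp2 : p ≠ 2) (S : Finset Nat.Primes) (hpS : pPrime p ∈ S)
    (M : Rep.{0} (ZMod p) GQ) [FiniteDimensional (ZMod p) M]
    (hsm : ∀ m : M, ∃ F : IntermediateField ℚ (AlgebraicClosure ℚ), FiniteDimensional ℚ F ∧
      ∀ s ∈ F.fixingSubgroup, M.ρ s m = m)
    (hMur : ∀ q : Nat.Primes, q ∉ S → ∀ A : ValuationSubring (AlgebraicClosure ℚ),
      A.LiesOverPrime (q : ℕ) → ∀ g ∈ A.inertiaSubgroupIn ℚ, M.ρ g = 1) :
    ((globalDatum S).Smooth M ∧ (globalDatum S).Smooth (M.dualTwist (cycloChar p))) ∧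
    Nonempty (sha₂ S M ≃ₗ[ZMod p] LinearMap.range (jS S M 2).hom) ∧
    Nonempty (sha₁ S (M.dualTwist (cycloChar p)) ≃ₗ[ZMod p]
      LinearMap.range (jS S (M.dualTwist (cycloChar p)) 1).hom) := by
  have hM : (globalDatum S).Smooth M := h1 p S M hsm hMur
  have hM' : (globalDatum S).Smooth (M.dualTwist (cycloChar p)) := h2 p S hpS M hM
  have hp : p.Prime := Fact.out
  have h2ne : (2 : ZMod p) ≠ 0 := by
    intro h
    have h' : ((2 : ℕ) : ZMod p) = 0 := by exact_mod_cast h
    rw [ZMod.natCast_eq_zero_iff] at h'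
    exact hp2 ((Nat.prime_dvd_prime_iff_eq hp Nat.prime_two).mp h')
  refine ⟨⟨hM, hM'⟩, ?_, ?_⟩
  · exact sha₂_equiv_of S M (h3 _ S M hM)
      (fun q => h4 _ _ _ _ (smooth_res (primeHom S q) hM)) (h5 _ M (isUnit_iff_ne_zero.mpr h2ne))
  · exact sha₁_equiv_of S _ (h6 _ S _ hM') (h7 _ S _ hM') (h8 _ _ h2ne)

end Fermat.Agent.S55.H49

end
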