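import Fermat.Agent.S55.H49.ShapiroDefs

/-!
# S55 / C0 (helper49): (SH-base) — the permutation module `k[G ⧸ U]` is coinduced

For a subgroup `U ≤ G` of finite index: `permCoindIso U : k[G ⧸ U] ≅ Coind_U^G k`,
`v ↦ (x ↦ coefficient of v at x⁻¹U)`, and the Shapiro map of the permutation module
`shPerm D U n : Hⁿ(D, k[G ⧸ U]) ⟶ Hⁿ(D|U, k)`, `[φ] ↦ [(h_i) ↦ coefficient of φ (h_i) at U]`,
which is bijective as soon as the Shapiro map `sh` is.
-/

set_option autoImplicit false

open CategoryTheory groupCohomology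

noncomputable section

namespace Fermat.Agent.S55.H49

variable {k : Type} [CommRing k] {G : Type} [Group G] (U : Subgroup G)

/-- The function `x ↦ coefficient of v at x⁻¹U`. -/
def permFun (v : MonoidAlgebra k (G ⧸ U)) : G → k :=
  fun x => v.coeff ((x⁻¹ : G) : G ⧸ U)

theorem permFun_mem (v : MonoidAlgebra k (G ⧸ U)) :
    permFun U v ∈ Representation.coindV U.subtype (Rep.res U.subtype (Rep.trivial k G k)).ρ := by
  intro h x
  show v.coeff ((((h : G) * x)⁻¹ : G) : G ⧸ U) = v.coeff ((x⁻¹ : G) : G ⧸ U)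
  congr 1
  rw [QuotientGroup.eq]
  have e : (((h : G) * x)⁻¹)⁻¹ * x⁻¹ = (h : G) := by group
  rw [e]
  exact h.2

/-- The linear map `k[G ⧸ U] → Coind_U^G k`. -/
def permToCoind : MonoidAlgebra k (G ⧸ U) →ₗ[k] coindRes U (Rep.trivial k G k) where
  toFun v := ⟨permFun U v, permFun_mem U v⟩
  map_add' v w := by
    apply Subtype.ext
    funext x
    show (v + w).coeff _ = v.coeff _ + w.coeff _
    rw [MonoidAlgebra.coeff_add]
    rfl
  map_smul' c v := by
    apply Subtype.ext
    funext x
    show (c • v).coeff _ = c • v.coeff _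
    rw [MonoidAlgebra.coeff_smul]
    rfl

theorem permToCoind_apply (v : MonoidAlgebra k (G ⧸ U)) (x : G) :
    (permToCoind U v).1 x = v.coeff ((x⁻¹ : G) : G ⧸ U) := rfl

theorem permToCoind_injective : Function.Injective (permToCoind (k := k) U) := by
  intro v w h
  apply MonoidAlgebra.coeff_injective
  ext c
  induction c using QuotientGroup.induction_on with
  | H g =>
    have h1 := congrFun (congrArg Subtype.val h) g⁻¹
    have h2 : (permToCoind U v).1 g⁻¹ = v.coeff ((g : G) : G ⧸ U) := by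
      rw [permToCoind_apply, inv_inv]
    have h3 : (permToCoind U w).1 g⁻¹ = w.coeff ((g : G) : G ⧸ U) := by
      rw [permToCoind_apply, inv_inv]
    rw [← h2, ← h3]
    exact h1

theorem permToCoind_surjective [Finite (G ⧸ U)] :
    Function.Surjective (permToCoind (k := k) U) := by
  intro f
  refine ⟨(MonoidAlgebra.coeffLinearEquiv k).symm
    (Finsupp.equivFunOnFinite.symm fun c : G ⧸ U => f.1 (c.out)⁻¹), ?_⟩
  apply Subtype.ext
  funext x
  show ((MonoidAlgebra.coeffLinearEquiv k).symm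
    (Finsupp.equivFunOnFinite.symm fun c : G ⧸ U => f.1 (c.out)⁻¹)).coeff
      ((x⁻¹ : G) : G ⧸ U) = f.1 x
  have e1 : ((MonoidAlgebra.coeffLinearEquiv k).symm
      (Finsupp.equivFunOnFinite.symm fun c : G ⧸ U => f.1 (c.out)⁻¹)).coeff
      ((x⁻¹ : G) : G ⧸ U) = f.1 (((x⁻¹ : G) : G ⧸ U).out)⁻¹ := rfl
  rw [e1]
  obtain ⟨u, hu⟩ := QuotientGroup.mk_out_eq_mul U x⁻¹
  rw [hu]
  have e2 : (x⁻¹ * (u : G))⁻¹ = ((u⁻¹ : ↥U) : G) * x := by
    rw [mul_inv_rev, inv_inv]
    rfl
  rw [e2]
  exact coindRes_equivariant U (Rep.trivial k G k) f u⁻¹ x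

theorem permToCoind_equivariant (g : G) :
    permToCoind (k := k) U ∘ₗ (Representation.ofMulAction k G (G ⧸ U) g) =
      (coindRes U (Rep.trivial k G k)).ρ g ∘ₗ permToCoind U := by
  refine LinearMap.ext fun v => ?_
  apply Subtype.ext
  funext x
  show (Representation.ofMulAction k G (G ⧸ U) g v).coeff ((x⁻¹ : G) : G ⧸ U) =
    v.coeff (((x * g)⁻¹ : G) : G ⧸ U)
  rw [Representation.coeff_ofMulAction]
  congr 1
  show ((g⁻¹ * x⁻¹ : G) : G ⧸ U) = _
  rw [mul_inv_rev]

/-- **(SH-base)**: `k[G ⧸ U] ≅ Coind_U^G k` for `U` of finite index. -/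
def permCoindIso [Finite (G ⧸ U)] :
    Rep.ofMulAction k G (G ⧸ U) ≅ coindRes U (Rep.trivial k G k) :=
  Rep.mkIso (Representation.Equiv.mk
    (LinearEquiv.ofBijective (permToCoind U) ⟨permToCoind_injective U, permToCoind_surjective U⟩)
    (permToCoind_equivariant U))

theorem permCoindIso_hom_apply [Finite (G ⧸ U)] (v : Rep.ofMulAction k G (G ⧸ U)) (x : G) :
    ((permCoindIso (k := k) U).hom.hom v).1 x =
      (v : MonoidAlgebra k (G ⧸ U)).coeff ((x⁻¹ : G) : G ⧸ U) := rfl

/-! ### The Shapiro map of the permutation module -/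

section ShPerm

variable [Finite (G ⧸ U)]

/-- The coefficient at the trivial coset, a `U`-equivariant map `Res_U k[G ⧸ U] ⟶ k`. -/
def permEv : Rep.res U.subtype (Rep.ofMulAction k G (G ⧸ U)) ⟶
    Rep.res U.subtype (Rep.trivial k G k) :=
  (Rep.resFunctor U.subtype).map (permCoindIso U).hom ≫ coindEv U (Rep.trivial k G k)

theorem permEv_apply (v : Rep.ofMulAction k G (G ⧸ U)) :
    (permEv (k := k) U).hom v = (v : MonoidAlgebra k (G ⧸ U)).coeff ((1 : G) : G ⧸ U) := by
  show ((permCoindIso (k := k) U).hom.hom v).1 1 = _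
  rw [permCoindIso_hom_apply, inv_one]

/-- The Shapiro map of the permutation module on cochains. -/
def shPermMap (D : LevelDatum G) :
    lcComplex D (Rep.ofMulAction k G (G ⧸ U)) ⟶
      lcComplex (D.restrict U) (Rep.res U.subtype (Rep.trivial k G k)) :=
  lcMap (D.restrictHom U) (permEv U)

/-- The Shapiro map `Hⁿ(D, k[G ⧸ U]) ⟶ Hⁿ(D|U, k)`. -/
def shPerm (D : LevelDatum G) (n : ℕ) :
    Hlc D (Rep.ofMulAction k G (G ⧸ U)) n ⟶
      Hlc (D.restrict U) (Rep.res U.subtype (Rep.trivial k G k)) n :=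
  HomologicalComplex.homologyMap (shPermMap U D) n

theorem lcValC_shPermMap (D : LevelDatum G) (n : ℕ)
    (y : (lcComplex D (Rep.ofMulAction k G (G ⧸ U))).X n) (h : Fin n → ↥U) :
    lcValC (((shPermMap U D).f n).hom y) h =
      (lcValC y (fun i => (h i : G)) : MonoidAlgebra k (G ⧸ U)).coeff ((1 : G) : G ⧸ U) := by
  show (permEv (k := k) U).hom (lcValC (D := D) (M := Rep.ofMulAction k G (G ⧸ U)) y
    (fun i => (h i : G))) = _
  rw [permEv_apply]

theorem shPermMap_eq (D : LevelDatum G) :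
    shPermMap (k := k) U D = lcMapCoeff D (permCoindIso U).hom ≫ shMap D U (Rep.trivial k G k) :=
  rfl

theorem shPerm_eq (D : LevelDatum G) (n : ℕ) :
    shPerm (k := k) U D n =
      HomologicalComplex.homologyMap (lcMapCoeff D (permCoindIso (k := k) U).hom) n ≫
        sh D U (Rep.trivial k G k) n := by
  unfold shPerm sh
  rw [shPermMap_eq]
  exact HomologicalComplex.homologyMap_comp _ _ n

/-- The Shapiro map of the permutation module is bijective as soon as `sh` is. -/
theorem shPerm_bijective (D : LevelDatum G) (n : ℕ) (hinj : ShInjStatement n)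
    (hsurj : ShSurjStatement n)
    (hU : ∃ F : IntermediateField ℚ (AlgebraicClosure ℚ), D.Lev F ∧ (F.fixingSubgroup).Normal ∧
      D.sub F ≤ U) :
    Function.Bijective (shPerm (k := k) U D n).hom := by
  have hiso : IsIso (HomologicalComplex.homologyMap
      (lcMapCoeff D (permCoindIso (k := k) U).hom) n) := by
    have h1 : IsIso ((lcFunctor k D).map (permCoindIso (k := k) U).hom) := inferInstance
    have h2 : IsIso ((HomologicalComplex.homologyFunctor (ModuleCat.{0} k) (ComplexShape.up ℕ) n).map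
        ((lcFunctor k D).map (permCoindIso (k := k) U).hom)) := inferInstance
    exact h2
  have hb : Function.Bijective (HomologicalComplex.homologyMap
      (lcMapCoeff D (permCoindIso (k := k) U).hom) n).hom :=
    ConcreteCategory.bijective_of_isIso _
  have hs : Function.Bijective (sh D U (Rep.trivial k G k) n).hom :=
    ⟨hinj k G D U _ hU, hsurj k G D U _ hU⟩
  rw [shPerm_eq]
  exact hs.comp hb

end ShPerm

end Fermat.Agent.S55.H49

end
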