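import Fermat.Agent.S55.H49.ShapiroInj3Final
import Fermat.Agent.S55.H49.PermCoind
import Fermat.Agent.S55.H41.Bridge2
import Fermat.Agent.S55.H12.Resolution

/-!
# S55 / C9b, leaf (C) (helper49): `H²(G_S, 𝔽_p[G_ℚ/G_L]) ≃ H²_lc(G_S(L), μ_p)`

For a level field `L` (finite Galois over `ℚ`, unramified outside `S`, containing `μ_p`) and a
primitive `p`-th root of unity `ζ`:

  `eHLevel : continuousH2S S (baseRep p L) ≃+ HMu p S L 2`,

the composite of the degree-2 bridge (Prelude cocycles ↔ level-constant cochains), of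
`𝔽_p[G_ℚ/G_L] ≅ Coind_{G_L} 𝔽_p`, of Shapiro's lemma in degree 2 and of `𝔽_p ≃ μ_p`, `a ↦ ζ^a`.

Cocycle formula (`eHLevel_π`, `eHLevel_π_of`): the class of a level-`S` cocycle
`c : G_ℚ × G_ℚ → 𝔽_p[G_ℚ/G_L]` goes to the class of the level-constant cocycle
`(h₁, h₂) ↦ ζ ^ (coefficient of c (h₁, h₂) at the coset G_L)` of `G_L`.
-/

set_option autoImplicit false

open CategoryTheory groupCohomology ExtCitation

noncomputable section

namespace Fermat.Agent.S55.H49

local notation "Qb" => AlgebraicClosure ℚ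

variable (p : ℕ) [Fact p.Prime] (S : Finset Nat.Primes) (L : IntermediateField ℚ Qb)

theorem val_muEquiv {ζ : Qb} (hζ : IsPrimitiveRoot ζ p) (a : ZMod p) :
    ((H42.unitsRep.val (muEquiv p hζ a) : Qbˣ) : Qb) = ζ ^ a.val := by
  show ((H42.unitsRep.val (muHom p (muGen p hζ) a) : Qbˣ) : Qb) = ζ ^ a.val
  rw [val_muHom, Units.val_pow_eq_pow_val, val_muGen]

variable {p S L}

omit [Fact p.Prime] in
theorem finite_quotient_level (hL : H70.IsLevelField p S L) :
    Finite (GQ ⧸ L.fixingSubgroup) := by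
  have := hL.1.1
  have := H42.finiteIndex_fixingSubgroup L
  exact Subgroup.finite_quotient_of_finiteIndex

theorem smooth_baseRep_level (hL : H70.IsLevelField p S L) :
    (globalDatum S).Smooth (H70.baseRep p L) :=
  ⟨L, hL.1, H12.normal_fixingSubgroup_level p S L hL,
    fun s hs m => H12.baseRep_trivial p S L hL s hs m⟩

/-- The degree-2 bridge for the base module. -/
theorem bridge2_baseRep (hL : H70.IsLevelField p S L) :
    BridgeGlobal2Statement S (H70.baseRep p L) :=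
  H41.bridgeGlobal2All _ S _ (smooth_baseRep_level hL)

variable (p S L)

/-- `continuousH2S S (baseRep p L) ≃ H²` of the level-constant complex. -/
def eBridge (hL : H70.IsLevelField p S L) :
    continuousH2S S (H70.baseRep p L) ≃ₗ[ZMod p] HS S (H70.baseRep p L) 2 :=
  Classical.choose (bridge2_baseRep hL)

theorem eBridge_spec (hL : H70.IsLevelField p S L) :
    (∀ c : levelCocyclesS₂ S (H70.baseRep p L),
      ∃ z : cyc (lcComplex (globalDatum S) (H70.baseRep p L)) 2,
        ∀ g : Fin 2 → GQ, lcVal z g = c.1 (g 0, g 1)) ∧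
    ∀ (c : levelCocyclesS₂ S (H70.baseRep p L))
      (z : cyc (lcComplex (globalDatum S) (H70.baseRep p L)) 2),
      (∀ g : Fin 2 → GQ, lcVal z g = c.1 (g 0, g 1)) →
        eBridge p S L hL (continuousH2Sπ S (H70.baseRep p L) c) =
          (cls (lcComplex (globalDatum S) (H70.baseRep p L)) 2).hom z :=
  Classical.choose_spec (bridge2_baseRep hL)

/-- `𝔽_p[G_ℚ/G_L] ≅ Coind_{G_L} 𝔽_p`. -/
def baseCoindIso (hL : H70.IsLevelField p S L) : H70.baseRep p L ≅ H12.coindTriv p L :=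
  haveI := finite_quotient_level hL
  permCoindIso (k := ZMod p) L.fixingSubgroup

theorem baseCoindIso_hom_apply (hL : H70.IsLevelField p S L) (v : H70.baseRep p L) (x : GQ) :
    ((baseCoindIso p S L hL).hom.hom v).1 x =
      (v : MonoidAlgebra (ZMod p) (GQ ⧸ L.fixingSubgroup)).coeff
        ((x⁻¹ : GQ) : GQ ⧸ L.fixingSubgroup) := rfl

/-- The map induced on `H²` by `baseCoindIso`. -/
def ePerm (hL : H70.IsLevelField p S L) :
    HS S (H70.baseRep p L) 2 ≃ₗ[ZMod p] HS S (H12.coindTriv p L) 2 :=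
  ((HomologicalComplex.homologyFunctor (ModuleCat.{0} (ZMod p)) (ComplexShape.up ℕ) 2).mapIso
    ((lcFunctor (ZMod p) (globalDatum S)).mapIso (baseCoindIso p S L hL))).toLinearEquiv

theorem ePerm_cls (hL : H70.IsLevelField p S L)
    (z : cyc (lcComplex (globalDatum S) (H70.baseRep p L)) 2) :
    ePerm p S L hL ((cls (lcComplex (globalDatum S) (H70.baseRep p L)) 2).hom z) =
      (cls (lcComplex (globalDatum S) (H12.coindTriv p L)) 2).hom
        (cycMap (lcMapCoeff (globalDatum S) (baseCoindIso p S L hL).hom) 2 z) :=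
  homologyMap_cls (lcMapCoeff (globalDatum S) (baseCoindIso p S L hL).hom) 2 z

/-- **The Shapiro isomorphism of the base module in degree 2**:
`H²(G_S, 𝔽_p[G_ℚ/G_L]) ≃+ H²_lc(G_S(L), μ_p)`. -/
def eHLevel (hL : H70.IsLevelField p S L) {ζ : Qb} (hζ : IsPrimitiveRoot ζ p) :
    continuousH2S S (H70.baseRep p L) ≃+ H70.HMu p S L 2 :=
  (eBridge p S L hL).toAddEquiv.trans
    ((ePerm p S L hL).toAddEquiv.trans (fpToMuEquiv p L hL.1 hL.2.2 hζ))

theorem eHLevel_apply (hL : H70.IsLevelField p S L) {ζ : Qb} (hζ : IsPrimitiveRoot ζ p)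
    (x : continuousH2S S (H70.baseRep p L)) :
    eHLevel p S L hL hζ x =
      fpToMu p L S hL.2.2 hζ 1 (ePerm p S L hL (eBridge p S L hL x)) := rfl

/-- The cocycle of `G_L` with values in `μ_p` attached to a cocycle of `G_ℚ` with values in
`𝔽_p[G_ℚ/G_L]`: `(h₁, h₂) ↦ ζ ^ (coefficient of c (h₁, h₂) at the coset G_L)`. -/
def eHCyc (hL : H70.IsLevelField p S L) {ζ : Qb} (hζ : IsPrimitiveRoot ζ p)
    (z : cyc (lcComplex (globalDatum S) (H70.baseRep p L)) 2) :
    cyc (lcComplex (H42.fieldDatum S L) (H42.resF L (H42.Mux p))) 2 :=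
  (muCoeff p L hL.2.2 hζ).coCyc (H42.fieldDatum S L) 2
    (cycMap (H99.shCo (isRestrict_fieldDatum L S) (fpRep p L)) 2
      (cycMap (lcMapCoeff (globalDatum S) (baseCoindIso p S L hL).hom) 2 z))

theorem lcVal_eHCyc (hL : H70.IsLevelField p S L) {ζ : Qb} (hζ : IsPrimitiveRoot ζ p)
    (z : cyc (lcComplex (globalDatum S) (H70.baseRep p L)) 2) (h : Fin 2 → ↥L.fixingSubgroup) :
    lcVal (eHCyc p S L hL hζ z) h =
      muEquiv p hζ ((lcVal z (fun i => (h i : GQ)) :
        MonoidAlgebra (ZMod p) (GQ ⧸ L.fixingSubgroup)).coeff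
          (((1 : GQ)⁻¹ : GQ) : GQ ⧸ L.fixingSubgroup)) := rfl

theorem eHLevel_cls (hL : H70.IsLevelField p S L) {ζ : Qb} (hζ : IsPrimitiveRoot ζ p)
    (c : levelCocyclesS₂ S (H70.baseRep p L))
    (z : cyc (lcComplex (globalDatum S) (H70.baseRep p L)) 2)
    (hz : ∀ g : Fin 2 → GQ, lcVal z g = c.1 (g 0, g 1)) :
    eHLevel p S L hL hζ (continuousH2Sπ S (H70.baseRep p L) c) =
      (cls (lcComplex (H42.fieldDatum S L) (H42.resF L (H42.Mux p))) 2).hom
        (eHCyc p S L hL hζ z) := by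
  rw [eHLevel_apply, (eBridge_spec p S L hL).2 c z hz, ePerm_cls]
  show (muCoeff p L hL.2.2 hζ).coH (H42.fieldDatum S L) 1
    (H99.sh (isRestrict_fieldDatum L S) (fpRep p L) 2 _) = _
  rw [H99.sh_cls, CoeffEquiv.coH_cls]
  rfl

/-- **Cocycle formula for `eHLevel`**: the class of a level-`S` cocycle `c` goes to the class of
a level-constant cocycle `z'` of `G_L` with values `ζ ^ (coefficient of c (h₁, h₂) at G_L)`. -/
theorem eHLevel_π (hL : H70.IsLevelField p S L) {ζ : Qb} (hζ : IsPrimitiveRoot ζ p)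
    (c : levelCocyclesS₂ S (H70.baseRep p L)) :
    ∃ z' : cyc (lcComplex (H42.fieldDatum S L) (H42.resF L (H42.Mux p))) 2,
      (∀ h : Fin 2 → ↥L.fixingSubgroup, lcVal z' h = muEquiv p hζ
        ((c.1 ((h 0 : GQ), (h 1 : GQ)) : MonoidAlgebra (ZMod p) (GQ ⧸ L.fixingSubgroup)).coeff
          ((1 : GQ) : GQ ⧸ L.fixingSubgroup))) ∧
      eHLevel p S L hL hζ (continuousH2Sπ S (H70.baseRep p L) c) =
        (cls (lcComplex (H42.fieldDatum S L) (H42.resF L (H42.Mux p))) 2).hom z' := by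
  obtain ⟨z, hz⟩ := (eBridge_spec p S L hL).1 c
  refine ⟨eHCyc p S L hL hζ z, fun h => ?_, eHLevel_cls p S L hL hζ c z hz⟩
  rw [lcVal_eHCyc, hz, inv_one]

/-- The same, for any cocycle `z'` with the prescribed values. -/
theorem eHLevel_π_of (hL : H70.IsLevelField p S L) {ζ : Qb} (hζ : IsPrimitiveRoot ζ p)
    (c : levelCocyclesS₂ S (H70.baseRep p L))
    (z' : cyc (lcComplex (H42.fieldDatum S L) (H42.resF L (H42.Mux p))) 2)
    (hz' : ∀ h : Fin 2 → ↥L.fixingSubgroup, lcVal z' h = muEquiv p hζ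
      ((c.1 ((h 0 : GQ), (h 1 : GQ)) : MonoidAlgebra (ZMod p) (GQ ⧸ L.fixingSubgroup)).coeff
        ((1 : GQ) : GQ ⧸ L.fixingSubgroup))) :
    eHLevel p S L hL hζ (continuousH2Sπ S (H70.baseRep p L) c) =
      (cls (lcComplex (H42.fieldDatum S L) (H42.resF L (H42.Mux p))) 2).hom z' := by
  obtain ⟨z'', h1, h2⟩ := eHLevel_π p S L hL hζ c
  have e : z' = z'' := lcVal_injective (funext fun h => (hz' h).trans (h1 h).symm)
  rw [e]
  exact h2

end Fermat.Agent.S55.H49

end
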