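import Fermat.Agent.S55.H49.C0Spec

/-!
# S55 / C0 leaf L9 (helper49): short exact sequences of level-constant cochain complexes

A short exact sequence of representations with smooth middle term gives a short exact sequence
of complexes of level-constant cochains (`lc_shortExact : LcShortExactStatement`).
-/

set_option autoImplicit false

open CategoryTheory groupCohomology

noncomputable section

namespace Fermat.Agent.S55.H49

variable {k : Type} [CommRing k] {G : Type} [Group G]

theorem lcMapCoeff_apply (D : LevelDatum G) {A B : Rep.{0} k G} (ψ : A ⟶ B) (n : ℕ)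
    (x : (lcComplex D A).X n) (g : Fin n → G) :
    lcValC (((lcMapCoeff D ψ).f n).hom x) g = ψ.hom (lcValC x g) := rfl

theorem lcMapCoeff_f_injective (D : LevelDatum G) {A B : Rep.{0} k G} (ψ : A ⟶ B)
    (hψ : Function.Injective ψ.hom) (n : ℕ) :
    Function.Injective ((lcMapCoeff D ψ).f n).hom := by
  intro x y h
  apply lcValC_injective
  funext g
  apply hψ
  rw [← lcMapCoeff_apply, ← lcMapCoeff_apply, h]

theorem lcMapCoeff_f_exact (D : LevelDatum G) {A B C : Rep.{0} k G} (φ : A ⟶ B) (ψ : B ⟶ C)
    (hφ : Function.Injective φ.hom) (hex : ∀ b : B, ψ.hom b = 0 → ∃ a : A, φ.hom a = b) (n : ℕ)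
    (y : (lcComplex D B).X n) (hy : ((lcMapCoeff D ψ).f n).hom y = 0) :
    ∃ x : (lcComplex D A).X n, ((lcMapCoeff D φ).f n).hom x = y := by
  have h0 : ∀ g : Fin n → G, ψ.hom (lcValC y g) = 0 := by
    intro g
    rw [← lcMapCoeff_apply, hy]
    rfl
  choose f hf using fun g => hex _ (h0 g)
  obtain ⟨F, hF, hN, h1, h2⟩ := (show lcCochains D B n from y).2
  have hlc : IsLC D A f := by
    refine ⟨F, hF, hN, fun g s hs => hφ ?_, fun g s hs => hφ ?_⟩
    · rw [hf, hf]
      exact h1 g s hs
    · rw [Rep.hom_comm_apply, hf]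
      exact h2 g s hs
  refine ⟨(⟨f, hlc⟩ : lcCochains D A n), ?_⟩
  apply lcValC_injective
  funext g
  exact hf g

theorem lcMapCoeff_f_surjective (D : LevelDatum G) {B C : Rep.{0} k G} (ψ : B ⟶ C)
    (hψ : Function.Surjective ψ.hom) (hB : D.Smooth B) (n : ℕ) :
    Function.Surjective ((lcMapCoeff D ψ).f n).hom := by
  intro y
  obtain ⟨F₀, hF₀, hN₀, h0⟩ := hB
  obtain ⟨F, hF, hN, h1, h2⟩ := (show lcCochains D C n from y).2
  have hlc : IsLC D B (fun g => Function.surjInv hψ (lcValC y g)) := by
    refine ⟨F ⊔ F₀, D.sup hF hF₀, normal_fixingSubgroup_sup hN hN₀, fun g s hs => ?_,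
      fun g s hs => ?_⟩
    · have : lcValC y (g * s) = lcValC y g :=
        h1 g s fun i => D.sub_antitone le_sup_left (hs i)
      show Function.surjInv hψ (lcValC y (g * s)) = Function.surjInv hψ (lcValC y g)
      rw [this]
    · exact h0 s (D.sub_antitone le_sup_right hs) _
  refine ⟨(⟨_, hlc⟩ : lcCochains D B n), ?_⟩
  apply lcValC_injective
  funext g
  exact Function.surjInv_eq hψ _

/-- Leaf L9. -/
theorem lc_shortExact : LcShortExactStatement := by
  intro k _ G _ D X hX hs
  have hinj : Function.Injective X.f.hom := (Rep.mono_iff_injective X.f).1 hX.mono_f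
  have hsurj : Function.Surjective X.g.hom := (Rep.epi_iff_surjective X.g).1 hX.epi_g
  have hrk : LinearMap.range X.f.hom.toLinearMap = LinearMap.ker X.g.hom.toLinearMap :=
    (hX.exact.map (forget₂ (Rep.{0} k G) (ModuleCat.{0} k))).moduleCat_range_eq_ker
  have hex : ∀ b : X.X₂, X.g.hom b = 0 → ∃ a : X.X₁, X.f.hom a = b := by
    intro b hb
    have : b ∈ LinearMap.ker X.g.hom.toLinearMap := hb
    rw [← hrk] at this
    exact this
  refine HomologicalComplex.shortExact_of_degreewise_shortExact _ fun i => ?_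
  refine
    { exact := ?_
      mono_f := ?_
      epi_g := ?_ }
  · rw [ShortComplex.moduleCat_exact_iff]
    intro y hy
    exact lcMapCoeff_f_exact D X.f X.g hinj hex i y hy
  · exact (ModuleCat.mono_iff_injective _).mpr (lcMapCoeff_f_injective D X.f hinj i)
  · exact (ModuleCat.epi_iff_surjective _).mpr (lcMapCoeff_f_surjective D X.g hsurj hs i)

end Fermat.Agent.S55.H49

end
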