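import Mathlib

/-!
# S55 / C0 (helper49): cocycles and classes in a cochain complex of modules

For `K : CochainComplex (ModuleCat k) ℕ`: the submodule `cyc K n` of `n`-cocycles of `K.X n` and
the class map `cls K n : cyc K n → Hⁿ(K)`.  This is the only interface to Mathlib's abstract
homology that the explicit cochain computations of Program C use:
`cls` is surjective, `cls z = 0` iff `z` is a coboundary, and `cls` is natural.
-/

set_option autoImplicit false

open CategoryTheory

noncomputable section

namespace Fermat.Agent.S55.H49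

variable {k : Type} [CommRing k]

/-- The `n`-cocycles of a cochain complex of modules. -/
def cyc (K : CochainComplex (ModuleCat.{0} k) ℕ) (n : ℕ) : Submodule k (K.X n) :=
  LinearMap.ker (K.d n (n + 1)).hom

theorem mem_cyc {K : CochainComplex (ModuleCat.{0} k) ℕ} {n : ℕ} {x : K.X n} :
    x ∈ cyc K n ↔ (K.d n (n + 1)).hom x = 0 := Iff.rfl

/-- The inclusion of the cocycles, as a morphism to the cycles object of Mathlib. -/
def cycToCycles (K : CochainComplex (ModuleCat.{0} k) ℕ) (n : ℕ) :
    ModuleCat.of k (cyc K n) ⟶ K.cycles n :=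
  K.liftCycles (ModuleCat.ofHom (cyc K n).subtype) (n + 1) (by simp)
    (ModuleCat.hom_ext (LinearMap.ext fun z => z.2))

/-- The class of a cocycle. -/
def cls (K : CochainComplex (ModuleCat.{0} k) ℕ) (n : ℕ) :
    ModuleCat.of k (cyc K n) ⟶ K.homology n :=
  cycToCycles K n ≫ K.homologyπ n

/-- A chain map sends cocycles to cocycles. -/
def cycMap {K L : CochainComplex (ModuleCat.{0} k) ℕ} (φ : K ⟶ L) (n : ℕ) :
    cyc K n →ₗ[k] cyc L n :=
  (φ.f n).hom.restrict fun x hx => by
    have e := LinearMap.congr_fun (ModuleCat.hom_ext_iff.mp (φ.comm n (n + 1))) x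
    have e' : (L.d n (n + 1)).hom ((φ.f n).hom x) = (φ.f (n + 1)).hom ((K.d n (n + 1)).hom x) := e
    rw [mem_cyc, e', mem_cyc.mp hx, map_zero]

@[simp]
theorem cycMap_coe {K L : CochainComplex (ModuleCat.{0} k) ℕ} (φ : K ⟶ L) (n : ℕ) (z : cyc K n) :
    ((cycMap φ n z : cyc L n) : L.X n) = (φ.f n).hom z.1 := rfl


section Api

variable (K : CochainComplex (ModuleCat.{0} k) ℕ) (n : ℕ)

theorem iCycles_cycToCycles (z : cyc K n) :
    (K.iCycles n).hom ((cycToCycles K n).hom z) = z.1 := by
  have e := LinearMap.congr_fun (ModuleCat.hom_ext_iff.mp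
    (K.liftCycles_i (ModuleCat.ofHom (cyc K n).subtype) (n + 1) (by simp)
      (ModuleCat.hom_ext (LinearMap.ext fun z => z.2)))) z
  exact e

theorem iCycles_injective : Function.Injective (K.iCycles n).hom :=
  (ModuleCat.mono_iff_injective _).mp inferInstance

theorem iCycles_mem_cyc (x : K.cycles n) : (K.iCycles n).hom x ∈ cyc K n := by
  have e := LinearMap.congr_fun (ModuleCat.hom_ext_iff.mp (K.iCycles_d n (n + 1))) x
  exact e

theorem cycToCycles_bijective : Function.Bijective (cycToCycles K n).hom := by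
  refine ⟨fun z z' h => ?_, fun x => ⟨⟨(K.iCycles n).hom x, iCycles_mem_cyc K n x⟩, ?_⟩⟩
  · apply Subtype.ext
    rw [← iCycles_cycToCycles K n z, ← iCycles_cycToCycles K n z', h]
  · apply iCycles_injective K n
    rw [iCycles_cycToCycles]

/-- Every cohomology class is the class of a cocycle. -/
theorem cls_surjective : Function.Surjective (cls K n).hom := by
  have h1 : Function.Surjective (K.homologyπ n).hom :=
    (ModuleCat.epi_iff_surjective _).mp inferInstance
  intro x
  obtain ⟨y, rfl⟩ := h1 x
  obtain ⟨z, rfl⟩ := (cycToCycles_bijective K n).2 y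
  exact ⟨z, rfl⟩

/-- Naturality of the class map. -/
theorem homologyMap_cls {K L : CochainComplex (ModuleCat.{0} k) ℕ} (φ : K ⟶ L) (n : ℕ)
    (z : cyc K n) :
    (HomologicalComplex.homologyMap φ n).hom ((cls K n).hom z) = (cls L n).hom (cycMap φ n z) := by
  have e1 := LinearMap.congr_fun (ModuleCat.hom_ext_iff.mp
    (HomologicalComplex.homologyπ_naturality φ n)) ((cycToCycles K n).hom z)
  have e2 : (HomologicalComplex.cyclesMap φ n).hom ((cycToCycles K n).hom z) =
      (cycToCycles L n).hom (cycMap φ n z) := by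
    apply iCycles_injective L n
    rw [iCycles_cycToCycles]
    have e3 := LinearMap.congr_fun (ModuleCat.hom_ext_iff.mp
      (HomologicalComplex.cyclesMap_i φ n)) ((cycToCycles K n).hom z)
    have e3' : (L.iCycles n).hom ((HomologicalComplex.cyclesMap φ n).hom
        ((cycToCycles K n).hom z)) = (φ.f n).hom ((K.iCycles n).hom ((cycToCycles K n).hom z)) := e3
    rw [e3', iCycles_cycToCycles]
    rfl
  have e1' : (HomologicalComplex.homologyMap φ n).hom ((K.homologyπ n).hom
      ((cycToCycles K n).hom z)) = (L.homologyπ n).hom ((HomologicalComplex.cyclesMap φ n).hom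
        ((cycToCycles K n).hom z)) := e1
  show (HomologicalComplex.homologyMap φ n).hom ((K.homologyπ n).hom ((cycToCycles K n).hom z)) =
    (L.homologyπ n).hom ((cycToCycles L n).hom (cycMap φ n z))
  rw [e1', e2]

end Api


section Api2

variable (K : CochainComplex (ModuleCat.{0} k) ℕ) (n : ℕ)

theorem ker_homologyπ_succ :
    LinearMap.ker (K.homologyπ (n + 1)).hom = LinearMap.range (K.toCycles n (n + 1)).hom := by
  have hS : (ShortComplex.mk (K.toCycles n (n + 1)) (K.homologyπ (n + 1))
      (K.toCycles_comp_homologyπ n (n + 1))).Exact :=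
    ShortComplex.exact_of_g_is_cokernel _ (K.homologyIsCokernel n (n + 1) (by simp))
  exact hS.moduleCat_range_eq_ker.symm

/-- In positive degree, the class of a cocycle vanishes iff it is a coboundary. -/
theorem cls_eq_zero_iff (z : cyc K (n + 1)) :
    (cls K (n + 1)).hom z = 0 ↔ ∃ y : K.X n, (K.d n (n + 1)).hom y = z.1 := by
  have h0 : (cls K (n + 1)).hom z = 0 ↔
      (cycToCycles K (n + 1)).hom z ∈ LinearMap.ker (K.homologyπ (n + 1)).hom := Iff.rfl
  rw [h0, ker_homologyπ_succ]
  constructor
  · rintro ⟨y, hy⟩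
    refine ⟨y, ?_⟩
    have e := LinearMap.congr_fun (ModuleCat.hom_ext_iff.mp (K.toCycles_i n (n + 1))) y
    have e' : (K.iCycles (n + 1)).hom ((K.toCycles n (n + 1)).hom y) = (K.d n (n + 1)).hom y := e
    rw [← e', hy, iCycles_cycToCycles]
  · rintro ⟨y, hy⟩
    refine ⟨y, iCycles_injective K (n + 1) ?_⟩
    have e := LinearMap.congr_fun (ModuleCat.hom_ext_iff.mp (K.toCycles_i n (n + 1))) y
    have e' : (K.iCycles (n + 1)).hom ((K.toCycles n (n + 1)).hom y) = (K.d n (n + 1)).hom y := e
    rw [e', hy, iCycles_cycToCycles]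

/-- Two cocycles of positive degree have the same class iff they differ by a coboundary. -/
theorem cls_eq_cls_iff (z z' : cyc K (n + 1)) :
    (cls K (n + 1)).hom z = (cls K (n + 1)).hom z' ↔
      ∃ y : K.X n, (K.d n (n + 1)).hom y = z.1 - z'.1 := by
  rw [← sub_eq_zero, ← map_sub, cls_eq_zero_iff]
  rfl

end Api2


/-- In degree `0` the class map is injective (hence bijective). -/
theorem cls_zero_injective (K : CochainComplex (ModuleCat.{0} k) ℕ) :
    Function.Injective (cls K 0).hom := by
  have : IsIso (K.homologyπ 0) :=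
    K.isIso_homologyπ 0 0 (by simp) (K.shape _ _ (by simp))
  have h1 : Function.Injective (K.homologyπ 0).hom :=
    (ModuleCat.mono_iff_injective _).mp inferInstance
  intro z z' h
  exact (cycToCycles_bijective K 0).1 (h1 h)

end Fermat.Agent.S55.H49

end
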