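import Fermat.Agent.S55.H49.LevelDefs
import Fermat.Agent.S55.H49.HomologyApi

/-!
# S55 / C0 (helper49): the cocone and the product in cohomology

* `range_coconeFst_eq_ker`: `range (Hⁿ(cocone ρ) → Hⁿ(K)) = ker (Hⁿ(K) → Hⁿ(L))` (`n ≥ 1`);
* `homologyMap_piLift_eq_zero_iff`: a class dies in the product complex iff it dies in every
  factor (`n ≥ 1`).
-/

set_option autoImplicit false

open CategoryTheory

noncomputable section

namespace Fermat.Agent.S55.H49

variable {k : Type} [CommRing k] {K L : CochainComplex (ModuleCat.{0} k) ℕ}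

theorem cocone_d_succ_apply (ρ : K ⟶ L) (n : ℕ) (x : K.X (n + 1) × L.X n) :
    ((cocone ρ).d (n + 1) (n + 1 + 1)).hom x =
      (((K.d (n + 1) (n + 1 + 1)).hom x.1, (ρ.f (n + 1)).hom x.1 - (L.d n (n + 1)).hom x.2) :
        K.X (n + 1 + 1) × L.X (n + 1)) := by
  simp only [cocone, CochainComplex.of_d]
  rfl

theorem cocone_d_zero_apply (ρ : K ⟶ L) (x : K.X 0) :
    ((cocone ρ).d 0 1).hom x = (((K.d 0 1).hom x, (ρ.f 0).hom x) : K.X 1 × L.X 0) := by
  rfl

theorem piComplex_d_apply {ι : Type} (C : ι → CochainComplex (ModuleCat.{0} k) ℕ) (n : ℕ)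
    (x : ∀ v, (C v).X n) (v : ι) :
    ((piComplex C).d n (n + 1)).hom x v = ((C v).d n (n + 1)).hom (x v) := by
  simp only [piComplex, CochainComplex.of_d]
  rfl

/-- Exactness of `Hⁿ(cocone ρ) → Hⁿ(K) → Hⁿ(L)` in positive degrees. -/
theorem range_coconeFst_eq_ker (ρ : K ⟶ L) (n : ℕ) :
    LinearMap.range (HomologicalComplex.homologyMap (coconeFst ρ) (n + 1)).hom =
      LinearMap.ker (HomologicalComplex.homologyMap ρ (n + 1)).hom := by
  ext x
  constructor
  · rintro ⟨y, rfl⟩
    obtain ⟨w, rfl⟩ := cls_surjective (cocone ρ) (n + 1) y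
    rw [LinearMap.mem_ker, homologyMap_cls, homologyMap_cls, cls_eq_zero_iff]
    have hw : ((cocone ρ).d (n + 1) (n + 1 + 1)).hom w.1 = 0 := mem_cyc.mp w.2
    have e := (cocone_d_succ_apply ρ n (w.1 : K.X (n + 1) × L.X n)).symm.trans hw
    have h2 : (ρ.f (n + 1)).hom (w.1 : K.X (n + 1) × L.X n).1 -
        (L.d n (n + 1)).hom (w.1 : K.X (n + 1) × L.X n).2 = 0 := (Prod.ext_iff.mp e).2
    rw [sub_eq_zero] at h2
    exact ⟨(w.1 : K.X (n + 1) × L.X n).2, h2.symm⟩
  · intro hx
    obtain ⟨z, rfl⟩ := cls_surjective K (n + 1) x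
    rw [LinearMap.mem_ker, homologyMap_cls, cls_eq_zero_iff] at hx
    obtain ⟨b, hb⟩ := hx
    have hb' : (L.d n (n + 1)).hom b = (ρ.f (n + 1)).hom z.1 := hb
    let w₀ : (cocone ρ).X (n + 1) := ((z.1, b) : K.X (n + 1) × L.X n)
    have hw : w₀ ∈ cyc (cocone ρ) (n + 1) := by
      rw [mem_cyc]
      refine (cocone_d_succ_apply ρ n (z.1, b)).trans (Prod.ext (mem_cyc.mp z.2) ?_)
      show (ρ.f (n + 1)).hom z.1 - (L.d n (n + 1)).hom b = 0
      rw [hb', sub_self]
    refine ⟨(cls (cocone ρ) (n + 1)).hom ⟨w₀, hw⟩, ?_⟩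
    rw [homologyMap_cls]
    congr 1

/-- A class dies in the product complex iff it dies in every factor. -/
theorem homologyMap_piLift_eq_zero_iff {ι : Type} {C : ι → CochainComplex (ModuleCat.{0} k) ℕ}
    (ρ : ∀ v, K ⟶ C v) (n : ℕ) (x : K.homology (n + 1)) :
    (HomologicalComplex.homologyMap (piLift ρ) (n + 1)).hom x = 0 ↔
      ∀ v, (HomologicalComplex.homologyMap (ρ v) (n + 1)).hom x = 0 := by
  obtain ⟨z, rfl⟩ := cls_surjective K (n + 1) x
  rw [homologyMap_cls, cls_eq_zero_iff]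
  constructor
  · rintro ⟨y, hy⟩ v
    rw [homologyMap_cls, cls_eq_zero_iff]
    exact ⟨(y : ∀ v, (C v).X n) v, (piComplex_d_apply C n y v).symm.trans (congrFun hy v)⟩
  · intro h
    have h' : ∀ v, ∃ y : (C v).X n, ((C v).d n (n + 1)).hom y = ((ρ v).f (n + 1)).hom z.1 := by
      intro v
      have := h v
      rw [homologyMap_cls, cls_eq_zero_iff] at this
      exact this
    choose y hy using h'
    let y₀ : (piComplex C).X n := (y : ∀ v, (C v).X n)
    refine ⟨y₀, ?_⟩
    funext v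
    exact (piComplex_d_apply C n y v).trans (hy v)


/-- The value function of a level-constant cochain. -/
def lcValC {G : Type} [Group G] {D : LevelDatum G} {M : Rep.{0} k G} {n : ℕ}
    (y : (lcComplex D M).X n) : (Fin n → G) → M :=
  (show lcCochains D M n from y).1

/-- The value function of a level-constant cocycle. -/
def lcVal {G : Type} [Group G] {D : LevelDatum G} {M : Rep.{0} k G} {n : ℕ}
    (z : cyc (lcComplex D M) n) : (Fin n → G) → M :=
  lcValC z.1

theorem lcValC_injective {G : Type} [Group G] {D : LevelDatum G} {M : Rep.{0} k G} {n : ℕ} :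
    Function.Injective (lcValC : (lcComplex D M).X n → (Fin n → G) → M) :=
  fun _ _ h => Subtype.ext h

theorem lcVal_injective {G : Type} [Group G] {D : LevelDatum G} {M : Rep.{0} k G} {n : ℕ} :
    Function.Injective (lcVal : cyc (lcComplex D M) n → (Fin n → G) → M) :=
  fun _ _ h => Subtype.ext (lcValC_injective h)

theorem lcVal_cycMap_lcRes {G G' : Type} [Group G] [Group G'] {D' : LevelDatum G'}
    {D : LevelDatum G} (h : D'.Hom D) (M : Rep.{0} k G) (n : ℕ) (z : cyc (lcComplex D M) n)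
    (g : Fin n → G') : lcVal (cycMap (lcRes h M) n z) g = lcVal z (h.φ ∘ g) := rfl

/-- `x ∈ range (Hⁿ_c(G_S, M) → Hⁿ(G_S, M))` iff `x` is locally trivial at all primes of `S`
(`n ≥ 1`). -/
theorem mem_range_jS_iff (S : Finset Nat.Primes) (M : Rep.{0} k GQ) (n : ℕ)
    (x : HS S M (n + 1)) :
    x ∈ LinearMap.range (jS S M (n + 1)).hom ↔ ∀ q : ↥S, (resq S q M (n + 1)).hom x = 0 := by
  have h1 := range_coconeFst_eq_ker (locMap (primeDatum S) (globalDatum S) (primeHom S) M) n
  have h2 : x ∈ LinearMap.range (jS S M (n + 1)).hom ↔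
      x ∈ LinearMap.ker (HomologicalComplex.homologyMap
        (locMap (primeDatum S) (globalDatum S) (primeHom S) M) (n + 1)).hom := by
    rw [← h1]
    rfl
  exact h2.trans (homologyMap_piLift_eq_zero_iff (fun q : ↥S => lcRes (primeHom S q) M) n x)

end Fermat.Agent.S55.H49

end
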