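import Fermat.Agent.S55.H49.RouteRPackage
import Fermat.Agent.S55.H87.BaseChain

/-!
# S55 / C0 (helper49): `loc0` is finite-dimensional

`loc0 S N ⊆ H¹_c(G_S, N)` is the image of the cocycles `(0, (m_q)_{q ∈ S})`, which embed into
`∏_{q ∈ S} N`.  This is the leaf `Loc0Fin` of the base-case chain (`H87/BaseChain.lean`).
-/

set_option autoImplicit false

open CategoryTheory groupCohomology ExtCitation

noncomputable section

namespace Fermat.Agent.S55.H49

section Fin

variable {k : Type} [CommRing k] (S : Finset Nat.Primes) (N : Rep.{0} k GQ)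

/-- The local component at `q` of a compactly supported 1-cochain. -/
def ccSndAt (x : (ccS S N).X 1) (q : ↥S) :
    (lcComplex (primeDatum S q) (Rep.res (primeHom S q).φ N)).X 0 :=
  (ccSnd S N x : ∀ q : ↥S, (lcComplex (primeDatum S q) (Rep.res (primeHom S q).φ N)).X 0) q

/-- The local component at `q` of a compactly supported 1-cochain, as an element of `N`. -/
def sndVal : (ccS S N).X 1 →ₗ[k] (∀ _ : ↥S, N) where
  toFun x q := lcValC (D := primeDatum S q) (M := Rep.res (primeHom S q).φ N)
    (ccSndAt S N x q) default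
  map_add' _ _ := rfl
  map_smul' _ _ := rfl

theorem eq_zero_of_sndVal_eq_zero (x : (ccS S N).X 1) (h1 : ccFst S N x = 0)
    (h2 : sndVal S N x = 0) : x = 0 := by
  have h3 : ccSnd S N x = 0 := by
    funext q
    apply lcValC_injective
    funext g
    have e : g = default := Subsingleton.elim _ _
    rw [e]
    exact congrFun h2 q
  exact Prod.ext h1 h3

end Fin

section FinDim

variable {K : Type} [Field K] (S : Finset Nat.Primes) (N : Rep.{0} K GQ)

/-- `loc0 S N` is finite-dimensional when `N` is. -/
theorem finiteDimensional_loc0 [FiniteDimensional K N] : FiniteDimensional K (loc0 S N) := by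
  let f : zeroFst S N →ₗ[K] (∀ _ : ↥S, N) :=
    (sndVal S N ∘ₗ (cyc (ccS S N) 1).subtype) ∘ₗ (zeroFst S N).subtype
  have hf : Function.Injective f := by
    rw [injective_iff_map_eq_zero]
    intro z hz
    exact Subtype.ext (Subtype.ext (eq_zero_of_sndVal_eq_zero S N z.1.1 z.2 hz))
  have h1 : FiniteDimensional K (zeroFst S N) := FiniteDimensional.of_injective f hf
  exact Module.Finite.map (zeroFst S N) (cls (ccS S N) 1).hom

end FinDim

/-- **The leaf `Loc0Fin`** of the base-case chain, for the cochain model. -/
theorem rPackage_loc0Fin (p : ℕ) [Fact p.Prime] (S : Finset Nat.Primes)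
    (pairing : ∀ M : Rep.{0, 0, 0} (ZMod p) GQ,
      continuousH2S S M →ₗ[ZMod p] Hc1 S (H70.D p M) →ₗ[ZMod p] ZMod p) :
    H87.Loc0Fin (rPackage p S pairing) := fun N hN => by
  have := hN.1
  exact finiteDimensional_loc0 S N

end Fermat.Agent.S55.H49

end
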