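import Fermat.Agent.S55.H49.GoUp
import Fermat.Agent.S55.H49.Loc0Fin
import Fermat.Agent.S55.H87.CountChain
import Fermat.Agent.S55.H43.LevelField

/-!
# S55 / Program C, Route R: assembly of the landed chains (helper49)

`s55_of_open_leaves` derives the statement of the frozen S55 from the leaves of Route R that are
not yet proved, for the cochain-model package `rPackage p S pairing`:

* the pairing `H²(G_S, M) × H¹_c(G_S, M') → 𝔽_p` and its naturality `hnat` (C2);
* `LocalCriterion` (C4 + C2);
* `H2Surj` (CD): `H²(G_S, -)` preserves surjections of admissible modules;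
* `ExStatement`, `HasseStatement c` (C9b), `KummerStatement c d`, `IsotropyStatement d` (C9a).

Everything else (`DualAdm`, `Bridge`, `LevelField`, `Hc1Inj`, `Hc1Exact`, `BaseAdm`, `Loc0Fin`,
`GoUp`, the dévissage and the counting argument) is proved on main.
-/

set_option autoImplicit false

open CategoryTheory Module groupCohomology ExtCitation

noncomputable section

namespace Fermat.Agent.S55.H49

/-- **S55 from the open leaves of Route R.** -/
theorem s55_of_open_leaves {p : ℕ} [Fact p.Prime] (hp2 : p ≠ 2) (S : Finset Nat.Primes)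
    (hpS : pPrime p ∈ S)
    (pairing : ∀ M : Rep.{0, 0, 0} (ZMod p) GQ,
      continuousH2S S M →ₗ[ZMod p] Hc1 S (H70.D p M) →ₗ[ZMod p] ZMod p)
    (hnat : ∀ {X Y : Rep.{0, 0, 0} (ZMod p) GQ} (f : X ⟶ Y) (x : continuousH2S S X)
      (y : Hc1 S (H70.D p Y)),
      pairing Y (H43.H2SMap S f x) y = pairing X x ((Hc1Map S (H12.dualHom p f)).hom y))
    (hlc : (rPackage p S pairing).LocalCriterion)
    (hcd : (rFunctor p S pairing hnat).H2Surj)
    (hex : H87.ExStatement (rPackage p S pairing))
    (c d : IntermediateField ℚ (AlgebraicClosure ℚ) → ℕ)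
    (hH : H87.HasseStatement p S c) (hK : H87.KummerStatement p S c d)
    (hI : H87.IsotropyStatement p S d)
    (M : Rep (ZMod p) (AlgebraicClosure ℚ ≃ₐ[ℚ] AlgebraicClosure ℚ))
    [FiniteDimensional (ZMod p) M]
    (hsm : ∀ m : M, ∃ F : IntermediateField ℚ (AlgebraicClosure ℚ), FiniteDimensional ℚ F ∧
      ∀ s ∈ F.fixingSubgroup, M.ρ s m = m)
    (hMur : ∀ q : Nat.Primes, q ∉ S → ∀ A : ValuationSubring (AlgebraicClosure ℚ),
      A.LiesOverPrime (q : ℕ) → ∀ g ∈ A.inertiaSubgroupIn ℚ, M.ρ g = 1) :
    ∃ B : sha₁ S (M.dualTwist (cycloChar p)) →ₗ[ZMod p] sha₂ S M →ₗ[ZMod p] ZMod p,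
      (∀ y, (∀ x, B y x = 0) → y = 0) ∧ (∀ x, (∀ y, B y x = 0) → x = 0) := by
  have hDA : H70.DualAdmStatement p S := H87.dualAdm S hpS
  have hbr : (rPackage p S pairing).Bridge := rPackage_bridge p S hp2 pairing
  have hLF : H12.LevelFieldStatement p S := H43.levelFieldStatement S hpS
  have hS : S.Nonempty := ⟨_, hpS⟩
  have hepi : (rPackage p S pairing).StepEpi :=
    (rFunctor p S pairing hnat).stepEpi hLF hDA (rFunctor_hc1Inj p S pairing hnat hS)
  have hmono : (rPackage p S pairing).StepMono :=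
    (rFunctor p S pairing hnat).stepMono hLF hDA (rFunctor_hc1Exact p S pairing hnat) hcd
  have hbase : (rPackage p S pairing).BaseCase :=
    H87.baseCase_of_kummer_isotropy (rPackage p S pairing) hDA hbr hlc H87.baseAdm
      (rPackage_loc0Fin p S pairing) hex (rPackage_goUp S hpS pairing hnat) c d hH hK hI
  exact H70.s55_of_leaves_R p S (rPackage p S pairing) hDA hbr hlc hepi hmono hbase M hsm hMur

end Fermat.Agent.S55.H49

end
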