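import Fermat.Agent.S55.H49.LcExact

/-!
# S55 / C0 leaf L10 (helper49): short exact sequences of compactly supported cochain complexes

`cc_shortExact : CcShortExactStatement`.
-/

set_option autoImplicit false

open CategoryTheory groupCohomology

noncomputable section

namespace Fermat.Agent.S55.H49

variable {k : Type} [CommRing k] {G : Type} [Group G]

section Loc

variable {ι : Type} {Gv : ι → Type} [∀ v, Group (Gv v)] (Dv : ∀ v, LevelDatum (Gv v))
  (D : LevelDatum G) (h : ∀ v, (Dv v).Hom D)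

theorem locComplexMap_apply {A B : Rep.{0} k G} (ψ : A ⟶ B) (n : ℕ)
    (x : (locComplex Dv D h A).X n) (v : ι) :
    (((locComplexMap Dv D h ψ).f n).hom x : ∀ v, (lcComplex (Dv v) (Rep.res (h v).φ B)).X n) v =
      ((lcMapCoeff (Dv v) ((Rep.resFunctor (h v).φ).map ψ)).f n).hom
        ((x : ∀ v, (lcComplex (Dv v) (Rep.res (h v).φ A)).X n) v) := rfl

theorem locComplexMap_f_injective {A B : Rep.{0} k G} (ψ : A ⟶ B)
    (hψ : Function.Injective ψ.hom) (n : ℕ) :
    Function.Injective ((locComplexMap Dv D h ψ).f n).hom := by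
  intro x y hxy
  funext v
  have hv : Function.Injective ((Rep.resFunctor (h v).φ).map ψ).hom := hψ
  apply lcMapCoeff_f_injective (Dv v) _ hv n
  have := congrFun hxy v
  exact this

theorem locComplexMap_f_exact {A B C : Rep.{0} k G} (φ : A ⟶ B) (ψ : B ⟶ C)
    (hφ : Function.Injective φ.hom) (hex : ∀ b : B, ψ.hom b = 0 → ∃ a : A, φ.hom a = b) (n : ℕ)
    (y : (locComplex Dv D h B).X n) (hy : ((locComplexMap Dv D h ψ).f n).hom y = 0) :
    ∃ x : (locComplex Dv D h A).X n, ((locComplexMap Dv D h φ).f n).hom x = y := by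
  have hv : ∀ v, ∃ x : (lcComplex (Dv v) (Rep.res (h v).φ A)).X n,
      ((lcMapCoeff (Dv v) ((Rep.resFunctor (h v).φ).map φ)).f n).hom x =
        (y : ∀ v, (lcComplex (Dv v) (Rep.res (h v).φ B)).X n) v := by
    intro v
    refine lcMapCoeff_f_exact (Dv v) ((Rep.resFunctor (h v).φ).map φ)
      ((Rep.resFunctor (h v).φ).map ψ) hφ hex n _ ?_
    exact congrFun hy v
  choose x hx using hv
  let x₀ : (locComplex Dv D h A).X n := (x : ∀ v, (lcComplex (Dv v) (Rep.res (h v).φ A)).X n)
  exact ⟨x₀, funext hx⟩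

theorem locComplexMap_f_surjective {B C : Rep.{0} k G} (ψ : B ⟶ C)
    (hψ : Function.Surjective ψ.hom) (hB : D.Smooth B) (n : ℕ) :
    Function.Surjective ((locComplexMap Dv D h ψ).f n).hom := by
  intro y
  have hv : ∀ v, ∃ x : (lcComplex (Dv v) (Rep.res (h v).φ B)).X n,
      ((lcMapCoeff (Dv v) ((Rep.resFunctor (h v).φ).map ψ)).f n).hom x =
        (y : ∀ v, (lcComplex (Dv v) (Rep.res (h v).φ C)).X n) v := by
    intro v
    exact lcMapCoeff_f_surjective (Dv v) ((Rep.resFunctor (h v).φ).map ψ) hψ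
      (smooth_res (h v) hB) n _
  choose x hx using hv
  let x₀ : (locComplex Dv D h B).X n := (x : ∀ v, (lcComplex (Dv v) (Rep.res (h v).φ B)).X n)
  exact ⟨x₀, funext hx⟩

theorem ccComplexMap_f_zero {A B : Rep.{0} k G} (ψ : A ⟶ B) :
    (ccComplexMap Dv D h ψ).f 0 = (lcMapCoeff D ψ).f 0 := rfl

theorem ccComplexMap_f_succ_apply {A B : Rep.{0} k G} (ψ : A ⟶ B) (n : ℕ)
    (x : (lcComplex D A).X (n + 1) × (locComplex Dv D h A).X n) :
    ((ccComplexMap Dv D h ψ).f (n + 1)).hom x =
      ((((lcMapCoeff D ψ).f (n + 1)).hom x.1, ((locComplexMap Dv D h ψ).f n).hom x.2) :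
        (lcComplex D B).X (n + 1) × (locComplex Dv D h B).X n) := rfl

/-- Leaf L10. -/
theorem cc_shortExact : CcShortExactStatement := by
  intro k _ G _ D ι Gv _ Dv h X hX hs
  have hinj : Function.Injective X.f.hom := (Rep.mono_iff_injective X.f).1 hX.mono_f
  have hsurj : Function.Surjective X.g.hom := (Rep.epi_iff_surjective X.g).1 hX.epi_g
  have hrk : LinearMap.range X.f.hom.toLinearMap = LinearMap.ker X.g.hom.toLinearMap :=
    (hX.exact.map (forget₂ (Rep.{0} k G) (ModuleCat.{0} k))).moduleCat_range_eq_ker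
  have hex : ∀ b : X.X₂, X.g.hom b = 0 → ∃ a : X.X₁, X.f.hom a = b := by
    intro b hb
    have : b ∈ LinearMap.ker X.g.hom.toLinearMap := hb
    rw [← hrk] at this
    exact this
  refine HomologicalComplex.shortExact_of_degreewise_shortExact _ fun i => ?_
  cases i with
  | zero =>
    refine
      { exact := ?_
        mono_f := ?_
        epi_g := ?_ }
    · rw [ShortComplex.moduleCat_exact_iff]
      intro y hy
      exact lcMapCoeff_f_exact D X.f X.g hinj hex 0 y hy
    · exact (ModuleCat.mono_iff_injective _).mpr (lcMapCoeff_f_injective D X.f hinj 0)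
    · exact (ModuleCat.epi_iff_surjective _).mpr (lcMapCoeff_f_surjective D X.g hsurj hs 0)
  | succ n =>
    refine
      { exact := ?_
        mono_f := ?_
        epi_g := ?_ }
    · rw [ShortComplex.moduleCat_exact_iff]
      intro y hy
      have hy1 : ((lcMapCoeff D X.g).f (n + 1)).hom
          (y : (lcComplex D X.X₂).X (n + 1) × (locComplex Dv D h X.X₂).X n).1 = 0 :=
        congrArg Prod.fst hy
      have hy2 : ((locComplexMap Dv D h X.g).f n).hom
          (y : (lcComplex D X.X₂).X (n + 1) × (locComplex Dv D h X.X₂).X n).2 = 0 :=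
        congrArg Prod.snd hy
      obtain ⟨a, ha⟩ := lcMapCoeff_f_exact D X.f X.g hinj hex (n + 1) _ hy1
      obtain ⟨b, hb⟩ := locComplexMap_f_exact Dv D h X.f X.g hinj hex n _ hy2
      let x₀ : (ccComplex Dv D h X.X₁).X (n + 1) :=
        ((a, b) : (lcComplex D X.X₁).X (n + 1) × (locComplex Dv D h X.X₁).X n)
      exact ⟨x₀, Prod.ext ha hb⟩
    · refine (ModuleCat.mono_iff_injective _).mpr ?_
      intro x y hxy
      have h1 : ((lcMapCoeff D X.f).f (n + 1)).hom
          (x : (lcComplex D X.X₁).X (n + 1) × (locComplex Dv D h X.X₁).X n).1 =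
          ((lcMapCoeff D X.f).f (n + 1)).hom
          (y : (lcComplex D X.X₁).X (n + 1) × (locComplex Dv D h X.X₁).X n).1 :=
        congrArg Prod.fst hxy
      have h2 : ((locComplexMap Dv D h X.f).f n).hom
          (x : (lcComplex D X.X₁).X (n + 1) × (locComplex Dv D h X.X₁).X n).2 =
          ((locComplexMap Dv D h X.f).f n).hom
          (y : (lcComplex D X.X₁).X (n + 1) × (locComplex Dv D h X.X₁).X n).2 :=
        congrArg Prod.snd hxy
      exact Prod.ext (lcMapCoeff_f_injective D X.f hinj (n + 1) h1)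
        (locComplexMap_f_injective Dv D h X.f hinj n h2)
    · refine (ModuleCat.epi_iff_surjective _).mpr ?_
      intro y
      obtain ⟨a, ha⟩ := lcMapCoeff_f_surjective D X.g hsurj hs (n + 1)
        (y : (lcComplex D X.X₃).X (n + 1) × (locComplex Dv D h X.X₃).X n).1
      obtain ⟨b, hb⟩ := locComplexMap_f_surjective Dv D h X.g hsurj hs n
        (y : (lcComplex D X.X₃).X (n + 1) × (locComplex Dv D h X.X₃).X n).2
      let x₀ : (ccComplex Dv D h X.X₂).X (n + 1) :=
        ((a, b) : (lcComplex D X.X₂).X (n + 1) × (locComplex Dv D h X.X₂).X n)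
      exact ⟨x₀, Prod.ext ha hb⟩

end Loc

end Fermat.Agent.S55.H49

end
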