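import Fermat.Agent.S55.H41.Bridge2Core

/-!
# S55 / C9b (helper49): change of the coefficient ring on level-constant cohomology

`A : Rep k G`, `A' : Rep k' G` (two possibly different coefficient rings) and an additive
equivariant bijection `A ≃+ A'` (a `CoeffEquiv`).  Composition with it is an additive bijection
of the level-constant cochains commuting with the differentials, hence induces an additive
isomorphism `coeffH : Hlc D A (n + 1) ≃+ Hlc D A' (n + 1)` with
`coeffH (cls z) = cls (coeffCyc z)`.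

Application in `ShapiroInj3.lean`: `k = ZMod p`, `k' = ℤ`, `A = 𝔽_p` (trivial action of
`Gal(ℚ̄/E)`), `A' = μ_p` for a field `E ⊇ μ_p`.
-/

set_option autoImplicit false

open CategoryTheory groupCohomology

noncomputable section

namespace Fermat.Agent.S55.H49

variable {G : Type} [Group G] {k k' : Type} [CommRing k] [CommRing k']

/-- An additive equivariant bijection between two representations of `G`, over possibly
different coefficient rings. -/
structure CoeffEquiv (A : Rep.{0} k G) (A' : Rep.{0} k' G) where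
  /-- the additive bijection -/
  e : A ≃+ A'
  comm : ∀ (g : G) (a : A), e (A.ρ g a) = A'.ρ g (e a)

namespace CoeffEquiv

variable {A : Rep.{0} k G} {A' : Rep.{0} k' G} (φ : CoeffEquiv A A')

/-- The inverse of a `CoeffEquiv`. -/
def symm : CoeffEquiv A' A where
  e := φ.e.symm
  comm g a := by
    apply φ.e.injective
    rw [φ.comm, AddEquiv.apply_symm_apply, AddEquiv.apply_symm_apply]

theorem neg_one_pow_smul (m : ℕ) (a : A) :
    φ.e ((-1 : k) ^ m • a) = (-1 : k') ^ m • φ.e a := by
  rcases Nat.even_or_odd m with h | h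
  · rw [h.neg_one_pow, h.neg_one_pow, one_smul, one_smul]
  · rw [h.neg_one_pow, h.neg_one_pow, neg_smul, neg_smul, one_smul, one_smul, map_neg]

theorem isLCAt {U : Subgroup G} {n : ℕ} {f : (Fin n → G) → A} (hf : IsLCAt U A f) :
    IsLCAt U A' (fun g => φ.e (f g)) :=
  ⟨fun g s hs => congrArg φ.e (hf.1 g s hs), fun g s hs => by rw [← φ.comm, hf.2 g s hs]⟩

theorem isLC {D : LevelDatum G} {n : ℕ} {f : (Fin n → G) → A} (hf : IsLC D A f) :
    IsLC D A' (fun g => φ.e (f g)) := by
  obtain ⟨F, hF, hN, h⟩ := hf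
  exact ⟨F, hF, hN, φ.isLCAt h⟩

/-- Composition with a `CoeffEquiv` commutes with the inhomogeneous differential. -/
theorem d_comm (n : ℕ) (f : (Fin n → G) → A) :
    (inhomogeneousCochains.d A' n).hom (fun g => φ.e (f g)) =
      fun g => φ.e ((inhomogeneousCochains.d A n).hom f g) := by
  funext g
  rw [inhomogeneousCochains.d_hom_apply, inhomogeneousCochains.d_hom_apply, map_add, map_sum,
    φ.comm]
  congr 1
  refine Finset.sum_congr rfl fun j _ => ?_
  rw [φ.neg_one_pow_smul]

variable (D : LevelDatum G)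

/-- Composition with a `CoeffEquiv` on level-constant cochains. -/
def coX (n : ℕ) : (lcComplex D A).X n →+ (lcComplex D A').X n where
  toFun y := H41.mkX D A' (fun g => φ.e (lcValC y g)) (φ.isLC (H41.isLC_lcValC D A y))
  map_zero' := lcValC_injective (funext fun _ => map_zero φ.e)
  map_add' y y' := lcValC_injective (funext fun g => map_add φ.e (lcValC y g) (lcValC y' g))

theorem lcValC_coX (n : ℕ) (y : (lcComplex D A).X n) (g : Fin n → G) :
    lcValC (φ.coX D n y) g = φ.e (lcValC y g) := rfl

theorem coX_d (n : ℕ) (y : (lcComplex D A).X n) :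
    φ.coX D (n + 1) (((lcComplex D A).d n (n + 1)).hom y) =
      ((lcComplex D A').d n (n + 1)).hom (φ.coX D n y) := by
  apply lcValC_injective
  rw [H41.lcValC_d]
  funext g
  rw [lcValC_coX, H41.lcValC_d]
  exact (congrFun (φ.d_comm n (lcValC y)) g).symm

theorem coX_symm_coX (n : ℕ) (y : (lcComplex D A).X n) : φ.symm.coX D n (φ.coX D n y) = y :=
  lcValC_injective (funext fun g => φ.e.symm_apply_apply (lcValC y g))

theorem coX_coX_symm (n : ℕ) (y : (lcComplex D A').X n) : φ.coX D n (φ.symm.coX D n y) = y :=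
  lcValC_injective (funext fun g => φ.e.apply_symm_apply (lcValC y g))

/-- Composition with a `CoeffEquiv` on level-constant cocycles. -/
def coCyc (n : ℕ) : cyc (lcComplex D A) n →+ cyc (lcComplex D A') n where
  toFun z := ⟨φ.coX D n z.1, by
    rw [mem_cyc, ← φ.coX_d, mem_cyc.mp z.2, map_zero]⟩
  map_zero' := Subtype.ext (map_zero (φ.coX D n))
  map_add' z z' := Subtype.ext (map_add (φ.coX D n) z.1 z'.1)

theorem coCyc_coe (n : ℕ) (z : cyc (lcComplex D A) n) :
    ((φ.coCyc D n z : cyc (lcComplex D A') n) : (lcComplex D A').X n) = φ.coX D n z.1 := rfl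

theorem lcVal_coCyc (n : ℕ) (z : cyc (lcComplex D A) n) (g : Fin n → G) :
    lcVal (φ.coCyc D n z) g = φ.e (lcVal z g) := rfl

/-- The additive class map. -/
def clsAdd (K : CochainComplex (ModuleCat.{0} k) ℕ) (n : ℕ) : cyc K n →+ K.homology n :=
  (cls K n).hom.toAddMonoidHom

theorem clsAdd_apply (K : CochainComplex (ModuleCat.{0} k) ℕ) (n : ℕ) (z : cyc K n) :
    clsAdd K n z = (cls K n).hom z := rfl

theorem clsAdd_surjective (K : CochainComplex (ModuleCat.{0} k) ℕ) (n : ℕ) :
    Function.Surjective (clsAdd K n) := cls_surjective K n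

theorem ker_clsAdd_le (n : ℕ) :
    (clsAdd (lcComplex D A) (n + 1)).ker ≤
      ((clsAdd (lcComplex D A') (n + 1)).comp (φ.coCyc D (n + 1))).ker := by
  intro z hz
  obtain ⟨y, hy⟩ := (cls_eq_zero_iff (lcComplex D A) n z).mp hz
  refine (cls_eq_zero_iff (lcComplex D A') n _).mpr ⟨φ.coX D n y, ?_⟩
  rw [← φ.coX_d, hy]
  rfl

/-- The map induced on level-constant cohomology by a `CoeffEquiv`. -/
def coH (n : ℕ) : Hlc D A (n + 1) →+ Hlc D A' (n + 1) :=
  (clsAdd (lcComplex D A) (n + 1)).liftOfSurjective (clsAdd_surjective _ _)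
    ⟨(clsAdd (lcComplex D A') (n + 1)).comp (φ.coCyc D (n + 1)), φ.ker_clsAdd_le D n⟩

theorem coH_cls (n : ℕ) (z : cyc (lcComplex D A) (n + 1)) :
    φ.coH D n ((cls (lcComplex D A) (n + 1)).hom z) =
      (cls (lcComplex D A') (n + 1)).hom (φ.coCyc D (n + 1) z) :=
  AddMonoidHom.liftOfRightInverse_comp_apply _ _ _ _ z

theorem coH_symm_coH (n : ℕ) (x : Hlc D A (n + 1)) : φ.symm.coH D n (φ.coH D n x) = x := by
  obtain ⟨z, rfl⟩ := cls_surjective (lcComplex D A) (n + 1) x
  rw [coH_cls, coH_cls]
  congr 1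
  exact Subtype.ext (φ.coX_symm_coX D (n + 1) z.1)

theorem coH_coH_symm (n : ℕ) (x : Hlc D A' (n + 1)) : φ.coH D n (φ.symm.coH D n x) = x := by
  obtain ⟨z, rfl⟩ := cls_surjective (lcComplex D A') (n + 1) x
  rw [coH_cls, coH_cls]
  congr 1
  exact Subtype.ext (φ.coX_coX_symm D (n + 1) z.1)

/-- The additive isomorphism induced on level-constant cohomology by a `CoeffEquiv`. -/
def coHEquiv (n : ℕ) : Hlc D A (n + 1) ≃+ Hlc D A' (n + 1) :=
  { φ.coH D n with
    invFun := φ.symm.coH D n
    left_inv := φ.coH_symm_coH D n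
    right_inv := φ.coH_coH_symm D n }

theorem coHEquiv_apply (n : ℕ) (x : Hlc D A (n + 1)) : φ.coHEquiv D n x = φ.coH D n x := rfl

theorem coH_injective (n : ℕ) : Function.Injective (φ.coH D n) := (φ.coHEquiv D n).injective

theorem coH_surjective (n : ℕ) : Function.Surjective (φ.coH D n) := (φ.coHEquiv D n).surjective

end CoeffEquiv

end Fermat.Agent.S55.H49

end
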