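import Fermat.Agent.S55.H49.GoUpCore

/-!
# S55 / C0 (helper49): the leaf GO-UP of the base-case chain

* `goUp_c0` : every class of `H¹_c(G_S, F_L')` lands in `loc0` after passing to a larger level
  field `L'` (pairing-free statement);
* `rPackage_goUp` : `H87.GoUp (rPackage p S pairing)` from the naturality of the pairing.
-/

set_option autoImplicit false

open CategoryTheory groupCohomology ExtCitation

noncomputable section

namespace Fermat.Agent.S55.H49

local instance isAlgebraicQbar_h49 : Algebra.IsAlgebraic ℚ (AlgebraicClosure ℚ) :=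
  AlgebraicClosure.isAlgebraic ℚ
local instance isAlgClosureQbar_h49 : IsAlgClosure ℚ (AlgebraicClosure ℚ) :=
  ⟨inferInstance, inferInstance⟩
local instance isGaloisQbar_h49 : IsGalois ℚ (AlgebraicClosure ℚ) :=
  IsAlgClosure.isGalois ℚ (AlgebraicClosure ℚ)

variable {p : ℕ} [Fact p.Prime] (S : Finset Nat.Primes)

/-- The compositum of a level field with a normal `S`-level is a level field. -/
theorem isLevelField_sup {L F₀ : IntermediateField ℚ (AlgebraicClosure ℚ)}
    (hL : H70.IsLevelField p S L) (hF₀ : F₀.IsUnramifiedOutside S)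
    (hN₀ : (F₀.fixingSubgroup).Normal) : H70.IsLevelField p S (L ⊔ F₀) := by
  have hNL : (L.fixingSubgroup).Normal := H12.normal_fixingSubgroup_level p S L hL
  have hN : ((L ⊔ F₀).fixingSubgroup).Normal := by
    rw [IntermediateField.fixingSubgroup_sup]
    exact Subgroup.normal_inf_normal _ _
  exact ⟨hL.1.sup hF₀, (InfiniteGalois.normal_iff_isGalois (L ⊔ F₀)).mp hN,
    fun ζ hζ => (le_sup_left : L ≤ L ⊔ F₀) (hL.2.2 ζ hζ)⟩

/-- **GO-UP, cochain half**: for a level field `L` and `y ∈ H¹_c(G_S, F_L')` there is a level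
field `L' ⊇ L` such that the image of `y` in `H¹_c(G_S, F_{L'}')` lies in `loc0`. -/
theorem goUp_c0 (hpS : pPrime p ∈ S) (L : IntermediateField ℚ (AlgebraicClosure ℚ))
    (hL : H70.IsLevelField p S L) (y : Hc1 S (H70.D p (H70.baseRep p L))) :
    ∃ L' : IntermediateField ℚ (AlgebraicClosure ℚ), H70.IsLevelField p S L' ∧
      ∃ h : L'.fixingSubgroup ≤ L.fixingSubgroup,
        (Hc1Map S (H12.dualHom p (projHom L.fixingSubgroup L'.fixingSubgroup h))).hom y ∈
          loc0 S (H70.D p (H70.baseRep p L')) := by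
  obtain ⟨z, rfl⟩ := cls_surjective (ccS S (H70.D p (H70.baseRep p L))) 1 y
  -- the global component of `z`, a level-constant 1-cocycle
  let z₁ : cyc (lcComplex (globalDatum S) (H70.D p (H70.baseRep p L))) 1 :=
    cycMap (ccToLc (primeDatum S) (globalDatum S) (primeHom S) (H70.D p (H70.baseRep p L))) 1 z
  let c : cocycles₁ (H70.D p (H70.baseRep p L)) := cocOfCyc (globalDatum S) _ z₁
  obtain ⟨F₀, hF₀, hN₀, h1, -⟩ := H41.isLC_lcValC (globalDatum S) _ z₁.1
  have hL' : H70.IsLevelField p S (L ⊔ F₀) := isLevelField_sup S hL hF₀ hN₀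
  have hle : (L ⊔ F₀).fixingSubgroup ≤ L.fixingSubgroup :=
    IntermediateField.fixingSubgroup_antitone le_sup_left
  refine ⟨L ⊔ F₀, hL', hle, ?_⟩
  have hcoc : ∀ g g' : GQ, c.1 (g * g') =
      (H70.D p (H70.baseRep p L)).ρ g (c.1 g') + c.1 g := (mem_cocycles₁_iff c.1).1 c.2
  have hinv : ∀ g s : GQ, s ∈ (L ⊔ F₀).fixingSubgroup → c.1 (g * s) = c.1 g := by
    intro g s hs
    have e : (![g * s] : Fin 1 → GQ) = ![g] * ![s] := by
      funext i
      fin_cases i
      rfl
    show lcValC z₁.1 ![g * s] = lcValC z₁.1 ![g]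
    rw [e]
    refine h1 _ _ fun i => ?_
    fin_cases i
    exact IntermediateField.fixingSubgroup_antitone le_sup_right hs
  have key := dualHom_projHom_eq L.fixingSubgroup (L ⊔ F₀).fixingSubgroup hle c.1 hcoc hinv
  -- smoothness of the target module
  have hadm : H70.IsAdm p S (H70.D p (H70.baseRep p (L ⊔ F₀))) :=
    H87.dualAdm S hpS _ (H87.baseAdm (L ⊔ F₀) hL')
  have hfd := hadm.1
  have hM' : (globalDatum S).Smooth (H70.D p (H70.baseRep p (L ⊔ F₀))) :=
    H43.smoothOfHyp p S _ hadm.2.1 hadm.2.2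
  have hLC : IsLC (globalDatum S) (H70.D p (H70.baseRep p (L ⊔ F₀)))
      (fun _ : Fin 0 → GQ => goUpB L.fixingSubgroup (L ⊔ F₀).fixingSubgroup hle c.1 hinv) :=
    H41.isLC_of_invariant (H43.hasNormalLevels_globalDatum S) hM' (globalDatum S).bot
      (fun _ _ _ => rfl)
  rw [← ker_jS_one]
  refine LinearMap.mem_ker.mpr ?_
  have e1 := Hc1Map_cls S (H12.dualHom p (projHom L.fixingSubgroup (L ⊔ F₀).fixingSubgroup hle)) z
  have e2 : (jS S (H70.D p (H70.baseRep p (L ⊔ F₀))) 1).hom
      ((cls (ccS S (H70.D p (H70.baseRep p (L ⊔ F₀)))) 1).hom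
        (cycMap (ccSMap S (H12.dualHom p
          (projHom L.fixingSubgroup (L ⊔ F₀).fixingSubgroup hle))) 1 z)) =
      (cls (lcComplex (globalDatum S) (H70.D p (H70.baseRep p (L ⊔ F₀)))) 1).hom
        (cycMap (ccToLc (primeDatum S) (globalDatum S) (primeHom S)
          (H70.D p (H70.baseRep p (L ⊔ F₀)))) 1
          (cycMap (ccSMap S (H12.dualHom p
            (projHom L.fixingSubgroup (L ⊔ F₀).fixingSubgroup hle))) 1 z)) :=
    homologyMap_cls _ 1 _
  refine ((congrArg _ e1).trans e2).trans ?_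
  refine (cls_eq_zero_iff _ 0 _).mpr ⟨H41.mkX (globalDatum S) _ _ hLC, ?_⟩
  apply lcValC_injective
  rw [H41.lcValC_d, H41.lcValC_mkX]
  funext g
  rw [d_zero_apply]
  have hg : g = ![g 0] := (H41.vec1_eta g).symm
  refine (key (g 0)).symm.trans ?_
  show (H12.dualHom p (projHom L.fixingSubgroup (L ⊔ F₀).fixingSubgroup hle)).hom
      (lcValC z₁.1 ![g 0]) = _
  rw [← hg]
  rfl

/-- The transpose of a surjection is injective. -/
theorem dualHom_injective {X Y : Rep.{0, 0, 0} (ZMod p) GQ} (f : X ⟶ Y)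
    (hf : Function.Surjective f.hom) : Function.Injective (H12.dualHom p f).hom := by
  intro a b hab
  apply LinearMap.ext
  intro m
  obtain ⟨x, rfl⟩ := hf m
  exact congrArg (fun χ : H70.D p X => (χ : Module.Dual (ZMod p) X) x) hab

/-- **The leaf GO-UP** of the base-case chain for the cochain-model package, from the naturality
of the pairing. -/
theorem rPackage_goUp (hpS : pPrime p ∈ S)
    (pairing : ∀ M : Rep.{0, 0, 0} (ZMod p) GQ,
      continuousH2S S M →ₗ[ZMod p] Hc1 S (H70.D p M) →ₗ[ZMod p] ZMod p)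
    (hnat : ∀ {X Y : Rep.{0, 0, 0} (ZMod p) GQ} (f : X ⟶ Y) (x : continuousH2S S X)
      (y : Hc1 S (H70.D p Y)),
      pairing Y (H43.H2SMap S f x) y = pairing X x ((Hc1Map S (H12.dualHom p f)).hom y)) :
    H87.GoUp (rPackage p S pairing) := by
  intro L hL y
  obtain ⟨L', hL', hle, hy⟩ := goUp_c0 S hpS L hL y
  refine ⟨L', hL', H43.H2SMap S (projHom L.fixingSubgroup L'.fixingSubgroup hle),
    (Hc1Map S (H12.dualHom p (projHom L.fixingSubgroup L'.fixingSubgroup hle))).hom, ?_, ?_, hy⟩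
  · exact Hc1Map_injective S ⟨_, hpS⟩ _
      (dualHom_injective _ (projHom_surjective L.fixingSubgroup L'.fixingSubgroup hle))
  · intro x' y'
    exact hnat (projHom L.fixingSubgroup L'.fixingSubgroup hle) x' y'

end Fermat.Agent.S55.H49

end
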