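import Fermat.Agent.S55.H49.RouteRFunctor
import Fermat.Agent.S55.H87.BaseAdm
import Fermat.Agent.S55.H87.DualAdm

/-!
# S55 / C0 (helper49): GO-UP, the cochain half

For subgroups `U' ≤ U` of `G_ℚ`: the projection `φ : 𝔽_p[G/U'] ⟶ 𝔽_p[G/U]` (`projHom`) and, for
a 1-cocycle `n : G → 𝔽_p[G/U]'` that is right-invariant modulo `U'`, the element
`b ∈ 𝔽_p[G/U']'`, `b([xU']) = -n(x)([xU])`, with `φ' ∘ n = d b` (`dualHom_projHom_eq`):
after passing from `U` to `U'` the cocycle becomes a coboundary.  No Shapiro lemma.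
-/

set_option autoImplicit false

open CategoryTheory groupCohomology ExtCitation

noncomputable section

namespace Fermat.Agent.S55.H49

variable {p : ℕ} [Fact p.Prime]

section Proj

variable (U U' : Subgroup GQ)

theorem single_one_fixed (h : U' ≤ U) (s : GQ) (hs : s ∈ U') :
    (Rep.ofMulAction (ZMod p) GQ (GQ ⧸ U)).ρ s
      (MonoidAlgebra.single ((1 : GQ) : GQ ⧸ U) (1 : ZMod p)) =
      MonoidAlgebra.single ((1 : GQ) : GQ ⧸ U) (1 : ZMod p) := by
  show Representation.ofMulAction (ZMod p) GQ (GQ ⧸ U) s (MonoidAlgebra.single _ _) = _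
  rw [Representation.ofMulAction_single]
  congr 1
  show ((s * 1 : GQ) : GQ ⧸ U) = ((1 : GQ) : GQ ⧸ U)
  rw [QuotientGroup.eq]
  have : (s * 1)⁻¹ * 1 = s⁻¹ := by group
  rw [this]
  exact U.inv_mem (h hs)

/-- The projection `𝔽_p[G/U'] ⟶ 𝔽_p[G/U]` for `U' ≤ U`. -/
def projHom (h : U' ≤ U) :
    Rep.ofMulAction (ZMod p) GQ (GQ ⧸ U') ⟶ Rep.ofMulAction (ZMod p) GQ (GQ ⧸ U) :=
  H12.orbitHom p (Rep.ofMulAction (ZMod p) GQ (GQ ⧸ U)) U'
    (MonoidAlgebra.single ((1 : GQ) : GQ ⧸ U) (1 : ZMod p)) (single_one_fixed U U' h)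

theorem projHom_single (h : U' ≤ U) (g : GQ) (r : ZMod p) :
    (projHom (p := p) U U' h).hom (MonoidAlgebra.single (g : GQ ⧸ U') r) =
      MonoidAlgebra.single (g : GQ ⧸ U) r := by
  show H12.liftLin (H12.orbitFun p _ U' _ _) (MonoidAlgebra.single (g : GQ ⧸ U') r) = _
  rw [H12.liftLin_single, H12.orbitFun_mk]
  show r • Representation.ofMulAction (ZMod p) GQ (GQ ⧸ U) g (MonoidAlgebra.single _ _) = _
  rw [Representation.ofMulAction_single, MonoidAlgebra.smul_single, smul_eq_mul, mul_one]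
  have e : g • ((1 : GQ) : GQ ⧸ U) = (g : GQ ⧸ U) := by
    show ((g * 1 : GQ) : GQ ⧸ U) = _
    rw [mul_one]
  rw [e]

theorem projHom_surjective (h : U' ≤ U) : Function.Surjective (projHom (p := p) U U' h).hom := by
  intro x
  induction x using MonoidAlgebra.induction_linear with
  | zero => exact ⟨0, map_zero _⟩
  | add x y hx hy =>
    obtain ⟨a, rfl⟩ := hx
    obtain ⟨b, rfl⟩ := hy
    exact ⟨a + b, map_add _ _ _⟩
  | single c r =>
    induction c using QuotientGroup.induction_on with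
    | H g => exact ⟨MonoidAlgebra.single (g : GQ ⧸ U') r, projHom_single U U' h g r⟩

end Proj

section Cob

variable (U U' : Subgroup GQ) (h : U' ≤ U)
  (n : GQ → H70.D p (Rep.ofMulAction (ZMod p) GQ (GQ ⧸ U)))

/-- The function `xU' ↦ -n(x)([xU])`. -/
def goUpFun (hinv : ∀ g s, s ∈ U' → n (g * s) = n g) : GQ ⧸ U' → ZMod p :=
  fun c => Quotient.liftOn' c
    (fun x => -((n x : Module.Dual (ZMod p) (Rep.ofMulAction (ZMod p) GQ (GQ ⧸ U)))
      (MonoidAlgebra.single (x : GQ ⧸ U) (1 : ZMod p)))) (by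
    intro a b hab
    rw [QuotientGroup.leftRel_apply] at hab
    have h1 : n b = n a := by
      have hb : a * (a⁻¹ * b) = b := by group
      rw [← hb]
      exact hinv a _ hab
    have h2 : ((b : GQ) : GQ ⧸ U) = (a : GQ ⧸ U) := (QuotientGroup.eq.mpr (h hab)).symm
    show -((n a : Module.Dual (ZMod p) (Rep.ofMulAction (ZMod p) GQ (GQ ⧸ U)))
        (MonoidAlgebra.single (a : GQ ⧸ U) (1 : ZMod p))) =
      -((n b : Module.Dual (ZMod p) (Rep.ofMulAction (ZMod p) GQ (GQ ⧸ U)))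
        (MonoidAlgebra.single (b : GQ ⧸ U) (1 : ZMod p)))
    rw [h1, h2])

/-- The element `b` of `𝔽_p[G/U']'` with `φ' ∘ n = d b`. -/
def goUpB (hinv : ∀ g s, s ∈ U' → n (g * s) = n g) :
    H70.D p (Rep.ofMulAction (ZMod p) GQ (GQ ⧸ U')) :=
  (H12.liftLin (goUpFun U U' h n hinv) :
    Module.Dual (ZMod p) (MonoidAlgebra (ZMod p) (GQ ⧸ U')))

theorem goUpB_single (hinv : ∀ g s, s ∈ U' → n (g * s) = n g) (x : GQ) :
    (goUpB U U' h n hinv : Module.Dual (ZMod p) (Rep.ofMulAction (ZMod p) GQ (GQ ⧸ U')))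
      (MonoidAlgebra.single (x : GQ ⧸ U') (1 : ZMod p)) =
      -((n x : Module.Dual (ZMod p) (Rep.ofMulAction (ZMod p) GQ (GQ ⧸ U)))
        (MonoidAlgebra.single (x : GQ ⧸ U) (1 : ZMod p))) := by
  show H12.liftLin (goUpFun U U' h n hinv) (MonoidAlgebra.single (x : GQ ⧸ U') (1 : ZMod p)) = _
  rw [H12.liftLin_single, one_smul]
  rfl

theorem dualTwist_apply_single (V : Subgroup GQ)
    (f : H70.D p (Rep.ofMulAction (ZMod p) GQ (GQ ⧸ V))) (g x : GQ) :
    (((H70.D p (Rep.ofMulAction (ZMod p) GQ (GQ ⧸ V))).ρ g f :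
      H70.D p (Rep.ofMulAction (ZMod p) GQ (GQ ⧸ V))) :
      Module.Dual (ZMod p) (Rep.ofMulAction (ZMod p) GQ (GQ ⧸ V)))
      (MonoidAlgebra.single (x : GQ ⧸ V) (1 : ZMod p)) =
      (cycloChar p g : ZMod p) *
        (f : Module.Dual (ZMod p) (Rep.ofMulAction (ZMod p) GQ (GQ ⧸ V)))
          (MonoidAlgebra.single ((g⁻¹ * x : GQ) : GQ ⧸ V) (1 : ZMod p)) := by
  have h1 : (Rep.ofMulAction (ZMod p) GQ (GQ ⧸ V)).ρ g⁻¹
      (MonoidAlgebra.single (x : GQ ⧸ V) (1 : ZMod p)) =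
      MonoidAlgebra.single ((g⁻¹ * x : GQ) : GQ ⧸ V) (1 : ZMod p) := by
    show Representation.ofMulAction (ZMod p) GQ (GQ ⧸ V) g⁻¹ (MonoidAlgebra.single _ _) = _
    rw [Representation.ofMulAction_single]
    rfl
  rw [← h1]
  rfl

/-- **The key identity**: `φ' (n g) = g • b - b`. -/
theorem dualHom_projHom_eq
    (hcoc : ∀ g g', n (g * g') =
      (H70.D p (Rep.ofMulAction (ZMod p) GQ (GQ ⧸ U))).ρ g (n g') + n g)
    (hinv : ∀ g s, s ∈ U' → n (g * s) = n g) (g : GQ) :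
    (H12.dualHom p (projHom U U' h)).hom (n g) =
      (H70.D p (Rep.ofMulAction (ZMod p) GQ (GQ ⧸ U'))).ρ g (goUpB U U' h n hinv) -
        goUpB U U' h n hinv := by
  apply MonoidAlgebra.lhom_ext'
  intro c
  ext
  simp only [LinearMap.coe_comp, Function.comp_apply, MonoidAlgebra.lsingle_apply]
  induction c using QuotientGroup.induction_on with
  | H x =>
    have e1 : ((H12.dualHom p (projHom U U' h)).hom (n g) :
        Module.Dual (ZMod p) (Rep.ofMulAction (ZMod p) GQ (GQ ⧸ U')))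
        (MonoidAlgebra.single (x : GQ ⧸ U') (1 : ZMod p)) =
        (n g : Module.Dual (ZMod p) (Rep.ofMulAction (ZMod p) GQ (GQ ⧸ U)))
          (MonoidAlgebra.single (x : GQ ⧸ U) (1 : ZMod p)) := by
      rw [H12.dualHom_apply, projHom_single]
    have e2 := dualTwist_apply_single U' (goUpB U U' h n hinv) g x
    have e3 := goUpB_single U U' h n hinv x
    have e4 := goUpB_single U U' h n hinv (g⁻¹ * x)
    have e5 := dualTwist_apply_single U (n (g⁻¹ * x)) g x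
    have e6 := hcoc g (g⁻¹ * x)
    rw [mul_inv_cancel_left] at e6
    have e7 : (n x : Module.Dual (ZMod p) (Rep.ofMulAction (ZMod p) GQ (GQ ⧸ U)))
        (MonoidAlgebra.single (x : GQ ⧸ U) (1 : ZMod p)) =
        (((H70.D p (Rep.ofMulAction (ZMod p) GQ (GQ ⧸ U))).ρ g (n (g⁻¹ * x)) :
          H70.D p (Rep.ofMulAction (ZMod p) GQ (GQ ⧸ U))) :
          Module.Dual (ZMod p) (Rep.ofMulAction (ZMod p) GQ (GQ ⧸ U)))
          (MonoidAlgebra.single (x : GQ ⧸ U) (1 : ZMod p)) +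
        (n g : Module.Dual (ZMod p) (Rep.ofMulAction (ZMod p) GQ (GQ ⧸ U)))
          (MonoidAlgebra.single (x : GQ ⧸ U) (1 : ZMod p)) := by
      rw [e6]
      rfl
    rw [e5] at e7
    refine e1.trans ?_
    show _ = (((H70.D p (Rep.ofMulAction (ZMod p) GQ (GQ ⧸ U'))).ρ g (goUpB U U' h n hinv) :
          H70.D p (Rep.ofMulAction (ZMod p) GQ (GQ ⧸ U'))) :
          Module.Dual (ZMod p) (Rep.ofMulAction (ZMod p) GQ (GQ ⧸ U')))
          (MonoidAlgebra.single (x : GQ ⧸ U') (1 : ZMod p)) -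
        (goUpB U U' h n hinv : Module.Dual (ZMod p) (Rep.ofMulAction (ZMod p) GQ (GQ ⧸ U')))
          (MonoidAlgebra.single (x : GQ ⧸ U') (1 : ZMod p))
    rw [e2, e3, e4, e7]
    ring

end Cob

end Fermat.Agent.S55.H49

end
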