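import Fermat.Agent.S55.H49.Hc1Left

/-!
# S55 / C0 (helper49): `H¹_c` as an additive functor, exactness in the middle

* `Hc1Map_id`, `Hc1Map_comp`, `Hc1Map_add`;
* `Hc1Map_exact` : for a short exact sequence `0 → A → B → C → 0` with smooth middle term,
  `H¹_c(A) → H¹_c(B) → H¹_c(C)` is exact.
-/

set_option autoImplicit false

open CategoryTheory groupCohomology ExtCitation

noncomputable section

namespace Fermat.Agent.S55.H49

variable {k : Type} [CommRing k] (S : Finset Nat.Primes)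

theorem ccSMap_id (X : Rep.{0} k GQ) : ccSMap S (𝟙 X) = 𝟙 (ccS S X) :=
  (ccFunctor k (primeDatum S) (globalDatum S) (primeHom S)).map_id X

theorem ccSMap_comp {X Y Z : Rep.{0} k GQ} (f : X ⟶ Y) (g : Y ⟶ Z) :
    ccSMap S (f ≫ g) = ccSMap S f ≫ ccSMap S g :=
  (ccFunctor k (primeDatum S) (globalDatum S) (primeHom S)).map_comp f g

theorem ccSMap_add {X Y : Rep.{0} k GQ} (f g : X ⟶ Y) :
    ccSMap S (f + g) = ccSMap S f + ccSMap S g := by
  ext n : 1
  cases n with
  | zero => rfl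
  | succ n => rfl

theorem Hc1Map_id (X : Rep.{0} k GQ) : (Hc1Map S (𝟙 X)).hom = LinearMap.id := by
  have h : Hc1Map S (𝟙 X) = 𝟙 (Hc1 S X) := by
    unfold Hc1Map
    rw [ccSMap_id]
    exact HomologicalComplex.homologyMap_id _ 1
  rw [h]
  rfl

theorem Hc1Map_comp {X Y Z : Rep.{0} k GQ} (f : X ⟶ Y) (g : Y ⟶ Z) :
    (Hc1Map S (f ≫ g)).hom = (Hc1Map S g).hom ∘ₗ (Hc1Map S f).hom := by
  have h : Hc1Map S (f ≫ g) = Hc1Map S f ≫ Hc1Map S g := by
    unfold Hc1Map
    rw [ccSMap_comp]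
    exact HomologicalComplex.homologyMap_comp _ _ 1
  rw [h]
  rfl

theorem Hc1Map_add {X Y : Rep.{0} k GQ} (f g : X ⟶ Y) :
    (Hc1Map S (f + g)).hom = (Hc1Map S f).hom + (Hc1Map S g).hom := by
  have h : Hc1Map S (f + g) = Hc1Map S f + Hc1Map S g := by
    unfold Hc1Map
    rw [ccSMap_add]
    exact HomologicalComplex.homologyMap_add _ _ 1
  rw [h]
  rfl

/-- **Exactness of `H¹_c` in the middle**: `0 → A → B → C → 0` exact with `B` smooth. -/
theorem Hc1Map_exact {A B C : Rep.{0} k GQ} (ι : A ⟶ B) (π : B ⟶ C)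
    (hι : Function.Injective ι.hom) (hzero : ∀ a : A, π.hom (ι.hom a) = 0)
    (hex : ∀ b : B, π.hom b = 0 → ∃ a : A, ι.hom a = b)
    (hπ : Function.Surjective π.hom) (hB : (globalDatum S).Smooth B)
    (y : Hc1 S B) (hy : (Hc1Map S π).hom y = 0) : ∃ x : Hc1 S A, (Hc1Map S ι).hom x = y := by
  have w : ι ≫ π = 0 := by
    apply Rep.hom_ext
    ext a
    exact hzero a
  let X : ShortComplex (Rep.{0} k GQ) := ShortComplex.mk ι π w
  have hX : X.ShortExact :=
    { exact := by
        rw [← ShortComplex.exact_map_iff_of_faithful X (forget₂ (Rep.{0} k GQ) (ModuleCat.{0} k))]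
        rw [ShortComplex.moduleCat_exact_iff]
        intro b hb
        exact hex b hb
      mono_f := (Rep.mono_iff_injective ι).2 hι
      epi_g := (Rep.epi_iff_surjective π).2 hπ }
  have hcc := cc_shortExact k GQ (globalDatum S) ↥S _ (primeDatum S) (primeHom S) X hX hB
  have h2 := hcc.homology_exact₂ 1
  rw [ShortComplex.moduleCat_exact_iff] at h2
  exact h2 y hy

end Fermat.Agent.S55.H49

end
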