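import Fermat.Agent.S55.H49.RouteRBridge

/-!
# S55 / C0 (helper49): functoriality and left exactness of `H¹_c`

* `Hc1Map S ψ : Hc1 S A ⟶ Hc1 S B` for `ψ : A ⟶ B`;
* `Hc1Map_injective` : for `S` nonempty and `ψ` injective, `Hc1Map S ψ` is injective
  (no smoothness needed: `H⁰_c = 0`, seen directly on cochains).
-/

set_option autoImplicit false

open CategoryTheory groupCohomology ExtCitation

noncomputable section

namespace Fermat.Agent.S55.H49

variable {k : Type} [CommRing k] (S : Finset Nat.Primes)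

/-- The chain map of compactly supported cochains induced by a morphism of coefficients. -/
abbrev ccSMap {A B : Rep.{0} k GQ} (ψ : A ⟶ B) : ccS S A ⟶ ccS S B :=
  ccComplexMap (primeDatum S) (globalDatum S) (primeHom S) ψ

/-- Functoriality of `H¹_c` in the coefficients. -/
def Hc1Map {A B : Rep.{0} k GQ} (ψ : A ⟶ B) : Hc1 S A ⟶ Hc1 S B :=
  HomologicalComplex.homologyMap (ccSMap S ψ) 1

theorem Hc1Map_cls {A B : Rep.{0} k GQ} (ψ : A ⟶ B) (z : cyc (ccS S A) 1) :
    (Hc1Map S ψ).hom ((cls (ccS S A) 1).hom z) = (cls (ccS S B) 1).hom (cycMap (ccSMap S ψ) 1 z) :=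
  homologyMap_cls _ 1 z

theorem ccSMap_f_one_injective {A B : Rep.{0} k GQ} (ψ : A ⟶ B)
    (hψ : Function.Injective ψ.hom) : Function.Injective ((ccSMap S ψ).f 1).hom := by
  intro x y hxy
  have h1 : ((lcMapCoeff (globalDatum S) ψ).f 1).hom (ccFst S A x) =
      ((lcMapCoeff (globalDatum S) ψ).f 1).hom (ccFst S A y) := congrArg Prod.fst hxy
  have h2 : ((locComplexMap (primeDatum S) (globalDatum S) (primeHom S) ψ).f 0).hom
      (ccSnd S A x) =
      ((locComplexMap (primeDatum S) (globalDatum S) (primeHom S) ψ).f 0).hom (ccSnd S A y) :=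
    congrArg Prod.snd hxy
  exact Prod.ext (lcMapCoeff_f_injective (globalDatum S) ψ hψ 1 h1)
    (locComplexMap_f_injective (primeDatum S) (globalDatum S) (primeHom S) ψ hψ 0 h2)

/-- **Left exactness of `H¹_c`** (`S ≠ ∅`): an injective morphism of coefficients induces an
injective map on `H¹_c`. -/
theorem Hc1Map_injective (hS : S.Nonempty) {A B : Rep.{0} k GQ} (ψ : A ⟶ B)
    (hψ : Function.Injective ψ.hom) : Function.Injective (Hc1Map S ψ).hom := by
  rw [injective_iff_map_eq_zero]
  intro x hx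
  obtain ⟨z, rfl⟩ := cls_surjective (ccS S A) 1 x
  have hx' : (cls (ccS S B) 1).hom (cycMap (ccSMap S ψ) 1 z) = 0 :=
    (Hc1Map_cls S ψ z).symm.trans hx
  obtain ⟨y, hy⟩ := (cls_eq_zero_iff _ 0 _).mp hx'
  -- `y` is a level-constant 0-cochain of `B` with `d y = ψ z`
  let y' : (lcComplex (globalDatum S) B).X 0 := y
  have hd := cocone_d_zero_apply (locMap (primeDatum S) (globalDatum S) (primeHom S) B) y'
  have hy' : ((ccS S B).d 0 1).hom y = ((ccSMap S ψ).f 1).hom z.1 := hy
  have e2 : ((locMap (primeDatum S) (globalDatum S) (primeHom S) B).f 0).hom y' =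
      ((locComplexMap (primeDatum S) (globalDatum S) (primeHom S) ψ).f 0).hom (ccSnd S A z.1) :=
    congrArg Prod.snd (hd.symm.trans hy')
  -- the value of `y` is `ψ a₀`, `a₀` the local component of `z` at a prime of `S`
  obtain ⟨q₀, hq₀⟩ := hS
  let q : ↥S := ⟨q₀, hq₀⟩
  let a₀ : A := lcValC (D := primeDatum S q) (M := Rep.res (primeHom S q).φ A)
    ((ccSnd S A z.1 : ∀ q : ↥S, (lcComplex (primeDatum S q) (Rep.res (primeHom S q).φ A)).X 0) q)
    default
  have hb : ∀ g : Fin 0 → GQ, lcValC y' g = ψ.hom a₀ := by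
    intro g
    have e3 := congrFun (congrArg (lcValC (D := primeDatum S q)
      (M := Rep.res (primeHom S q).φ B)) (congrFun e2 q)) default
    have e4 : g = (primeHom S q).φ ∘ (default : Fin 0 → primeLocalGaloisGroup q.1) :=
      Subsingleton.elim _ _
    rw [e4]
    exact e3
  obtain ⟨F, hF, hN, h1, h2⟩ := (show lcCochains (globalDatum S) B 0 from y').2
  have hLC : IsLC (globalDatum S) A (fun _ : Fin 0 → GQ => a₀) := by
    refine ⟨F, hF, hN, fun _ _ _ => rfl, fun g s hs => hψ ?_⟩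
    rw [Rep.hom_comm_apply, ← hb default]
    exact h2 default s hs
  let x₀ : (ccS S A).X 0 := H41.mkX (globalDatum S) A _ hLC
  have hx₀ : ((ccSMap S ψ).f 0).hom x₀ = y := by
    apply lcValC_injective
    funext g
    exact (hb g).symm
  refine (cls_eq_zero_iff _ 0 z).mpr ⟨x₀, ccSMap_f_one_injective S ψ hψ ?_⟩
  have hc := LinearMap.congr_fun (ModuleCat.hom_ext_iff.mp ((ccSMap S ψ).comm 0 1)) x₀
  have hc' : ((ccSMap S ψ).f 1).hom (((ccS S A).d 0 1).hom x₀) =
      ((ccS S B).d 0 1).hom (((ccSMap S ψ).f 0).hom x₀) := hc.symm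
  rw [hc', hx₀]
  exact hy'

end Fermat.Agent.S55.H49

end
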