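import Fermat.Agent.S55.H87.IsoPlug
import Fermat.Agent.S55.H54.LevelTop
import Fermat.Agent.S55.H70.GSC8
import Fermat.Agent.S55.H11.LamStatement
import Fermat.Agent.S55.H6.RecCycloFinal
import Fermat.Agent.S55.H23.RecQFinal
import Fermat.Agent.S55.H39.H3QS
import Fermat.Agent.S55.H18.C8Lift
import Fermat.Agent.S55.H16.JInf
import Fermat.Agent.S55.H4.JRes
import Fermat.Agent.S55.H4.ClassSylow
import Fermat.Agent.S55.H3.ClassInfRes
import Fermat.Agent.S55.H13.ClassInv
import Fermat.Agent.S55.H37.ClassH1U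
import Fermat.Agent.S55.H37.ClassPBound
import Fermat.Agent.S55.H52.JAdm
import Fermat.Agent.S55.H8.IdeleLocH29
import Fermat.Agent.S55.H99.CycKer
import Fermat.Agent.S55.H74.ClassCycEx
import Fermat.Agent.S55.H65.CycH3
import Fermat.Agent.S55.H79.SumLocDeg
import Fermat.Agent.S55.H41.JFin

/-!
# S55 / Program C (helper49): the last mile

`s55_of_h3QS` : the conclusion of the frozen S55 from the single statement
`H70.H3QSStatement p S` (the `p`-part of `H³(Gal(K/F), Kˣ)` dies in a bigger layer inside `ℚ_S`);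
`s55_of_lift` : the same from `H29.LiftStatement p` (the lifting step of the class formation).
Everything else is plugged in from main: reciprocity for cyclotomic layers (`H6`), the unramified
invariants (`H11`), reciprocity over `ℚ` (`H23`), the bridge over the level fields (`H54`), the
local package, the counting argument and the dévissage (`H87`).
-/

set_option autoImplicit false

open CategoryTheory Module groupCohomology ExtCitation

namespace Fermat.Agent.S55.H49

/-- **S55 from `H3QSStatement`.** -/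
theorem s55_of_h3QS {p : ℕ} [Fact p.Prime] (hp2 : p ≠ 2) (S : Finset Nat.Primes)
    (hpS : pPrime p ∈ S) (hH3 : H70.H3QSStatement p S)
    (M : Rep (ZMod p) (AlgebraicClosure ℚ ≃ₐ[ℚ] AlgebraicClosure ℚ))
    [FiniteDimensional (ZMod p) M]
    (hsm : ∀ m : M, ∃ F : IntermediateField ℚ (AlgebraicClosure ℚ), FiniteDimensional ℚ F ∧
      ∀ s ∈ F.fixingSubgroup, M.ρ s m = m)
    (hMur : ∀ q : Nat.Primes, q ∉ S → ∀ A : ValuationSubring (AlgebraicClosure ℚ),
      A.LiesOverPrime (q : ℕ) → ∀ g ∈ A.inertiaSubgroupIn ℚ, M.ρ g = 1) :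
    ∃ B : sha₁ S (M.dualTwist (cycloChar p)) →ₗ[ZMod p] sha₂ S M →ₗ[ZMod p] ZMod p,
      (∀ y, (∀ x, B y x = 0) → y = 0) ∧ (∀ x, (∀ y, B y x = 0) → x = 0) := by
  have hpr : p.Prime := Fact.out
  have : NeZero ((p : ℕ) : ℚ) := ⟨Nat.cast_ne_zero.mpr hpr.ne_zero⟩
  obtain ⟨ζ₀, hζ₀⟩ := HasEnoughRootsOfUnity.exists_primitiveRoot (AlgebraicClosure ℚ) p
  have hCR : H29.CycloRecStatement p := H6.cycloRecStatement p
  have hLam : H70.LamStatement p S (H63.pPart p) :=
    H11.lamStatement hpS (H63.pPart p) fun _ ht => H63.pPart_of_isPPrimary p ht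
  have hA : H70.ArithStatement p S H66.QZ := H70.arithStatement_of_three hp2 hpS hCR hH3 hLam
  have hRec : H29.RecStatement H29.NFLayer p := H70.recStatement_of_cycloRec hp2 hCR
  have hREC : ∀ inv : H62.LocalInv p S, H26.IsLocalInvFamily p S ζ₀ inv →
      H62.RECStatement p S inv :=
    fun inv hfam => H23.RecQ.recStatement_of_family hpS hζ₀.pow_eq_one hfam hRec
  exact H87.s55_of_arith_rec_bridge hp2 hpS ζ₀ hζ₀ hA hREC
    (fun inv hfam L hL =>
      H54.bridge_family_of_three hp2 hpS ζ₀ hζ₀ hCR hH3 hLam inv hfam (hREC inv hfam) L hL)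
    M hsm hMur

/-- **S55 from `LiftStatement`.** -/
theorem s55_of_lift {p : ℕ} [Fact p.Prime] (hp2 : p ≠ 2) (S : Finset Nat.Primes)
    (hpS : pPrime p ∈ S) (hL : H29.LiftStatement p)
    (M : Rep (ZMod p) (AlgebraicClosure ℚ ≃ₐ[ℚ] AlgebraicClosure ℚ))
    [FiniteDimensional (ZMod p) M]
    (hsm : ∀ m : M, ∃ F : IntermediateField ℚ (AlgebraicClosure ℚ), FiniteDimensional ℚ F ∧
      ∀ s ∈ F.fixingSubgroup, M.ρ s m = m)
    (hMur : ∀ q : Nat.Primes, q ∉ S → ∀ A : ValuationSubring (AlgebraicClosure ℚ),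
      A.LiesOverPrime (q : ℕ) → ∀ g ∈ A.inertiaSubgroupIn ℚ, M.ρ g = 1) :
    ∃ B : sha₁ S (M.dualTwist (cycloChar p)) →ₗ[ZMod p] sha₂ S M →ₗ[ZMod p] ZMod p,
      (∀ y, (∀ x, B y x = 0) → y = 0) ∧ (∀ x, (∀ y, B y x = 0) → x = 0) :=
  s55_of_h3QS hp2 S hpS (H39.h3QSStatement_of_lift hp2 hpS hL) M hsm hMur

/-- **(LIFT)**, the lifting step of the class formation, with every leaf of `H29/C8Cls.lean`
plugged in from main. -/
theorem liftStatement {p : ℕ} [Fact p.Prime] (hp2 : p ≠ 2) : H29.LiftStatement p := by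
  have hCR : H29.CycloRecStatement p := H6.cycloRecStatement p
  have hRec : H29.RecStatement H29.NFLayer p := H70.recStatement_of_cycloRec hp2 hCR
  have hEx : H29.CyclicExStatement p := H70.cyclicExStatement_of_cycloRec hp2 hCR
  have hFin : H29.JFinStatement := H41.jFinStatement
  have hAdm : H29.JAdmStatement := H52.jAdmStatement
  have hDet : H29.JDetectStatement := H8.jDetectStatement
  have hKer : H29.CycKerStatement p := H99.cycKer_of hEx hFin hAdm hDet
  have hCyc : H29.ClassCycStatement p :=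
    H74.classCyc_of_ex H65.cycH3Statement hKer hRec hEx hFin
  have hH1 : H29.ClassH1Statement p := H37.classH1Statement p
  have hIR : H29.ClassInfResStatement := H3.classInfRes_of H13.classInvStatement
  have hPB : H29.ClassPBoundStatement p := H37.classPBound_of p hCyc hH1 hIR
  exact H18.liftStatement_of hFin H16.jInfStatement H4.jResStatement H79.sumLocDegStatement hIR
    H4.classSylowStatement hH1 hKer hCyc hPB hRec

/-- **The conclusion of the frozen S55, with no hypothesis left.** -/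
theorem s55_closed {p : ℕ} [Fact p.Prime] (hp2 : p ≠ 2) (S : Finset Nat.Primes)
    (hpS : pPrime p ∈ S)
    (M : Rep (ZMod p) (AlgebraicClosure ℚ ≃ₐ[ℚ] AlgebraicClosure ℚ))
    [FiniteDimensional (ZMod p) M]
    (hsm : ∀ m : M, ∃ F : IntermediateField ℚ (AlgebraicClosure ℚ), FiniteDimensional ℚ F ∧
      ∀ s ∈ F.fixingSubgroup, M.ρ s m = m)
    (hMur : ∀ q : Nat.Primes, q ∉ S → ∀ A : ValuationSubring (AlgebraicClosure ℚ),
      A.LiesOverPrime (q : ℕ) → ∀ g ∈ A.inertiaSubgroupIn ℚ, M.ρ g = 1) :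
    ∃ B : sha₁ S (M.dualTwist (cycloChar p)) →ₗ[ZMod p] sha₂ S M →ₗ[ZMod p] ZMod p,
      (∀ y, (∀ x, B y x = 0) → y = 0) ∧ (∀ x, (∀ y, B y x = 0) → x = 0) :=
  s55_of_lift hp2 S hpS (liftStatement hp2) M hsm hMur

end Fermat.Agent.S55.H49
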