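import Fermat.Agent.S55.H49.CcExact

/-!
# S55 / C0 (helper49): the `H¹_c` data of Route R in the cochain model

* `clsDesc` : linear maps out of cohomology from linear maps on cocycles killing coboundaries;
* `Hc1 S N = H¹` of the cocone of localisation (classes of pairs `(n, (m_q)_{q ∈ S})`, `n` a
  level-constant 1-cocycle, `m_q` level-constant 0-cochains of the local groups with
  `res_q n = d m_q`, modulo `(d m, (res_q m)_q)`);
* `loc0 S N` : the classes of the pairs `(0, (m_q))`;
* `toH1 S N : Hc1 S N → H¹(G_ℚ, N)` (Mathlib's abstract `H1`), `(n, m) ↦ [n]`.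
-/

set_option autoImplicit false

open CategoryTheory groupCohomology

noncomputable section

namespace Fermat.Agent.S55.H49

variable {k : Type} [CommRing k]

/-! ### Descending linear maps to cohomology -/

section Desc

variable (K : CochainComplex (ModuleCat.{0} k) ℕ) (n : ℕ) {P : Type} [AddCommGroup P] [Module k P]

/-- A linear map on `(n+1)`-cocycles that kills coboundaries descends to `Hⁿ⁺¹`. -/
def clsDesc (f : cyc K (n + 1) →ₗ[k] P)
    (hf : ∀ z : cyc K (n + 1), (∃ y : K.X n, (K.d n (n + 1)).hom y = z.1) → f z = 0) :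
    K.homology (n + 1) →ₗ[k] P :=
  (Submodule.liftQ (LinearMap.ker (cls K (n + 1)).hom) f fun z hz =>
      hf z ((cls_eq_zero_iff K n z).mp hz)) ∘ₗ
    ((cls K (n + 1)).hom.quotKerEquivOfSurjective (cls_surjective K (n + 1))).symm.toLinearMap

@[simp]
theorem clsDesc_cls (f : cyc K (n + 1) →ₗ[k] P)
    (hf : ∀ z : cyc K (n + 1), (∃ y : K.X n, (K.d n (n + 1)).hom y = z.1) → f z = 0)
    (z : cyc K (n + 1)) : clsDesc K n f hf ((cls K (n + 1)).hom z) = f z := by
  have h : ((cls K (n + 1)).hom.quotKerEquivOfSurjective (cls_surjective K (n + 1))).symm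
      ((cls K (n + 1)).hom z) = Submodule.Quotient.mk z := by
    rw [LinearEquiv.symm_apply_eq]
    rfl
  simp only [clsDesc, LinearMap.coe_comp, LinearEquiv.coe_coe, Function.comp_apply, h]
  exact Submodule.liftQ_apply _ _ _

end Desc

/-! ### `H¹_c`, `loc0`, `toH1` -/

section Hc1

variable (S : Finset Nat.Primes) (N : Rep.{0} k GQ)

/-- `H¹_c(G_S, N)`. -/
abbrev Hc1 : ModuleCat.{0} k := HcS S N 1

/-- The compactly supported cochain complex of `S`. -/
abbrev ccS : CochainComplex (ModuleCat.{0} k) ℕ :=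
  ccComplex (primeDatum S) (globalDatum S) (primeHom S) N

/-- The product of the local cochain complexes at the primes of `S`. -/
abbrev locS : CochainComplex (ModuleCat.{0} k) ℕ :=
  locComplex (primeDatum S) (globalDatum S) (primeHom S) N

/-- The two components of a compactly supported 1-cochain: a global level-constant 1-cochain
and a family of local level-constant 0-cochains. -/
def ccFst (x : (ccS S N).X 1) : (lcComplex (globalDatum S) N).X 1 :=
  (show (lcComplex (globalDatum S) N).X 1 × (locS S N).X 0 from x).1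

/-- See `ccFst`. -/
def ccSnd (x : (ccS S N).X 1) : (locS S N).X 0 :=
  (show (lcComplex (globalDatum S) N).X 1 × (locS S N).X 0 from x).2

/-- The compactly supported 1-cocycles with zero global component. -/
def zeroFst : Submodule k (cyc (ccS S N) 1) where
  carrier := {z | ccFst S N z.1 = 0}
  add_mem' {a b} ha hb := by
    show ccFst S N (a.1 + b.1) = 0
    have : ccFst S N (a.1 + b.1) = ccFst S N a.1 + ccFst S N b.1 := rfl
    rw [this, ha, hb, add_zero]
  zero_mem' := rfl
  smul_mem' c a ha := by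
    show ccFst S N (c • a.1) = 0
    have : ccFst S N (c • a.1) = c • ccFst S N a.1 := rfl
    rw [this, ha, smul_zero]

/-- `I_N ⊆ H¹_c(G_S, N)`: the classes of the pairs `(0, (m_q)_q)`, i.e. the image of
`⊕_q H⁰(ℚ_q, N)`. -/
def loc0 : Submodule k (Hc1 S N) :=
  (zeroFst S N).map (cls (ccS S N) 1).hom

/-- `H¹_c(G_S, N) → H¹(G_ℚ, N)`, `(n, m) ↦ [n]`, to Mathlib's abstract `H¹`. -/
def toH1 : Hc1 S N ⟶ groupCohomology N 1 :=
  HomologicalComplex.homologyMap
    (ccToLc (primeDatum S) (globalDatum S) (primeHom S) N ≫ lcIncl (globalDatum S) N) 1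

/-- `H¹(G_S, N) → H¹(G_ℚ, N)` (inflation). -/
def inflH1 : HS S N 1 ⟶ groupCohomology N 1 :=
  HomologicalComplex.homologyMap (lcIncl (globalDatum S) N) 1

theorem toH1_eq : toH1 S N = jS S N 1 ≫ inflH1 S N := by
  exact HomologicalComplex.homologyMap_comp _ _ 1

/-- `ker (H¹_c → H¹(G_S, N)) = I_N` (exactness of the cone sequence at `H¹_c`). -/
theorem ker_jS_one : LinearMap.ker (jS S N 1).hom = loc0 S N := by
  have key : ∀ z : cyc (ccS S N) 1,
      (jS S N 1).hom ((cls (ccS S N) 1).hom z) = 0 ↔ (cls (ccS S N) 1).hom z ∈ loc0 S N := by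
    intro z
    have hj : (jS S N 1).hom ((cls (ccS S N) 1).hom z) =
        (cls (lcComplex (globalDatum S) N) 1).hom
          (cycMap (ccToLc (primeDatum S) (globalDatum S) (primeHom S) N) 1 z) :=
      homologyMap_cls _ 1 z
    refine (Eq.congr_left hj).trans ((cls_eq_zero_iff _ 0 _).trans ?_)
    constructor
    · rintro ⟨y, hy⟩
      -- subtract the coboundary of `y`
      have hy' : ((lcComplex (globalDatum S) N).d 0 1).hom y = ccFst S N z.1 := hy
      let y₀ : (ccS S N).X 0 := y
      have hd : ((ccS S N).d 0 1).hom y₀ ∈ cyc (ccS S N) 1 := by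
        rw [mem_cyc]
        exact LinearMap.congr_fun (ModuleCat.hom_ext_iff.mp ((ccS S N).d_comp_d 0 1 2)) y₀
      refine ⟨z - ⟨_, hd⟩, ?_, ?_⟩
      · show ccFst S N (z.1 - ((ccS S N).d 0 1).hom y₀) = 0
        have h1 : ccFst S N (z.1 - ((ccS S N).d 0 1).hom y₀) =
            ccFst S N z.1 - ccFst S N (((ccS S N).d 0 1).hom y₀) := rfl
        have h2 : ccFst S N (((ccS S N).d 0 1).hom y₀) =
            ((lcComplex (globalDatum S) N).d 0 1).hom y := by
          have := cocone_d_zero_apply (locMap (primeDatum S) (globalDatum S) (primeHom S) N) y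
          exact congrArg Prod.fst this
        rw [h1, h2, hy', sub_self]
      · have h0 : (cls (ccS S N) 1).hom ⟨_, hd⟩ = 0 :=
          (cls_eq_zero_iff (ccS S N) 0 ⟨_, hd⟩).mpr ⟨y₀, rfl⟩
        have h1 : (cls (ccS S N) 1).hom (z - ⟨_, hd⟩) =
            (cls (ccS S N) 1).hom z - (cls (ccS S N) 1).hom ⟨_, hd⟩ := map_sub _ _ _
        exact h1.trans ((congrArg (fun t => (cls (ccS S N) 1).hom z - t) h0).trans (sub_zero _))
    · rintro ⟨w, hw, hwz⟩
      have hw' : ccFst S N w.1 = 0 := hw
      obtain ⟨y, hy⟩ := (cls_eq_cls_iff (ccS S N) 0 w z).mp hwz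
      let y' : (lcComplex (globalDatum S) N).X 0 := y
      refine ⟨-y', ?_⟩
      have h2 : ccFst S N (((ccS S N).d 0 1).hom y) =
          ((lcComplex (globalDatum S) N).d 0 1).hom y' := by
        have := cocone_d_zero_apply (locMap (primeDatum S) (globalDatum S) (primeHom S) N) y'
        exact congrArg Prod.fst this
      have h3 : ccFst S N (w.1 - z.1) = ccFst S N w.1 - ccFst S N z.1 := rfl
      have h4 : ccFst S N (((ccS S N).d 0 1).hom y) = ccFst S N (w.1 - z.1) := congrArg _ hy
      have h5 : ((lcComplex (globalDatum S) N).d 0 1).hom (-y') = ccFst S N z.1 := by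
        rw [map_neg, ← h2, h4, h3, hw', zero_sub, neg_neg]
      exact h5
  ext x
  obtain ⟨z, rfl⟩ := cls_surjective (ccS S N) 1 x
  exact LinearMap.mem_ker.trans (key z)

end Hc1

end Fermat.Agent.S55.H49

end
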