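import Fermat.Agent.S55.H49.RouteR
import Fermat.Agent.S55.H41.Bridge2Core
import Fermat.Agent.S55.H43.C0Leaves

/-!
# S55 / C0 (helper49): the bridge (BR) of Route R

For `p` odd and a module `N` that is smooth for the global level datum of `S`:

* `ker_toH1`   : `ker (H¹_c(G_S, N) → H¹(G_ℚ, N)) = loc0 S N`;
* `sha₁_eq_range_toH1` : `sha₁ S N = range (H¹_c(G_S, N) → H¹(G_ℚ, N))`.

The dictionary with Mathlib's low-degree API is `cls_eq_H1π`.
-/

set_option autoImplicit false

open CategoryTheory groupCohomology ExtCitation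

noncomputable section

namespace Fermat.Agent.S55.H49

/-! ### Dictionary with Mathlib's `H1π` -/

section Dict

variable {k : Type} [CommRing k] {G : Type} [Group G] (A : Rep.{0} k G)

/-- The class of an abstract 1-cocycle `c : G → A` in Mathlib's `H¹` is the class of the
inhomogeneous cochain `g ↦ c (g 0)`. -/
theorem cls_eq_H1π (c : cocycles₁ A) (z : cyc (inhomogeneousCochains A) 1)
    (hz : ∀ g : Fin 1 → G, (show (Fin 1 → G) → A from z.1) g = c.1 (g 0)) :
    (cls (inhomogeneousCochains A) 1).hom z = (H1π A).hom c := by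
  have h1 := cocyclesMk₁_eq A c
  have h2 : (H1π A).hom c = (π A 1).hom ((isoCocycles₁ A).inv.hom c) := rfl
  rw [h2]
  have h3 : (cls (inhomogeneousCochains A) 1).hom z =
      ((inhomogeneousCochains A).homologyπ 1).hom ((cycToCycles _ 1).hom z) := rfl
  rw [h3]
  have h4 : (cycToCycles (inhomogeneousCochains A) 1).hom z = (isoCocycles₁ A).inv.hom c := by
    apply iCycles_injective
    rw [iCycles_cycToCycles]
    have h5 := isoCocycles₁_inv_comp_iCocycles_apply A c
    refine Eq.trans ?_ h5.symm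
    funext g
    exact hz g
  rw [h4]
  rfl

end Dict

/-! ### Injectivity of inflation in degree 1 -/

section Infl

variable {k : Type} [CommRing k] (S : Finset Nat.Primes) (N : Rep.{0} k GQ)

/-- For a smooth module, `H¹(G_S, N) → H¹(G_ℚ, N)` is injective. -/
theorem inflH1_injective (hM : (globalDatum S).Smooth N) :
    Function.Injective (inflH1 S N).hom := by
  rw [injective_iff_map_eq_zero]
  intro x hx
  obtain ⟨z, rfl⟩ := cls_surjective (lcComplex (globalDatum S) N) 1 x
  have h1 : (inflH1 S N).hom ((cls (lcComplex (globalDatum S) N) 1).hom z) =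
      (cls (inhomogeneousCochains N) 1).hom (cycMap (lcIncl (globalDatum S) N) 1 z) :=
    homologyMap_cls _ 1 z
  have hx' : (cls (inhomogeneousCochains N) 1).hom (cycMap (lcIncl (globalDatum S) N) 1 z) = 0 :=
    h1.symm.trans hx
  obtain ⟨y, hy⟩ := (cls_eq_zero_iff _ 0 _).mp hx'
  have hyLC : IsLC (globalDatum S) N (show (Fin 0 → GQ) → N from y) :=
    H41.isLC_of_invariant (H43.hasNormalLevels_globalDatum S) hM (globalDatum S).bot
      (fun g s _ => congrArg _ (Subsingleton.elim _ _))
  refine (cls_eq_zero_iff _ 0 z).mpr ⟨H41.mkX _ _ _ hyLC, ?_⟩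
  apply lcValC_injective
  rw [H41.lcValC_d]
  exact hy

/-- `ker (H¹_c(G_S, N) → H¹(G_ℚ, N)) = I_N` for a smooth module. -/
theorem ker_toH1 (hM : (globalDatum S).Smooth N) :
    LinearMap.ker (toH1 S N).hom = loc0 S N := by
  rw [← ker_jS_one]
  ext x
  have h : (toH1 S N).hom x = (inflH1 S N).hom ((jS S N 1).hom x) := by
    rw [toH1_eq]
    rfl
  rw [LinearMap.mem_ker, LinearMap.mem_ker, h]
  exact map_eq_zero_iff _ (inflH1_injective S N hM)

end Infl

/-! ### Level-constant 1-cocycles as functions of one variable -/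

section Coc

variable {k : Type} [CommRing k] {G : Type} [Group G]

/-- The differential in degree `0`. -/
theorem d_zero_apply (A : Rep.{0} k G) (f : (Fin 0 → G) → A) (g : Fin 1 → G) :
    (inhomogeneousCochains.d A 0).hom f g = A.ρ (g 0) (f default) - f default := by
  rw [inhomogeneousCochains.d_hom_apply, Fin.sum_univ_one]
  have e1 : (fun i : Fin 0 => g i.succ) = default := Subsingleton.elim _ _
  have e2 : Fin.contractNth (0 : Fin 1) (· * ·) g = default := Subsingleton.elim _ _
  rw [e1, e2]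
  simp [sub_eq_add_neg]

variable (D : LevelDatum G) (A : Rep.{0} k G)

/-- A level-constant 1-cocycle, as a 1-cocycle in the sense of Mathlib's low-degree API. -/
def cocOfCyc (z : cyc (lcComplex D A) 1) : cocycles₁ A :=
  ⟨fun g => lcVal z ![g], by
    have h1 : (inhomogeneousCochains.d A 1).hom (lcValC z.1) = 0 :=
      (H41.mem_cyc_lc_iff D A z.1).mp z.2
    have h2 : H41.toFin1 A (fun g => lcVal z ![g]) = lcValC z.1 := H41.toFin1_vec _
    rw [← h2, H41.d_toFin1] at h1
    have h3 : (d₁₂ A).hom (fun g => lcVal z ![g]) = 0 :=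
      H41.toFin2_injective (h1.trans (map_zero _).symm)
    exact h3⟩

theorem cocOfCyc_apply (z : cyc (lcComplex D A) 1) (g : G) :
    (cocOfCyc D A z).1 g = lcVal z ![g] := rfl

/-- The class of a level-constant 1-cocycle in Mathlib's `H¹`. -/
theorem homologyMap_lcIncl_cls (z : cyc (lcComplex D A) 1) :
    (HomologicalComplex.homologyMap (lcIncl D A) 1).hom ((cls (lcComplex D A) 1).hom z) =
      (H1π A).hom (cocOfCyc D A z) := by
  have h1 : (HomologicalComplex.homologyMap (lcIncl D A) 1).hom ((cls (lcComplex D A) 1).hom z) =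
      (cls (inhomogeneousCochains A) 1).hom (cycMap (lcIncl D A) 1 z) := homologyMap_cls _ 1 z
  rw [h1]
  refine cls_eq_H1π A _ _ fun g => ?_
  show lcVal z g = lcVal z ![g 0]
  rw [H41.vec1_eta]

end Coc

/-! ### Local triviality -/

section Local

variable {k : Type} [CommRing k] (S : Finset Nat.Primes) (N : Rep.{0} k GQ)

/-- The localisation at `q ∈ S` of the class of a level-constant 1-cocycle vanishes iff the
cocycle is a coboundary on the local Galois group (for smooth `N`). -/
theorem resq_cls_eq_zero_iff (hM : (globalDatum S).Smooth N) (q : ↥S)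
    (z : cyc (lcComplex (globalDatum S) N) 1) :
    (resq S q N 1).hom ((cls (lcComplex (globalDatum S) N) 1).hom z) = 0 ↔
      ∃ m : N, ∀ g : primeLocalGaloisGroup q.1,
        lcVal z ![primeLocalToGlobal q.1 g] = N.ρ (primeLocalToGlobal q.1 g) m - m := by
  have h1 : (resq S q N 1).hom ((cls (lcComplex (globalDatum S) N) 1).hom z) =
      (cls _ 1).hom (cycMap (lcRes (primeHom S q) N) 1 z) := homologyMap_cls _ 1 z
  refine (Eq.congr_left h1).trans ((cls_eq_zero_iff _ 0 _).trans ?_)
  have hval : ∀ g : Fin 1 → primeLocalGaloisGroup q.1,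
      lcValC (cycMap (lcRes (primeHom S q) N) 1 z).1 g =
        lcVal z ![primeLocalToGlobal q.1 (g 0)] := by
    intro g
    show lcVal z ((primeHom S q).φ ∘ g) = lcVal z ![primeLocalToGlobal q.1 (g 0)]
    congr 1
    funext i
    fin_cases i
    rfl
  constructor
  · rintro ⟨y, hy⟩
    let m : Rep.res (primeHom S q).φ N := lcValC y default
    refine ⟨m, fun g => ?_⟩
    have h2 := congrFun (congrArg lcValC hy) ![g]
    rw [H41.lcValC_d, d_zero_apply, hval] at h2
    exact h2.symm
  · rintro ⟨m, hm⟩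
    have hLC : IsLC (primeDatum S q) (Rep.res (primeHom S q).φ N)
        (fun _ : Fin 0 → primeLocalGaloisGroup q.1 => m) :=
      H41.isLC_of_invariant (H43.hasNormalLevels_localDatum _) (smooth_res (primeHom S q) hM)
        (primeDatum S q).bot (fun _ _ _ => rfl)
    refine ⟨H41.mkX _ _ _ hLC, ?_⟩
    apply lcValC_injective
    rw [H41.lcValC_d, H41.lcValC_mkX]
    funext g
    rw [d_zero_apply, hval]
    exact (hm (g 0)).symm

end Local

/-! ### The bridge -/

section Bridge

variable {p : ℕ} [Fact p.Prime] (S : Finset Nat.Primes) (N : Rep.{0} (ZMod p) GQ)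

/-- **(BR), second half**: for `p` odd and `N` smooth, `sha₁ S N` is the image of
`H¹_c(G_S, N) → H¹(G_ℚ, N)`. -/
theorem sha₁_eq_range_toH1 (hp2 : p ≠ 2) (hM : (globalDatum S).Smooth N) :
    sha₁ S N = LinearMap.range (toH1 S N).hom := by
  have htoH1 : ∀ w, (toH1 S N).hom w = (inflH1 S N).hom ((jS S N 1).hom w) := by
    intro w
    rw [toH1_eq]
    rfl
  ext x
  rw [H43.mem_sha₁_iff_of_ne_two S hp2 N x]
  constructor
  · rintro ⟨c, hc, hx, hloc⟩
    have hLC : IsLC (globalDatum S) N (H41.toFin1 N c.1) :=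
      H41.isLC_toFin1 (H43.hasNormalLevels_globalDatum S) hM hc
    have ha : H41.mkX (globalDatum S) N _ hLC ∈ cyc (lcComplex (globalDatum S) N) 1 := by
      rw [H41.mem_cyc_lc_iff, H41.lcValC_mkX, H41.d_toFin1]
      have h0 : (d₁₂ N).hom c.1 = 0 := c.2
      rw [h0, map_zero]
    have hy : (cls (lcComplex (globalDatum S) N) 1).hom ⟨_, ha⟩ ∈
        LinearMap.range (jS S N 1).hom := by
      refine (mem_range_jS_iff S N 0 _).mpr fun q => ?_
      refine (resq_cls_eq_zero_iff S N hM q ⟨_, ha⟩).mpr ?_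
      obtain ⟨m, hm⟩ := hloc q
      exact ⟨m, fun g => hm g⟩
    obtain ⟨w, hw⟩ := hy
    refine ⟨w, ?_⟩
    rw [htoH1, hw]
    have h1 := homologyMap_lcIncl_cls (globalDatum S) N ⟨_, ha⟩
    refine (h1.trans ?_).trans hx
    congr 1
  · rintro ⟨w, rfl⟩
    obtain ⟨z, hz⟩ := cls_surjective (lcComplex (globalDatum S) N) 1 ((jS S N 1).hom w)
    refine ⟨cocOfCyc (globalDatum S) N z, ?_, ?_, fun q => ?_⟩
    · exact H41.plc₁_of_isLC (H41.isLC_lcValC (globalDatum S) N z.1)
    · rw [htoH1, ← hz]
      exact (homologyMap_lcIncl_cls (globalDatum S) N z).symm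
    · have h1 : (cls (lcComplex (globalDatum S) N) 1).hom z ∈ LinearMap.range (jS S N 1).hom :=
        ⟨w, hz.symm⟩
      have h2 := (mem_range_jS_iff S N 0 _).mp h1 q
      obtain ⟨m, hm⟩ := (resq_cls_eq_zero_iff S N hM q z).mp h2
      exact ⟨m, fun g => hm g⟩

/-- **(BR) of Route R** for the cochain model, `p` odd, `N` smooth. -/
theorem bridgeR_of_smooth (hp2 : p ≠ 2) (hM : (globalDatum S).Smooth N) :
    LinearMap.ker (toH1 S N).hom = loc0 S N ∧ sha₁ S N = LinearMap.range (toH1 S N).hom :=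
  ⟨ker_toH1 S N hM, sha₁_eq_range_toH1 S N hp2 hM⟩

/-- **(BR) of Route R** under the hypotheses of S55. -/
theorem bridgeR (hp2 : p ≠ 2) [FiniteDimensional (ZMod p) N]
    (hsm : ∀ m : N, ∃ F : IntermediateField ℚ (AlgebraicClosure ℚ), FiniteDimensional ℚ F ∧
      ∀ s ∈ F.fixingSubgroup, N.ρ s m = m)
    (hMur : ∀ q : Nat.Primes, q ∉ S → ∀ A : ValuationSubring (AlgebraicClosure ℚ),
      A.LiesOverPrime (q : ℕ) → ∀ g ∈ A.inertiaSubgroupIn ℚ, N.ρ g = 1) :
    LinearMap.ker (toH1 S N).hom = loc0 S N ∧ sha₁ S N = LinearMap.range (toH1 S N).hom :=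
  bridgeR_of_smooth S N hp2 (H43.smoothOfHyp p S N hsm hMur)

end Bridge

end Fermat.Agent.S55.H49

end
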