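import Fermat.Agent.S55.H49.RouteRBridge
import Fermat.Agent.S55.H70.ChainR

/-!
# S55 / C0 (helper49): the Route R package of the cochain model and its bridge (BR)

`rPackage p S pairing` is the `H70.RPackage` whose `Hc1`, `loc0`, `toH1` are those of the cochain
model (`RouteR.lean`), for any pairing; `rPackage_bridge` is its `Bridge` leaf for `p` odd.
-/

set_option autoImplicit false

open CategoryTheory groupCohomology ExtCitation

noncomputable section

namespace Fermat.Agent.S55.H49

variable (p : ℕ) [Fact p.Prime] (S : Finset Nat.Primes)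

/-- The Route R package of the cochain model, for a given pairing
`H²(G_S, M) × H¹_c(G_S, M') → 𝔽_p`. -/
def rPackage
    (pairing : ∀ M : Rep.{0, 0, 0} (ZMod p) GQ,
      continuousH2S S M →ₗ[ZMod p] Hc1 S (H70.D p M) →ₗ[ZMod p] ZMod p) :
    H70.RPackage p S where
  Hc1 N := Hc1 S N
  loc0 N := loc0 S N
  toH1 N := (toH1 S N).hom
  pairing := pairing

/-- **The leaf (BR) of Route R** holds for the cochain model, `p` odd, whatever the pairing. -/
theorem rPackage_bridge (hp2 : p ≠ 2)
    (pairing : ∀ M : Rep.{0, 0, 0} (ZMod p) GQ,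
      continuousH2S S M →ₗ[ZMod p] Hc1 S (H70.D p M) →ₗ[ZMod p] ZMod p) :
    (rPackage p S pairing).Bridge := fun N hN => by
  have := hN.1
  exact bridgeR S N hp2 hN.2.1 hN.2.2

end Fermat.Agent.S55.H49

end
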