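import Fermat.Agent.S55.H49.Hc1Functor
import Fermat.Agent.S55.H49.RouteRPackage
import Fermat.Agent.S55.H12.C10R
import Fermat.Agent.S55.H43.H2S

/-!
# S55 / C0 (helper49): the functoriality data `H12.RFunctor` of the cochain-model package

For the package `rPackage p S pairing`: `H2map = H43.H2SMap`, `Hc1map = Hc1Map`; the only input
is the naturality of the pairing.  The leaves (LE1) `Hc1Inj` and (LE2) `Hc1Exact` of the
dévissage (`H12/C10R.lean`) are proved.
-/

set_option autoImplicit false

open CategoryTheory groupCohomology ExtCitation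

noncomputable section

namespace Fermat.Agent.S55.H49

variable (p : ℕ) [Fact p.Prime] (S : Finset Nat.Primes)
  (pairing : ∀ M : Rep.{0, 0, 0} (ZMod p) GQ,
    continuousH2S S M →ₗ[ZMod p] Hc1 S (H70.D p M) →ₗ[ZMod p] ZMod p)

/-- The functoriality data of the cochain-model package, from the naturality of the pairing. -/
def rFunctor
    (hnat : ∀ {X Y : Rep.{0, 0, 0} (ZMod p) GQ} (f : X ⟶ Y) (x : continuousH2S S X)
      (y : Hc1 S (H70.D p Y)),
      pairing Y (H43.H2SMap S f x) y = pairing X x ((Hc1Map S (H12.dualHom p f)).hom y)) :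
    H12.RFunctor (rPackage p S pairing) where
  H2map f := H43.H2SMap S f
  Hc1map f := (Hc1Map S f).hom
  H2map_id := H43.H2SMap_id S
  H2map_comp := H43.H2SMap_comp S
  H2map_add := H43.H2SMap_add S
  Hc1map_id := Hc1Map_id S
  Hc1map_comp := Hc1Map_comp S
  Hc1map_add := Hc1Map_add S
  pair_natural := hnat

variable
  (hnat : ∀ {X Y : Rep.{0, 0, 0} (ZMod p) GQ} (f : X ⟶ Y) (x : continuousH2S S X)
    (y : Hc1 S (H70.D p Y)),
    pairing Y (H43.H2SMap S f x) y = pairing X x ((Hc1Map S (H12.dualHom p f)).hom y))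

/-- **(LE1)** of the dévissage: `H¹_c` preserves injections (`S ≠ ∅`). -/
theorem rFunctor_hc1Inj (hS : S.Nonempty) : (rFunctor p S pairing hnat).Hc1Inj :=
  fun f _ hf => Hc1Map_injective S hS f hf

/-- **(LE2)** of the dévissage: `H¹_c` is exact in the middle on short exact sequences with
admissible middle term. -/
theorem rFunctor_hc1Exact : (rFunctor p S pairing hnat).Hc1Exact :=
  fun {_ B _} ι π hses hB y hy => by
    have := hB.1
    exact Hc1Map_exact S ι π hses.inj hses.zero hses.exact hses.surj
      (H43.smoothOfHyp p S B hB.2.1 hB.2.2) y hy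

end Fermat.Agent.S55.H49

end
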