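import Fermat.Agent.S55.H49.ConeApi

/-!
# S55 / C0 (helper49): Shapiro's lemma for level-constant cohomology — definitions and statements

For a level datum `D` on `G`, a subgroup `H ≤ G` and `A : Rep k G`:

* `D.restrict H` : the restricted level datum on `H` (same levels);
* `coindRes H A = Coind_H^G (Res_H A)` (functions `f : G → A` with `f (h g) = h f g`);
* `sh D H A n : Hⁿ(D, Coind_H^G Res_H A) ⟶ Hⁿ(D|H, Res_H A)`, `[φ] ↦ [(h_i) ↦ φ (h_i) 1]`;
* the statements `ShInjStatement n`, `ShSurjStatement n`.
-/

set_option autoImplicit false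

open CategoryTheory groupCohomology

noncomputable section

namespace Fermat.Agent.S55.H49

variable {k : Type} [CommRing k] {G : Type} [Group G]

/-- The restriction of a level datum to a subgroup: same levels, structure map restricted. -/
def LevelDatum.restrict (D : LevelDatum G) (H : Subgroup G) : LevelDatum ↥H where
  r := D.r.comp H.subtype
  Lev := D.Lev
  bot := D.bot
  sup := D.sup

/-- The inclusion `H ≤ G` as a morphism of level data. -/
def LevelDatum.restrictHom (D : LevelDatum G) (H : Subgroup G) : (D.restrict H).Hom D where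
  φ := H.subtype
  comm _ := rfl
  lev h := h

theorem LevelDatum.mem_restrict_sub (D : LevelDatum G) (H : Subgroup G)
    (F : IntermediateField ℚ (AlgebraicClosure ℚ)) (h : ↥H) :
    h ∈ (D.restrict H).sub F ↔ (h : G) ∈ D.sub F := Iff.rfl

/-- `Coind_H^G (Res_H A)`: the functions `f : G → A` with `f (h g) = h f g`, `G` acting by right
translation. -/
abbrev coindRes (H : Subgroup G) (A : Rep.{0} k G) : Rep.{0} k G :=
  Rep.coind H.subtype (Rep.res H.subtype A)

theorem coindRes_ρ_apply (H : Subgroup G) (A : Rep.{0} k G) (g x : G) (f : coindRes H A) :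
    ((coindRes H A).ρ g f).1 x = f.1 (x * g) := rfl

theorem coindRes_equivariant (H : Subgroup G) (A : Rep.{0} k G) (f : coindRes H A) (h : ↥H)
    (x : G) : f.1 ((h : G) * x) = A.ρ (h : G) (f.1 x) := f.2 h x

/-- Evaluation at `1`, an `H`-equivariant map `Res_H Coind_H^G Res_H A ⟶ Res_H A`. -/
def coindEv (H : Subgroup G) (A : Rep.{0} k G) :
    Rep.res H.subtype (coindRes H A) ⟶ Rep.res H.subtype A :=
  Rep.ofHom
    { toLinearMap :=
        { toFun := fun f => (f : coindRes H A).1 1
          map_add' := fun _ _ => rfl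
          map_smul' := fun _ _ => rfl }
      isIntertwining' := fun h => by
        ext f
        show (f : coindRes H A).1 (1 * (h : G)) = A.ρ (h : G) ((f : coindRes H A).1 1)
        rw [one_mul, ← coindRes_equivariant H A f h 1, mul_one] }

theorem coindEv_apply (H : Subgroup G) (A : Rep.{0} k G) (f : coindRes H A) :
    (coindEv H A).hom f = f.1 1 := rfl

/-- The Shapiro map on level-constant cochains: restriction to `H` followed by evaluation at
`1`. -/
def shMap (D : LevelDatum G) (H : Subgroup G) (A : Rep.{0} k G) :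
    lcComplex D (coindRes H A) ⟶ lcComplex (D.restrict H) (Rep.res H.subtype A) :=
  lcMap (D.restrictHom H) (coindEv H A)

/-- The Shapiro map `Hⁿ(D, Coind_H^G Res_H A) ⟶ Hⁿ(D|H, Res_H A)`. -/
def sh (D : LevelDatum G) (H : Subgroup G) (A : Rep.{0} k G) (n : ℕ) :
    Hlc D (coindRes H A) n ⟶ Hlc (D.restrict H) (Rep.res H.subtype A) n :=
  HomologicalComplex.homologyMap (shMap D H A) n

theorem sh_cls (D : LevelDatum G) (H : Subgroup G) (A : Rep.{0} k G) (n : ℕ)
    (z : cyc (lcComplex D (coindRes H A)) n) :
    (sh D H A n).hom ((cls (lcComplex D (coindRes H A)) n).hom z) =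
      (cls (lcComplex (D.restrict H) (Rep.res H.subtype A)) n).hom (cycMap (shMap D H A) n z) :=
  homologyMap_cls _ n z

theorem lcValC_shMap (D : LevelDatum G) (H : Subgroup G) (A : Rep.{0} k G) (n : ℕ)
    (y : (lcComplex D (coindRes H A)).X n) (h : Fin n → ↥H) :
    lcValC (((shMap D H A).f n).hom y) h = (lcValC y (fun i => (h i : G))).1 1 := rfl

theorem lcVal_cycMap_shMap (D : LevelDatum G) (H : Subgroup G) (A : Rep.{0} k G) (n : ℕ)
    (z : cyc (lcComplex D (coindRes H A)) n) (h : Fin n → ↥H) :
    lcVal (cycMap (shMap D H A) n z) h = (lcVal z (fun i => (h i : G))).1 1 := rfl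

/-- **(SH-inj)** in degree `n`: the Shapiro map is injective, for a subgroup `H` containing a
normal level subgroup. -/
def ShInjStatement (n : ℕ) : Prop :=
  ∀ (k : Type) [CommRing k] (G : Type) [Group G] (D : LevelDatum G) (H : Subgroup G)
    (A : Rep.{0} k G),
    (∃ F : IntermediateField ℚ (AlgebraicClosure ℚ), D.Lev F ∧ (F.fixingSubgroup).Normal ∧
      D.sub F ≤ H) →
    Function.Injective (sh D H A n).hom

/-- **(SH-surj)** in degree `n`: the Shapiro map is surjective, for a subgroup `H` containing a
normal level subgroup. -/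
def ShSurjStatement (n : ℕ) : Prop :=
  ∀ (k : Type) [CommRing k] (G : Type) [Group G] (D : LevelDatum G) (H : Subgroup G)
    (A : Rep.{0} k G),
    (∃ F : IntermediateField ℚ (AlgebraicClosure ℚ), D.Lev F ∧ (F.fixingSubgroup).Normal ∧
      D.sub F ≤ H) →
    Function.Surjective (sh D H A n).hom

end Fermat.Agent.S55.H49

end
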