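import Fermat.Agent.S55.H49.CoeffChange
import Fermat.Agent.S55.H70.GSExports
import Fermat.Agent.S55.H99.ShapiroDefs

/-!
# S55 / C9b (helper49): the leaf `H70.ShapiroInj3Statement` from Shapiro injectivity in degree 3

For a finite extension `E` of `ℚ` unramified outside `S` and containing `μ_p`:

* `muEquiv` : `𝔽_p ≃+ μ_p` (a primitive `p`-th root of unity), equivariant for `Gal(ℚ̄/E)`
  (`muCoeff`), hence `Hⁿ⁺¹_lc(G_S(E), 𝔽_p) ≃+ Hⁿ⁺¹_lc(G_S(E), μ_p)` (`CoeffEquiv.coHEquiv`);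
* `shapiroInj3Statement_of` : helper99's `ShInjStatement 3` (Shapiro's lemma for level-constant
  cohomology, injectivity in degree 3) implies helper70's leaf `ShapiroInj3Statement p S`;
* `fpToMu_bijective` : the same comparison map in every positive degree is bijective as soon as
  the Shapiro map is.
-/

set_option autoImplicit false

open CategoryTheory groupCohomology

noncomputable section

namespace Fermat.Agent.S55.H49

local notation "Qb" => AlgebraicClosure ℚ

variable (p : ℕ) [Fact p.Prime]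

/-- The additive map `𝔽_p → μ_p`, `c ↦ c • m`, for an element `m` of `μ_p`. -/
def muHom (m : H42.Mux p) : ZMod p →+ H42.Mux p :=
  ZMod.lift p ⟨zmultiplesHom _ m, by
    have h : p • m = 0 := by
      apply H42.unitsRep.val_injective
      rw [H42.unitsRep.val_nsmul]
      exact H42.mem_muUnits.mp (H42.unitsRep.val_mem m)
    show ((p : ℕ) : ℤ) • m = 0
    rw [natCast_zsmul, h]⟩

theorem muHom_natCast (m : H42.Mux p) (i : ℕ) : muHom p m (i : ZMod p) = i • m := by
  have h := ZMod.lift_coe p (A := H42.Mux p) ⟨zmultiplesHom _ m, by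
    have h : p • m = 0 := by
      apply H42.unitsRep.val_injective
      rw [H42.unitsRep.val_nsmul]
      exact H42.mem_muUnits.mp (H42.unitsRep.val_mem m)
    show ((p : ℕ) : ℤ) • m = 0
    rw [natCast_zsmul, h]⟩ (i : ℤ)
  rw [Int.cast_natCast] at h
  refine h.trans ?_
  show ((i : ℕ) : ℤ) • m = i • m
  rw [natCast_zsmul]

theorem val_muHom (m : H42.Mux p) (c : ZMod p) :
    H42.unitsRep.val (muHom p m c) = H42.unitsRep.val m ^ c.val := by
  have hp : NeZero p := ⟨(Fact.out : p.Prime).ne_zero⟩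
  conv_lhs => rw [← ZMod.natCast_zmod_val c]
  rw [muHom_natCast, H42.unitsRep.val_nsmul]

/-- A generator of `μ_p`: the element attached to a primitive `p`-th root of unity. -/
def muGen {ζ : Qb} (hζ : IsPrimitiveRoot ζ p) : H42.Mux p :=
  H42.unitsRep.mk (hζ.isUnit (Fact.out : p.Prime).ne_zero).unit (by
    rw [H42.mem_muUnits]
    apply Units.ext
    rw [Units.val_pow_eq_pow_val, IsUnit.unit_spec, hζ.pow_eq_one, Units.val_one])

theorem val_muGen {ζ : Qb} (hζ : IsPrimitiveRoot ζ p) :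
    ((H42.unitsRep.val (muGen p hζ) : Qbˣ) : Qb) = ζ := rfl

theorem muHom_bijective {ζ : Qb} (hζ : IsPrimitiveRoot ζ p) :
    Function.Bijective (muHom p (muGen p hζ)) := by
  have hp : NeZero p := ⟨(Fact.out : p.Prime).ne_zero⟩
  constructor
  · rw [injective_iff_map_eq_zero]
    intro c hc
    have h1 : H42.unitsRep.val (muHom p (muGen p hζ) c) = 1 := by
      rw [hc, H42.unitsRep.val_zero]
    rw [val_muHom] at h1
    have h2 : ζ ^ c.val = 1 := by
      have := congrArg (fun u : Qbˣ => (u : Qb)) h1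
      simpa only [Units.val_pow_eq_pow_val, val_muGen, Units.val_one] using this
    have h3 : p ∣ c.val := (hζ.pow_eq_one_iff_dvd _).mp h2
    have h4 : c.val = 0 := Nat.eq_zero_of_dvd_of_lt h3 (ZMod.val_lt c)
    exact (ZMod.val_eq_zero c).mp h4
  · intro x
    have hx : ((H42.unitsRep.val x : Qbˣ) : Qb) ^ p = 1 := by
      rw [← Units.val_pow_eq_pow_val, H42.mem_muUnits.mp (H42.unitsRep.val_mem x), Units.val_one]
    obtain ⟨i, -, hi⟩ := hζ.eq_pow_of_pow_eq_one hx
    refine ⟨(i : ZMod p), H42.unitsRep.val_injective (Units.ext ?_)⟩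
    rw [muHom_natCast, H42.unitsRep.val_nsmul, Units.val_pow_eq_pow_val, val_muGen, hi]

/-- `𝔽_p ≃+ μ_p`, attached to a primitive `p`-th root of unity. -/
def muEquiv {ζ : Qb} (hζ : IsPrimitiveRoot ζ p) : ZMod p ≃+ H42.Mux p :=
  AddEquiv.ofBijective (muHom p (muGen p hζ)) (muHom_bijective p hζ)

variable (E : IntermediateField ℚ Qb)

omit [Fact p.Prime] in
/-- If `E` contains the `p`-th roots of unity, `Gal(ℚ̄/E)` acts trivially on `μ_p`. -/
theorem mux_fixed (hμ : ∀ ζ : Qb, ζ ^ p = 1 → ζ ∈ E) (g : ↥E.fixingSubgroup)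
    (x : H42.resF E (H42.Mux p)) : (H42.resF E (H42.Mux p)).ρ g x = x := by
  apply H42.unitsRep.val_injective
  show H42.unitsRep.val ((H42.Mux p).ρ (g : GQ) x) = H42.unitsRep.val x
  rw [H42.unitsRep.val_ρ]
  apply Units.ext
  rw [H42.coe_smul_units]
  refine (IntermediateField.mem_fixingSubgroup_iff E g.1).mp g.2 _ (hμ _ ?_)
  rw [← Units.val_pow_eq_pow_val, H42.mem_muUnits.mp (H42.unitsRep.val_mem x), Units.val_one]

/-- The trivial representation `𝔽_p` of `Gal(ℚ̄/E)`. -/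
abbrev fpRep : Rep.{0} (ZMod p) ↥E.fixingSubgroup :=
  Rep.trivial (ZMod p) ↥E.fixingSubgroup (ZMod p)

/-- `𝔽_p ≃ μ_p` as `Gal(ℚ̄/E)`-modules, for `E ⊇ μ_p`. -/
def muCoeff (hμ : ∀ ζ : Qb, ζ ^ p = 1 → ζ ∈ E) {ζ : Qb} (hζ : IsPrimitiveRoot ζ p) :
    CoeffEquiv (fpRep p E) (H42.resF E (H42.Mux p)) where
  e := muEquiv p hζ
  comm g _ := (mux_fixed p E hμ g _).symm

variable (S : Finset Nat.Primes)

theorem isRestrict_fieldDatum :
    H99.IsRestrict (globalDatum S) E.fixingSubgroup (H42.fieldDatum S E) :=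
  ⟨fun _ => rfl, fun _ => Iff.rfl⟩

variable {S E} in
theorem containsLevel_of_unramified (hE : E.IsUnramifiedOutside S) :
    H99.ContainsLevel (globalDatum S) E.fixingSubgroup := by
  obtain ⟨F', h1, h2, h3, -⟩ := H43.exists_normal_level hE
  exact ⟨F', h1, h3, fun s hs => IntermediateField.fixingSubgroup_antitone h2 hs⟩

/-- The comparison map `Hⁿ⁺¹(G_S, Coind_{G_E} 𝔽_p) → Hⁿ⁺¹_lc(G_S(E), μ_p)`: the Shapiro map
followed by the change of coefficients `𝔽_p ≃ μ_p`. -/
def fpToMu (hμ : ∀ ζ : Qb, ζ ^ p = 1 → ζ ∈ E) {ζ : Qb} (hζ : IsPrimitiveRoot ζ p) (n : ℕ) :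
    HS S (H12.coindTriv p E) (n + 1) →+ H70.HMu p S E (n + 1) :=
  ((muCoeff p E hμ hζ).coH (H42.fieldDatum S E) n).comp
    (H99.sh (isRestrict_fieldDatum E S) (fpRep p E) (n + 1)).toAddMonoidHom

theorem fpToMu_injective (hμ : ∀ ζ : Qb, ζ ^ p = 1 → ζ ∈ E) {ζ : Qb} (hζ : IsPrimitiveRoot ζ p)
    (n : ℕ) (h : Function.Injective (H99.sh (isRestrict_fieldDatum E S) (fpRep p E) (n + 1))) :
    Function.Injective (fpToMu p E S hμ hζ n) :=
  ((muCoeff p E hμ hζ).coH_injective (H42.fieldDatum S E) n).comp h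

theorem fpToMu_surjective (hμ : ∀ ζ : Qb, ζ ^ p = 1 → ζ ∈ E) {ζ : Qb} (hζ : IsPrimitiveRoot ζ p)
    (n : ℕ) (h : Function.Surjective (H99.sh (isRestrict_fieldDatum E S) (fpRep p E) (n + 1))) :
    Function.Surjective (fpToMu p E S hμ hζ n) :=
  ((muCoeff p E hμ hζ).coH_surjective (H42.fieldDatum S E) n).comp h

/-- **(SH-inj-3)**: helper70's leaf `ShapiroInj3Statement p S` from Shapiro injectivity in
degree 3 for level-constant cohomology (helper99's `ShInjStatement 3`). -/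
theorem shapiroInj3Statement_of (h : H99.ShInjStatement 3) : H70.ShapiroInj3Statement p S := by
  intro E hE hμ
  have hp : NeZero ((p : ℕ) : ℚ) := ⟨Nat.cast_ne_zero.mpr (Fact.out : p.Prime).ne_zero⟩
  obtain ⟨ζ, hζ⟩ := HasEnoughRootsOfUnity.exists_primitiveRoot Qb p
  exact ⟨fpToMu p E S hμ hζ 2, fpToMu_injective p E S hμ hζ 2
    (h _ _ _ _ _ (isRestrict_fieldDatum E S) (containsLevel_of_unramified hE) _)⟩

end Fermat.Agent.S55.H49

end
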