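import Fermat.Agent.S55.H49.ShapiroInj3
import Fermat.Agent.S55.H99.Shapiro

/-!
# S55 / C9b (helper49): the leaf `H70.ShapiroInj3Statement`, unconditionally

`shapiroInj3Statement` : helper70's leaf (SH-inj-3), from helper99's `shInj_three`;
`fpToMu_two_bijective` : `H²(G_S, Coind_{G_E} 𝔽_p) ≃ H²_lc(G_S(E), μ_p)` for `E ⊇ μ_p` finite and
unramified outside `S` (from helper99's `shInj_two`, `shSurj_two`), with the additive equivalence
`fpToMuEquiv`.
-/

set_option autoImplicit false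

open CategoryTheory groupCohomology

noncomputable section

namespace Fermat.Agent.S55.H49

local notation "Qb" => AlgebraicClosure ℚ

variable (p : ℕ) [Fact p.Prime] (S : Finset Nat.Primes)

/-- **(SH-inj-3)**: helper70's leaf `ShapiroInj3Statement p S`. -/
theorem shapiroInj3Statement : H70.ShapiroInj3Statement p S :=
  shapiroInj3Statement_of p S H99.shInj_three

variable {S} (E : IntermediateField ℚ Qb)

/-- Degree 2: `H²(G_S, Coind_{G_E} 𝔽_p) → H²_lc(G_S(E), μ_p)` is bijective. -/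
theorem fpToMu_two_bijective (hE : E.IsUnramifiedOutside S) (hμ : ∀ ζ : Qb, ζ ^ p = 1 → ζ ∈ E)
    {ζ : Qb} (hζ : IsPrimitiveRoot ζ p) : Function.Bijective (fpToMu p E S hμ hζ 1) :=
  ⟨fpToMu_injective p E S hμ hζ 1
      (H99.shInj_two _ _ _ _ _ (isRestrict_fieldDatum E S) (containsLevel_of_unramified hE) _),
    fpToMu_surjective p E S hμ hζ 1
      (H99.shSurj_two _ _ _ _ _ (isRestrict_fieldDatum E S) (containsLevel_of_unramified hE) _)⟩

/-- Degree 2: `H²(G_S, Coind_{G_E} 𝔽_p) ≃+ H²_lc(G_S(E), μ_p)`. -/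
def fpToMuEquiv (hE : E.IsUnramifiedOutside S) (hμ : ∀ ζ : Qb, ζ ^ p = 1 → ζ ∈ E)
    {ζ : Qb} (hζ : IsPrimitiveRoot ζ p) : HS S (H12.coindTriv p E) 2 ≃+ H70.HMu p S E 2 :=
  AddEquiv.ofBijective (fpToMu p E S hμ hζ 1) (fpToMu_two_bijective p E hE hμ hζ)

theorem fpToMuEquiv_apply (hE : E.IsUnramifiedOutside S) (hμ : ∀ ζ : Qb, ζ ^ p = 1 → ζ ∈ E)
    {ζ : Qb} (hζ : IsPrimitiveRoot ζ p) (x : HS S (H12.coindTriv p E) 2) :
    fpToMuEquiv p E hE hμ hζ x = fpToMu p E S hμ hζ 1 x := rfl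

/-- **(X-CD)** with the Shapiro leaf discharged: helper12's `H3CoindStatement` from the
arithmetic statement of C9b alone. -/
theorem h3CoindStatement_of_arith (hpS : ExtCitation.pPrime p ∈ S) {T : Type} [AddCommGroup T]
    (hA : H70.ArithStatement p S T) : H12.H3CoindStatement p S :=
  H70.h3CoindStatement_of hpS (shapiroInj3Statement p S) hA

end Fermat.Agent.S55.H49

end
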